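import Fermat.Agent.QVal.Inert
import Fermat.Agent.QComp.Theta

/-!
# The derivation `θ` and the middle reductions (V8)
-/

set_option autoImplicit false
set_option linter.unusedSectionVars false
set_option linter.style.haveILetI false
set_option linter.unusedVariables false

noncomputable section
open AlgebraicCurve ModularCurve IntermediateField Fermat.Agent.JZ Polynomial Fermat.Agent.Red
open Fermat.Agent.QComp (theta theta_coeff theta_mul theta_C theta_coeffMap)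

namespace Fermat.Agent.QVal

open ModFn

local notation "Qb" => AlgebraicClosure ℚ
local notation "Γℚ" => (AlgebraicClosure ℚ ≃ₐ[ℚ] AlgebraicClosure ℚ)

variable {k : Type*} [Field k] {A : ValuationSubring Qb} {π : A →+* k} {M q : ℕ} [NeZero M] [NeZero q]
  [hqf : Fact q.Prime]

section roots

/-- the root of unity in `A` -/
def rA (A : ValuationSubring Qb) (ζ : RU q) : Aˣ :=
  Units.ofPowEqOne (⟨((ζ : Qbˣ) : Qb), RU.mem A ζ⟩ : A) q (Subtype.ext (RU.val_pow ζ)) hqf.out.ne_zero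

theorem coe_rA (ζ : RU q) : ((rA A ζ : A) : Qb) = ((ζ : Qbˣ) : Qb) := rfl

theorem map_rA (ζ : RU q) : Units.map A.subtype.toMonoidHom (rA A ζ) = (ζ : Qbˣ) := Units.ext rfl

theorem pi_rA (hA : A.LiesOverPrime q) (hπ : ∀ a : A, π a = 0 ↔ ¬ IsUnit a) (ζ : RU q) :
    π (rA A ζ : A) = 1 := by
  have hch := charP_of_liesOverPrime hA hπ
  have hζpow : (rA A ζ : A) ^ q = 1 := Subtype.ext (RU.val_pow ζ)
  have h1 : (π (rA A ζ : A)) ^ q = 1 := by rw [← map_pow, hζpow, map_one]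
  have h2 : (π (rA A ζ : A) - 1) ^ q = 0 := by
    rw [sub_pow_char, h1, one_pow, sub_self]
  exact sub_eq_zero.1 (pow_eq_zero_iff hqf.out.ne_zero |>.1 h2)

theorem map_pi_rA (hA : A.LiesOverPrime q) (hπ : ∀ a : A, π a = 0 ↔ ¬ IsUnit a) (ζ : RU q) :
    Units.map π.toMonoidHom (rA A ζ) = 1 := Units.ext (pi_rA hA hπ ζ)

/-- the quotients `(1 - ζ^n) / (1 - ζ)` -/
theorem exists_quot (hA : A.LiesOverPrime q) (hπ : ∀ a : A, π a = 0 ↔ ¬ IsUnit a) (ζ : RU q) (n : ℤ) :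
    ∃ c : A, c * (1 - (rA A ζ : A)) = 1 - ((rA A ζ ^ n : Aˣ) : A) ∧ π c = n := by
  rcases n with n | n
  · refine ⟨∑ i ∈ Finset.range n, (rA A ζ : A) ^ i, ?_, ?_⟩
    · rw [geom_sum_mul_neg, Int.ofNat_eq_natCast, zpow_natCast, Units.val_pow_eq_pow_val]
    · rw [map_sum]
      simp only [map_pow, pi_rA hA hπ ζ, one_pow, Finset.sum_const, Finset.card_range, nsmul_eq_mul,
        mul_one, Int.ofNat_eq_natCast, Int.cast_natCast]
  · refine ⟨-((rA A ζ ^ (Int.negSucc n) : Aˣ) : A) * ∑ i ∈ Finset.range (n + 1), (rA A ζ : A) ^ i, ?_, ?_⟩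
    · rw [mul_assoc, geom_sum_mul_neg, zpow_negSucc, ← Units.val_pow_eq_pow_val]
      rw [mul_sub, mul_one, neg_mul, Units.inv_mul]
      ring
    · have h1 : π ((rA A ζ ^ (Int.negSucc n) : Aˣ) : A) = 1 := by
        have h2 : Units.map π.toMonoidHom (rA A ζ ^ (Int.negSucc n)) = 1 := by
          rw [map_zpow, map_pi_rA hA hπ, one_zpow]
        exact congrArg (fun u : kˣ => (u : k)) h2
      rw [map_mul, map_neg, h1, map_sum]
      simp only [map_pow, pi_rA hA hπ ζ, one_pow, Finset.sum_const, Finset.card_range, nsmul_eq_mul,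
        mul_one, Int.cast_negSucc]
      ring

/-- the quotient of `1 - twist` by `1 - ζ` on series over `A` -/
theorem exists_D (hA : A.LiesOverPrime q) (hπ : ∀ a : A, π a = 0 ↔ ¬ IsUnit a) (ζ : RU q)
    (a : LaurentSeries A) : ∃ d : LaurentSeries A,
      twist (rA A ζ) a = a - HahnSeries.C (1 - (rA A ζ : A)) * d ∧ rhoA π d = theta k (rhoA π a) := by
  choose c hc1 hc2 using exists_quot hA hπ ζ
  refine ⟨⟨fun n => c n * a.coeff n, a.isPWO_support.mono fun n hn => ?_⟩, ?_, ?_⟩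
  · rw [Function.mem_support] at hn
    rw [HahnSeries.mem_support]
    exact fun h => hn (by rw [h, mul_zero])
  · ext n
    rw [twist_coeff, HahnSeries.coeff_sub, HahnSeries.C_mul_eq_smul, HahnSeries.coeff_smul, smul_eq_mul]
    have h1 : ((rA A ζ ^ n : Aˣ) : A) = 1 - c n * (1 - (rA A ζ : A)) := by rw [hc1]; ring
    rw [h1]
    ring_nf
  · ext n
    rw [coeffMap_coeff, theta_coeff, coeffMap_coeff, map_mul, hc2]

/-- **(V8)** the basic congruence -/
theorem gRed_diff (hA : A.LiesOverPrime q) (hπ : ∀ a : A, π a = 0 ↔ ¬ IsUnit a) {ζ : RU q} (h : ζ ≠ 1)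
    {u : LaurentSeries Qb} {z : LaurentSeries k} (hz : GRed π u z) :
    GRed π (algebraMap Qb (LaurentSeries Qb) (1 - ((ζ : Qbˣ) : Qb))⁻¹ * (u - twist (ζ : Qbˣ) u))
      (theta k z) := by
  obtain ⟨a, b, hb, h1, h2⟩ := hz
  obtain ⟨da, hda, hda'⟩ := exists_D hA hπ ζ a
  obtain ⟨db, hdb, hdb'⟩ := exists_D hA hπ ζ b
  have htw : ∀ c : LaurentSeries A, iotaA A (twist (rA A ζ) c) = twist (ζ : Qbˣ) (iotaA A c) := by
    intro c
    rw [iotaA, ModFn.coeffMap_twist]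
    exact congrArg (fun t => twist t (coeffMap A.subtype c)) (map_rA ζ)
  have hρ : ∀ c : LaurentSeries A, rhoA π (twist (rA A ζ) c) = rhoA π c := by
    intro c
    rw [rhoA, ModFn.coeffMap_twist]
    have h3 := map_pi_rA hA hπ ζ
    change twist (Units.map π.toMonoidHom (rA A ζ)) _ = _
    rw [h3, twist_one]
  have hC : iotaA A (HahnSeries.C (1 - (rA A ζ : A))) =
      algebraMap Qb (LaurentSeries Qb) (1 - ((ζ : Qbˣ) : Qb)) := by
    rw [iotaA, coeffMap_single_zero, algebraMap_eq_C]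
    rfl
  have hne : algebraMap Qb (LaurentSeries Qb) (1 - ((ζ : Qbˣ) : Qb)) ≠ 0 := by
    rw [Ne, map_eq_zero]; exact one_sub_ne h
  refine ⟨b * da - a * db, b * twist (rA A ζ) b, ?_, ?_, ?_⟩
  · rw [map_mul, hρ]; exact mul_ne_zero hb hb
  · have h3 : twist (ζ : Qbˣ) u * iotaA A (twist (rA A ζ) b) = iotaA A (twist (rA A ζ) a) := by
      rw [htw, htw, ← map_mul, h1]
    have h4 : (u - twist (ζ : Qbˣ) u) * iotaA A (b * twist (rA A ζ) b) =
        iotaA A (a * twist (rA A ζ) b - b * twist (rA A ζ) a) := by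
      rw [map_sub, map_mul, map_mul, map_mul, sub_mul, ← h3, ← h1]
      ring
    rw [mul_assoc, h4, hda, hdb]
    have h5 : a * (b - HahnSeries.C (1 - (rA A ζ : A)) * db) - b * (a - HahnSeries.C (1 - (rA A ζ : A)) * da) =
        HahnSeries.C (1 - (rA A ζ : A)) * (b * da - a * db) := by ring
    rw [h5, map_mul, hC, ← mul_assoc, map_inv₀, inv_mul_cancel₀ hne, one_mul]
  · rw [map_mul, map_sub, map_mul, map_mul, hρ, hda', hdb']
    have h3 := congrArg (theta k) h2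
    rw [theta_mul] at h3
    rw [← h3, ← h2]
    ring

/-- `q = (1 - ζ)^(q-1) * w` with `w ≡ -1` -/
theorem exists_q_eq (hA : A.LiesOverPrime q) (hπ : ∀ a : A, π a = 0 ↔ ¬ IsUnit a) {ζ : RU q} (h : ζ ≠ 1) :
    ∃ w : A, (q : Qb) = (1 - ((ζ : Qbˣ) : Qb)) ^ (q - 1) * (w : Qb) ∧ π w = -1 := by
  have hch := charP_of_liesOverPrime hA hπ
  obtain ⟨n, hn⟩ : ∃ n, q = n + 1 := ⟨q - 1, (Nat.succ_pred_eq_of_pos hqf.out.pos).symm⟩
  have hprim : IsPrimitiveRoot ((ζ : Qbˣ) : Qb) (n + 1) := by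
    have h1 : IsPrimitiveRoot ((ζ : Qbˣ) : Qb) (orderOf ((ζ : Qbˣ) : Qb)) := IsPrimitiveRoot.orderOf _
    have h2 : orderOf ((ζ : Qbˣ) : Qb) = q := by
      rcases (Nat.dvd_prime hqf.out).1 (orderOf_dvd_of_pow_eq_one (RU.val_pow ζ)) with h3 | h3
      · exact absurd (orderOf_eq_one_iff.1 h3) (RU.val_ne h)
      · exact h3
    rw [h2] at h1
    rw [← hn]
    exact h1
  have h1 := hprim.prod_one_sub_pow_eq_order
  refine ⟨∏ j ∈ Finset.range n, ∑ i ∈ Finset.range (j + 1), (rA A ζ : A) ^ i, ?_, ?_⟩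
  · have h2 : (q : Qb) = (n : Qb) + 1 := by rw [hn]; push_cast; rfl
    have h3 : q - 1 = n := by omega
    rw [h2, ← h1, h3]
    have h4 : ∀ j ∈ Finset.range n, (1 - ((ζ : Qbˣ) : Qb) ^ (j + 1)) =
        (1 - ((ζ : Qbˣ) : Qb)) * ∑ i ∈ Finset.range (j + 1), ((ζ : Qbˣ) : Qb) ^ i := by
      intro j _
      rw [mul_comm, geom_sum_mul_neg]
    rw [Finset.prod_congr rfl h4, Finset.prod_mul_distrib, Finset.prod_const, Finset.card_range]
    congr 1
    have h5 : ((∏ j ∈ Finset.range n, ∑ i ∈ Finset.range (j + 1), (rA A ζ : A) ^ i : A) : Qb) =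
      A.subtype (∏ j ∈ Finset.range n, ∑ i ∈ Finset.range (j + 1), (rA A ζ : A) ^ i) := rfl
    rw [h5, map_prod]
    refine Finset.prod_congr rfl fun j _ => ?_
    rw [map_sum]
    refine Finset.sum_congr rfl fun i _ => ?_
    rw [map_pow]
    rfl
  · rw [map_prod]
    have h2 : ∀ j ∈ Finset.range n, π (∑ i ∈ Finset.range (j + 1), (rA A ζ : A) ^ i) = ((j + 1 : ℕ) : k) := by
      intro j _
      rw [map_sum]
      simp only [map_pow, pi_rA hA hπ ζ, one_pow, Finset.sum_const, Finset.card_range, nsmul_eq_mul, mul_one]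
    rw [Finset.prod_congr rfl h2, ← Nat.cast_prod, Finset.prod_range_add_one_eq_factorial]
    have h3 := ZMod.wilsons_lemma q
    have h4 := congrArg (ZMod.castHom (dvd_refl q) k) h3
    rw [map_natCast, map_neg, map_one] at h4
    have h5 : q - 1 = n := by omega
    rwa [h5] at h4

end roots

/-- the function `t = u(τ) - u(q² τ)` -/
def tt (M q : ℕ) [NeZero M] [NeZero q] (u : FB M) : FB (M * q * q) :=
  al2 M q (al1 M q u) - be2 M q (be1 M q u)

theorem epsU_tt {hM : ¬ q ∣ M} {ζ : RU q} {h : ζ ≠ 1} (u : FB M) :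
    epsU hM h (tt M q u) = (u : LaurentSeries Qb) - twist (ζ : Qbˣ) (u : LaurentSeries Qb) := by
  rw [tt, map_sub, epsU_al_al, epsU_be_be]

/-- **(V8)** `t / (1 - ζ) → θ z` on the middle component -/
theorem gRed_mid_tt (hA : A.LiesOverPrime q) (hπ : ∀ a : A, π a = 0 ↔ ¬ IsUnit a) {hM : ¬ q ∣ M}
    {ζ : RU q} {h : ζ ≠ 1} {u : FB M} {z : LaurentSeries k} (hz : GRed π (u : LaurentSeries Qb) z) :
    GRed π (epsU hM h (algebraMap Qb (FB (M * q * q)) (1 - ((ζ : Qbˣ) : Qb))⁻¹ * tt M q u)) (theta k z) := by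
  rw [map_mul, epsU_tt, AlgHom.commutes]
  exact gRed_diff hA hπ h hz

/-- **(V8)** `t^(q-1) / q → - (θ z)^(q-1)` on the middle component -/
theorem gRed_mid_tt_pow (hA : A.LiesOverPrime q) (hπ : ∀ a : A, π a = 0 ↔ ¬ IsUnit a) {hM : ¬ q ∣ M}
    {ζ : RU q} {h : ζ ≠ 1} {u : FB M} {z : LaurentSeries k} (hz : GRed π (u : LaurentSeries Qb) z) :
    GRed π (epsU hM h (algebraMap Qb (FB (M * q * q)) (q : Qb)⁻¹ * (tt M q u) ^ (q - 1)))
      (-(theta k z) ^ (q - 1)) := by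
  obtain ⟨w, hw, hπw⟩ := exists_q_eq hA hπ h
  have hwu : IsUnit w := by
    by_contra h1
    rw [(hπ w).2 h1] at hπw
    exact one_ne_zero (neg_eq_zero.1 hπw.symm)
  obtain ⟨w', hw'⟩ := hwu.exists_right_inv
  have hw'' : (w : Qb) * (w' : Qb) = 1 := congrArg Subtype.val hw'
  have hπw' : π w' = -1 := by
    have h1 : π w * π w' = 1 := by rw [← map_mul, hw', map_one]
    rw [hπw, neg_one_mul] at h1
    rw [← neg_neg (π w'), h1]
  have h1 := gRed_smul (gRed_pow (gRed_mid_tt hA hπ (hM := hM) (h := h) hz) (q - 1)) w'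
  rw [hπw', map_neg, map_one, neg_one_mul] at h1
  have h2 : epsU hM h (algebraMap Qb (FB (M * q * q)) (q : Qb)⁻¹ * (tt M q u) ^ (q - 1)) =
      algebraMap Qb (LaurentSeries Qb) w' *
        (epsU hM h (algebraMap Qb (FB (M * q * q)) (1 - ((ζ : Qbˣ) : Qb))⁻¹ * tt M q u)) ^ (q - 1) := by
    have h3 : (1 - ((ζ : Qbˣ) : Qb)) ^ (q - 1) ≠ 0 := pow_ne_zero _ (one_sub_ne h)
    have h5 : (q : Qb)⁻¹ = (w' : Qb) * ((1 - ((ζ : Qbˣ) : Qb))⁻¹) ^ (q - 1) := by
      rw [hw, inv_pow, mul_inv, mul_comm (w' : Qb)]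
      congr 1
      exact inv_eq_of_mul_eq_one_right hw''
    rw [map_mul, map_mul, map_pow, AlgHom.commutes, AlgHom.commutes, mul_pow, h5, map_mul,
      map_pow (algebraMap Qb (LaurentSeries Qb)), mul_assoc]
  rw [h2]
  exact h1

/-- `(θ z)^(q-1) ∈ kap` for `z ∈ kap` -/
theorem theta_pow_mem (hA : A.LiesOverPrime q) (hπ : ∀ a : A, π a = 0 ↔ ¬ IsUnit a)
    (hs : Function.Surjective π) (hM : ¬ q ∣ M) {z : LaurentSeries k}
    (hz : z ∈ modularFunctionFieldFullC k M) : (theta k z) ^ (q - 1) ∈ modularFunctionFieldFullC k M := by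
  rw [← gaussRes_bar M hA hπ hs hM] at hz
  obtain ⟨f, hf, hfz⟩ := hz
  have h1 : ∀ (ζ : RU q) (h : ζ ≠ 1), GRed π (epsU hM h (algebraMap Qb (FB (M * q * q)) (q : Qb)⁻¹ *
      (tt M q ⟨f, hf⟩) ^ (q - 1))) (-(theta k z) ^ (q - 1)) :=
    fun ζ h => gRed_mid_tt_pow hA hπ (u := ⟨f, hf⟩) hfz
  have h2 := neg_mem (mid_mem_kap hA hπ hs hM h1)
  rwa [neg_neg] at h2

end Fermat.Agent.QVal
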