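import Fermat.Agent.QVal.Inert

/-!
# Value groups of inertia invariant functions (V7)
-/

set_option autoImplicit false
set_option linter.unusedSectionVars false
set_option linter.style.haveILetI false
set_option linter.unusedVariables false

noncomputable section
open AlgebraicCurve ModularCurve IntermediateField Fermat.Agent.JZ Polynomial Fermat.Agent.Red

namespace Fermat.Agent.QVal

open ModFn

local notation "Qb" => AlgebraicClosure ℚ
local notation "Γℚ" => (AlgebraicClosure ℚ ≃ₐ[ℚ] AlgebraicClosure ℚ)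

section Lam

variable (K : Type*) {L : Type*} [Field K] [Field L] [Algebra K L]

/-- a linear functional applied to the coefficients -/
def lamS (lam : L →ₗ[K] K) (P : LaurentSeries L) : LaurentSeries L where
  coeff n := algebraMap K L (lam (P.coeff n))
  isPWO_support' := P.isPWO_support.mono fun n hn => by
    rw [Function.mem_support] at hn
    rw [HahnSeries.mem_support]
    exact fun h => hn (by rw [h, map_zero, map_zero])

variable {K}

theorem lamS_coeff (lam : L →ₗ[K] K) (P : LaurentSeries L) (n : ℤ) :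
    (lamS K lam P).coeff n = algebraMap K L (lam (P.coeff n)) := rfl

theorem lamS_add (lam : L →ₗ[K] K) (P Q : LaurentSeries L) :
    lamS K lam (P + Q) = lamS K lam P + lamS K lam Q := by
  ext n
  rw [lamS_coeff, HahnSeries.coeff_add, HahnSeries.coeff_add, lamS_coeff, lamS_coeff, map_add, map_add]

theorem lamS_zero (lam : L →ₗ[K] K) : lamS K lam (0 : LaurentSeries L) = 0 := by
  ext n
  rw [lamS_coeff, HahnSeries.coeff_zero, map_zero, map_zero]

theorem lamS_sum {ι : Type*} (lam : L →ₗ[K] K) (s : Finset ι) (P : ι → LaurentSeries L) :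
    lamS K lam (∑ i ∈ s, P i) = ∑ i ∈ s, lamS K lam (P i) := by
  classical
  induction s using Finset.induction_on with
  | empty => rw [Finset.sum_empty, Finset.sum_empty, lamS_zero]
  | insert i s his ih => rw [Finset.sum_insert his, Finset.sum_insert his, lamS_add, ih]

/-- linearity over series with coefficients in `K` -/
theorem lamS_mul (lam : L →ₗ[K] K) {f : LaurentSeries L} (hf : ∀ n, f.coeff n ∈ (algebraMap K L).range)
    (P : LaurentSeries L) : lamS K lam (f * P) = f * lamS K lam P := by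
  have hsupp : (lamS K lam P).support ⊆ P.support := by
    intro n hn
    rw [HahnSeries.mem_support, lamS_coeff] at hn
    rw [HahnSeries.mem_support]
    exact fun h' => hn (by rw [h', map_zero, map_zero])
  ext n
  rw [lamS_coeff, HahnSeries.coeff_mul, HahnSeries.coeff_mul_right' P.isPWO_support hsupp, map_sum, map_sum]
  refine Finset.sum_congr rfl fun ij _ => ?_
  obtain ⟨c, hc⟩ := hf ij.1
  rw [← hc, lamS_coeff, ← Algebra.smul_def, map_smul, smul_eq_mul, map_mul]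

theorem lamS_C_mul (lam : L →ₗ[K] K) (c : L) (y : LaurentSeries ℤ) :
    lamS K lam (algebraMap L (LaurentSeries L) c * coeffMap (Int.castRingHom L) y) =
      algebraMap L (LaurentSeries L) (algebraMap K L (lam c)) * coeffMap (Int.castRingHom L) y := by
  ext n
  rw [lamS_coeff, coeff_algebraMap_mul, coeff_algebraMap_mul, coeffMap_coeff]
  have h1 : c * (Int.castRingHom L) (y.coeff n) = (y.coeff n) • c := by
    rw [zsmul_eq_mul, mul_comm]; rfl
  rw [h1, map_zsmul, map_zsmul, zsmul_eq_mul, mul_comm]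
  rfl

end Lam

section Rep

variable {L : Type*} [Field L]

/-- elements of the algebra generated by integral series are combinations of integral series -/
theorem exists_rep (G : Set (LaurentSeries L))
    (hG : ∀ g ∈ G, ∃ y : LaurentSeries ℤ, g = coeffMap (Int.castRingHom L) y) :
    ∀ P ∈ Algebra.adjoin L G, ∃ (ι : Type) (_ : Fintype ι) (c : ι → L)
        (y : ι → LaurentSeries ℤ),
        P = ∑ i, algebraMap L (LaurentSeries L) (c i) * coeffMap (Int.castRingHom L) (y i) := by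
  classical
  intro P hP
  induction hP using Algebra.adjoin_induction with
  | mem x hx =>
    obtain ⟨y, rfl⟩ := hG x hx
    exact ⟨Unit, inferInstance, fun _ => 1, fun _ => y, by simp⟩
  | algebraMap r => exact ⟨Unit, inferInstance, fun _ => r, fun _ => 1, by simp⟩
  | add u v _ _ hu hv =>
    obtain ⟨ι, _, c, y, rfl⟩ := hu
    obtain ⟨ι', _, c', y', rfl⟩ := hv
    exact ⟨ι ⊕ ι', inferInstance, Sum.elim c c', Sum.elim y y', by simp⟩
  | mul u v _ _ hu hv =>
    obtain ⟨ι, _, c, y, rfl⟩ := hu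
    obtain ⟨ι', _, c', y', rfl⟩ := hv
    refine ⟨ι × ι', inferInstance, fun p => c p.1 * c' p.2, fun p => y p.1 * y' p.2, ?_⟩
    rw [Finset.sum_mul_sum, Fintype.sum_prod_type]
    refine Finset.sum_congr rfl fun i _ => Finset.sum_congr rfl fun j _ => ?_
    rw [map_mul, map_mul]
    ring

theorem lamS_good {K : Type*} [Field K] [Algebra K L] [Algebra ℚ L] [Algebra.IsAlgebraic ℚ L]
    {A : ValuationSubring L} (lam : L →ₗ[K] K) (G : Set (LaurentSeries L))
    (hG : ∀ g ∈ G, ∃ y : LaurentSeries ℤ, g = coeffMap (Int.castRingHom L) y)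
    {P : LaurentSeries L} (hP : P ∈ Algebra.adjoin L G) : Good A (lamS K lam P) := by
  classical
  obtain ⟨ι, _, c, y, rfl⟩ := exists_rep G hG P hP
  rw [lamS_sum]
  have key : ∀ s : Finset ι, Good A (∑ i ∈ s, lamS K lam (algebraMap L (LaurentSeries L) (c i) *
      coeffMap (Int.castRingHom L) (y i))) := by
    intro s
    induction s using Finset.induction_on with
    | empty => rw [Finset.sum_empty]; exact Good.zero
    | insert i s his ih =>
      rw [Finset.sum_insert his, lamS_C_mul]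
      exact ((Good.const _).mul (Good.of_int _)).add ih
  exact key _

end Rep

section Fixed

variable {k : Type*} [Field k] {A : ValuationSubring Qb} {π : A →+* k} {q : ℕ} [hqf : Fact q.Prime]

/-- the fixed field of inertia -/
abbrev FixI (A : ValuationSubring Qb) : IntermediateField ℚ Qb :=
  IntermediateField.fixedField (A.inertiaSubgroupIn ℚ)

theorem mem_FixI {x : Qb} : x ∈ FixI A ↔ ∀ σ ∈ A.inertiaSubgroupIn ℚ, σ x = x := by
  rw [IntermediateField.mem_fixedField_iff]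

/-- **(V7)** the Gauss norm of an inertia invariant series of `FB N` is a power of `q` -/
theorem exists_zpow_gRed (hA : A.LiesOverPrime q) (hπ : ∀ a : A, π a = 0 ↔ ¬ IsUnit a) {N : ℕ}
    {f : LaurentSeries Qb} (hf : f ∈ FB N) (hf0 : f ≠ 0)
    (hI : ∀ σ ∈ A.inertiaSubgroupIn ℚ, coeffMap (σ : Qb →+* Qb) f = f) :
    ∃ (n : ℤ) (z : LaurentSeries k), z ≠ 0 ∧
      GRed π (algebraMap Qb (LaurentSeries Qb) ((q : Qb) ^ n) * f) z := by
  have : Algebra.IsAlgebraic ℚ Qb := AlgebraicClosure.isAlgebraic ℚ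
  have hK : ∀ n, f.coeff n ∈ (algebraMap (FixI A) Qb).range := by
    intro n
    have h1 : f.coeff n ∈ FixI A := by
      rw [mem_FixI]
      intro σ hσ
      have h2 := congrArg (fun s => HahnSeries.coeff s n) (hI σ hσ)
      simp only [coeffMap_coeff] at h2
      exact h2
    exact ⟨⟨_, h1⟩, rfl⟩
  rw [show FB N = laurentBaseChange Qb (modularFunctionFieldFull N) from rfl, S24Lib.laurentBaseChange_eq,
    IntermediateField.mem_adjoin_iff_div] at hf
  obtain ⟨r, hr, s, hs, hrs⟩ := hf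
  have hG : ∀ g ∈ S24Lib.gensK Qb N, ∃ y : LaurentSeries ℤ, g = coeffMap (Int.castRingHom Qb) y := by
    rintro g ⟨d, hd, hdN, rfl⟩
    exact ⟨qExpand ℤ d (jqModC ℤ), by rw [ModFn.coeffMap_qExpand, ModFn.coeffMap_jqModC]⟩
  have hs0 : s ≠ 0 := by
    rintro rfl
    rw [div_zero] at hrs
    exact hf0 hrs
  -- choose a functional
  obtain ⟨m, hm⟩ : ∃ m, s.coeff m ≠ 0 := by
    by_contra h
    push Not at h
    exact hs0 (HahnSeries.ext (funext h))
  obtain ⟨lam, hlam⟩ : ∃ lam : Module.Dual (FixI A) Qb, lam (s.coeff m) ≠ 0 := by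
    by_contra h
    push Not at h
    exact hm ((Module.forall_dual_apply_eq_zero_iff (FixI A) _).1 h)
  have h1 : f * lamS (FixI A) lam s = lamS (FixI A) lam r := by
    rw [← lamS_mul lam hK, hrs, div_mul_cancel₀ _ hs0]
  have hs1 : lamS (FixI A) lam s ≠ 0 := by
    intro h
    have h2 := congrArg (fun s => HahnSeries.coeff s m) h
    simp only [lamS_coeff, HahnSeries.coeff_zero] at h2
    exact hlam (by simpa using h2)
  have hr1 : lamS (FixI A) lam r ≠ 0 := by rw [← h1]; exact mul_ne_zero hf0 hs1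
  obtain ⟨i, a, hi, ha, hia⟩ := (lamS_good (A := A) lam _ hG hr).exists_scale π hqf.out hA hr1
  obtain ⟨j, b, hj, hb, hjb⟩ := (lamS_good (A := A) lam _ hG hs).exists_scale π hqf.out hA hs1
  generalize hci : (lamS (FixI A) lam r).coeff i = c at *
  generalize hdj : (lamS (FixI A) lam s).coeff j = d at *
  have hcK : ∀ σ ∈ A.inertiaSubgroupIn ℚ, σ c = c := by
    rw [← mem_FixI, ← hci, lamS_coeff]
    exact (lam (r.coeff i)).2
  have hdK : ∀ σ ∈ A.inertiaSubgroupIn ℚ, σ d = d := by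
    rw [← mem_FixI, ← hdj, lamS_coeff]
    exact (lam (s.coeff j)).2
  have hcd : ∀ σ ∈ A.inertiaSubgroupIn ℚ, σ (d / c) = d / c := by
    intro σ hσ
    rw [map_div₀, hcK σ hσ, hdK σ hσ]
  -- `f = (c / d) (a / b)`
  obtain ⟨n, hn1, hn2⟩ := CFT.Loc.exists_zpow_of_inertia hqf.out hA (div_ne_zero hj hi) hcd
  have hd' : algebraMap Qb (LaurentSeries Qb) d ≠ 0 := by simpa using hj
  have hc' : algebraMap Qb (LaurentSeries Qb) c ≠ 0 := by simpa using hi
  have hq0 : (q : Qb) ≠ 0 := by exact_mod_cast hqf.out.ne_zero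
  -- the unit
  set w : Qb := (d / c * (q : Qb) ^ (-n))⁻¹ with hw
  have hw0 : w ≠ 0 := inv_ne_zero (mul_ne_zero (div_ne_zero hj hi) (zpow_ne_zero _ hq0))
  have hwu : π ⟨w, hn2⟩ ≠ 0 := by
    intro h0
    rw [hπ] at h0
    apply h0
    refine IsUnit.of_mul_eq_one ⟨w⁻¹, ?_⟩ (Subtype.ext (mul_inv_cancel₀ hw0))
    rw [hw, inv_inv]; exact hn1
  refine ⟨n, algebraMap k _ (π ⟨w, hn2⟩) * (rhoA π a / rhoA π b),
    mul_ne_zero (by simpa using hwu) (div_ne_zero ha hb), ?_⟩
  have hb0 : iotaA A b ≠ 0 := by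
    intro h0
    rw [hjb, h0, mul_zero] at hs1
    exact hs1 rfl
  have h2 : GRed π (iotaA A a / iotaA A b) (rhoA π a / rhoA π b) :=
    gRed_div (gRed_iota π a) (gRed_iota π b) hb
  have h3 := gRed_smul h2 ⟨w, hn2⟩
  have h4 : f = algebraMap Qb (LaurentSeries Qb) (c / d) * (iotaA A a / iotaA A b) := by
    have h5 : f = lamS (FixI A) lam r / lamS (FixI A) lam s := (eq_div_of_mul_eq hs1 h1)
    rw [h5, hia, hjb, map_div₀]
    field_simp
  have h6 : algebraMap Qb (LaurentSeries Qb) ((q : Qb) ^ n) * f =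
      algebraMap Qb (LaurentSeries Qb) w * (iotaA A a / iotaA A b) := by
    rw [h4, ← mul_assoc, ← map_mul]
    congr 2
    rw [hw, zpow_neg]
    field_simp
  rw [h6]
  exact h3

/-- the conjugates of a number under the decomposition group have the same valuation -/
theorem decomp_div_mem {σ : Γℚ} (hσ : σ ∈ A.decompositionSubgroup ℚ) {c : Qb} (hc : c ≠ 0) :
    σ c / c ∈ A ∧ c / σ c ∈ A := by
  have : Algebra.IsAlgebraic ℚ Qb := AlgebraicClosure.isAlgebraic ℚ
  -- a power fixes `c`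
  have key : ∃ m : ℕ, 0 < m ∧ (σ ^ m) c = c := by
    have hfin : Set.Finite {x : Qb | aeval x (minpoly ℚ c) = 0} := by
      have h1 : minpoly ℚ c ≠ 0 := minpoly.ne_zero (Algebra.IsAlgebraic.isAlgebraic c).isIntegral
      have h2 : {x : Qb | aeval x (minpoly ℚ c) = 0} = (minpoly ℚ c).rootSet Qb := by
        ext x
        rw [Set.mem_ofPred_eq, Polynomial.mem_rootSet]
        exact ⟨fun h => ⟨h1, h⟩, fun h => h.2⟩
      rw [h2]
      exact Polynomial.rootSet_finite _ _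
    have hmem : ∀ m : ℕ, (σ ^ m) c ∈ {x : Qb | aeval x (minpoly ℚ c) = 0} := by
      intro m
      rw [Set.mem_ofPred_eq]
      have h1 := Polynomial.aeval_algHom_apply ((σ ^ m : Γℚ) : Qb →ₐ[ℚ] Qb) c (minpoly ℚ c)
      rw [minpoly.aeval, map_zero] at h1
      exact h1
    have : ¬ Function.Injective (fun m : ℕ => (⟨(σ ^ m) c, hmem m⟩ : {x : Qb | aeval x (minpoly ℚ c) = 0})) := by
      have := hfin.to_subtype
      exact not_injective_infinite_finite _
    rw [Function.not_injective_iff] at this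
    obtain ⟨i, j, hij, hne⟩ := this
    have hij' : (σ ^ i) c = (σ ^ j) c := congrArg Subtype.val hij
    rcases lt_or_gt_of_ne hne with hlt | hlt
    · refine ⟨j - i, by omega, ?_⟩
      apply (σ ^ i).injective
      rw [hij', ← AlgEquiv.mul_apply, ← pow_add]
      congr 2
      omega
    · refine ⟨i - j, by omega, ?_⟩
      apply (σ ^ j).injective
      rw [← hij', ← AlgEquiv.mul_apply, ← pow_add]
      congr 2
      omega
  obtain ⟨m, hm, hmc⟩ := key
  -- valuations
  have hmon : ∀ {x : Qb}, x ∈ A.nonunits → σ x ∈ A.nonunits := fun h => (Frob.apply_mem_nonunits_iff hσ).2 h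
  have hσc : σ c ≠ 0 := by simpa using hc
  constructor
  · by_contra hno
    -- then `c / σ c` is a nonunit
    have h1 : c / σ c ∈ A.nonunits := by
      rw [Frob.mem_nonunits_iff_inv]
      right
      rwa [inv_div]
    have h2 : ∀ n : ℕ, c / (σ ^ (n + 1)) c ∈ A.nonunits := by
      intro n
      induction n with
      | zero => rw [zero_add, pow_one]; exact h1
      | succ n ih =>
        have h3 := hmon ih
        rw [map_div₀, ← AlgEquiv.mul_apply, ← pow_succ'] at h3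
        have h4 : c / (σ ^ (n + 1 + 1)) c = (c / σ c) * (σ c / (σ ^ (n + 1 + 1)) c) := by
          field_simp
        rw [h4]
        rw [ValuationSubring.mem_nonunits_iff] at h1 h3 ⊢
        rw [map_mul]
        exact mul_lt_one_of_nonneg_of_lt_one_left zero_le h1 h3.le
    have h3 := h2 (m - 1)
    rw [Nat.sub_add_cancel hm, hmc, div_self hc, ValuationSubring.mem_nonunits_iff, map_one] at h3
    exact lt_irrefl _ h3
  · by_contra hno
    have h1 : σ c / c ∈ A.nonunits := by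
      rw [Frob.mem_nonunits_iff_inv]
      right
      rwa [inv_div]
    have h2 : ∀ n : ℕ, (σ ^ (n + 1)) c / c ∈ A.nonunits := by
      intro n
      induction n with
      | zero => rw [zero_add, pow_one]; exact h1
      | succ n ih =>
        have h3 := hmon ih
        rw [map_div₀, ← AlgEquiv.mul_apply, ← pow_succ'] at h3
        have h4 : (σ ^ (n + 1 + 1)) c / c = ((σ ^ (n + 1 + 1)) c / σ c) * (σ c / c) := by
          field_simp
        rw [h4]
        rw [ValuationSubring.mem_nonunits_iff] at h1 h3 ⊢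
        rw [map_mul]
        exact mul_lt_one_of_nonneg_of_lt_one_left zero_le h3 h1.le
    have h3 := h2 (m - 1)
    rw [Nat.sub_add_cancel hm, hmc, div_self hc, ValuationSubring.mem_nonunits_iff, map_one] at h3
    exact lt_irrefl _ h3

theorem zpow_fixed (σ : Γℚ) (n : ℤ) : σ ((q : Qb) ^ n) = (q : Qb) ^ n := by
  rw [map_zpow₀, map_natCast]

theorem IFix.coe {N : ℕ} {f : FB N} (h : IFix A f) : ∀ σ ∈ A.inertiaSubgroupIn ℚ,
    coeffMap (σ : Qb →+* Qb) (f : LaurentSeries Qb) = f := fun σ hσ => h.coeff hσ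

theorem IFix.algebraMap {N : ℕ} {c : Qb} (hc : ∀ σ ∈ A.inertiaSubgroupIn ℚ, σ c = c) :
    IFix A (algebraMap Qb (FB N) c) := by
  intro σ hσ
  have h1 := arithmeticRingAut_algebraMap (modularFunctionFieldFull N) σ c
  rw [hc σ hσ] at h1
  exact h1

variable {M : ℕ} [NeZero M] [NeZero q]
  {hA : A.LiesOverPrime q} {hπ : ∀ a : A, π a = 0 ↔ ¬ IsUnit a}
  {hs : Function.Surjective π} {hM : ¬ q ∣ M}

/-- **(V7)** for `rInf1` -/
theorem value_inf1 {f : FB (M * q)} (hf : IFix A f) (hf0 : f ≠ 0) : ∃ (n : ℤ) (z : modularFunctionFieldFullC k M),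
    z ≠ 0 ∧ (rInf1 M q hA hπ hs hM).IsRed (algebraMap Qb _ ((q : Qb) ^ n) * f) z := by
  obtain ⟨n, z, hz, h⟩ := exists_zpow_gRed (k := k) hA hπ f.2 (fun h => hf0 (Subtype.ext h)) hf.coe
  refine ⟨n, ⟨z, mem_of_gRed_level1 hA hπ hs hM (f := algebraMap Qb _ ((q : Qb) ^ n) * f) h⟩,
    fun h0 => hz (congrArg Subtype.val h0), isRed_rInf1.2 h⟩

/-- **(V7)** for `rZero1` -/
theorem value_zero1 {f : FB (M * q)} (hf : IFix A f) (hf0 : f ≠ 0) : ∃ (n : ℤ) (z : modularFunctionFieldFullC k M),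
    z ≠ 0 ∧ (rZero1 M q hA hπ hs hM).IsRed (algebraMap Qb _ ((q : Qb) ^ n) * f) z := by
  obtain ⟨n, z, hz, h⟩ := value_inf1 (hA := hA) (hπ := hπ) (hs := hs) (hM := hM) (IFix.w1 (hM := hM) hf)
    (by rw [Ne, map_eq_zero]; exact hf0)
  refine ⟨n, z, hz, isRed_rZero1.2 ?_⟩
  rw [map_mul, AlgEquiv.commutes]
  exact h

/-- **(V7)** for `rInf2` -/
theorem value_inf2 {f : FB (M * q * q)} (hf : IFix A f) (hf0 : f ≠ 0) :
    ∃ (n : ℤ) (z : modularFunctionFieldFullC k M),
    z ≠ 0 ∧ (rInf2 M q hA hπ hs hM).IsRed (algebraMap Qb _ ((q : Qb) ^ n) * f) z := by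
  obtain ⟨n, z, hz, h⟩ := exists_zpow_gRed (k := k) hA hπ f.2 (fun h => hf0 (Subtype.ext h)) hf.coe
  refine ⟨n, ⟨z, mem_of_gRed_level2 hA hπ hs hM (f := algebraMap Qb _ ((q : Qb) ^ n) * f) h⟩,
    fun h0 => hz (congrArg Subtype.val h0), isRed_rInf2.2 h⟩

/-- **(V7)** for `rZero2` -/
theorem value_zero2 {f : FB (M * q * q)} (hf : IFix A f) (hf0 : f ≠ 0) :
    ∃ (n : ℤ) (z : modularFunctionFieldFullC k M),
    z ≠ 0 ∧ (rZero2 M q hA hπ hs hM).IsRed (algebraMap Qb _ ((q : Qb) ^ n) * f) z := by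
  obtain ⟨n, z, hz, h⟩ := value_inf2 (hA := hA) (hπ := hπ) (hs := hs) (hM := hM) (IFix.w2 (hM := hM) hf)
    (by rw [Ne, map_eq_zero]; exact hf0)
  refine ⟨n, z, hz, isRed_rZero2.2 ?_⟩
  rw [map_mul, AlgEquiv.commutes]
  exact h

/-- a unit multiple of a function with nonzero reduction -/
theorem gRed_unit_mul (hπ : ∀ a : A, π a = 0 ↔ ¬ IsUnit a) {f : LaurentSeries Qb} {z : LaurentSeries k}
    (h : GRed π f z) (hz : z ≠ 0) {u : Qb} (hu : u ∈ A) (hu' : u⁻¹ ∈ A) (hu0 : u ≠ 0) :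
    ∃ w : LaurentSeries k, w ≠ 0 ∧ GRed π (algebraMap Qb (LaurentSeries Qb) u * f) w := by
  refine ⟨algebraMap k _ (π ⟨u, hu⟩) * z, mul_ne_zero ?_ hz, gRed_smul h ⟨u, hu⟩⟩
  rw [Ne, map_eq_zero, hπ, not_not]
  exact IsUnit.of_mul_eq_one ⟨u⁻¹, hu'⟩ (Subtype.ext (mul_inv_cancel₀ hu0))

/-- if `c f` and `d f` have nonzero reductions then `c / d` is a unit -/
theorem div_mem_of_gRed (hπ : ∀ a : A, π a = 0 ↔ ¬ IsUnit a) {f : LaurentSeries Qb} {z w : LaurentSeries k}
    {c d : Qb} (hd0 : d ≠ 0)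
    (h : GRed π (algebraMap Qb (LaurentSeries Qb) c * f) z)
    (h' : GRed π (algebraMap Qb (LaurentSeries Qb) d * f) w) (hw : w ≠ 0) : c / d ∈ A := by
  by_cases hc0 : c = 0
  · rw [hc0, zero_div]; exact zero_mem _
  have h1 : GRed π (algebraMap Qb (LaurentSeries Qb) (d / c) * (algebraMap Qb (LaurentSeries Qb) c * f)) w := by
    rw [← mul_assoc, ← map_mul, div_mul_cancel₀ _ hc0]
    exact h'
  have h2 := inv_mem_of_gRed hπ h h1 hw
  rwa [inv_div] at h2

/-- **(V7)** for the middle reductions -/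
theorem value_mid (hA : A.LiesOverPrime q) (hπ : ∀ a : A, π a = 0 ↔ ¬ IsUnit a) (hM : ¬ q ∣ M)
    {f : FB (M * q * q)} (hf : IFix A f) (hf0 : f ≠ 0) : ∃ (n : ℤ) (z : LaurentSeries k), z ≠ 0 ∧
      ∀ (ζ : RU q) (h : ζ ≠ 1),
        GRed π (epsU hM h (algebraMap Qb _ ((q : Qb) ^ n) * f ^ (q - 1))) z := by
  classical
  have hq0 : (q : Qb) ≠ 0 := by exact_mod_cast hqf.out.ne_zero
  -- a nontrivial root of unity
  have hcard : 0 < Fintype.card {ζ : RU q // ζ ≠ 1} := by
    rw [card_RU_ne]; have := hqf.out.one_lt; omega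
  obtain ⟨ζ₀⟩ := Fintype.card_pos_iff.1 hcard
  have hε0 : ∀ (ζ : RU q) (h : ζ ≠ 1), epsU hM h f ≠ 0 := by
    intro ζ h; rw [Ne, map_eq_zero]; exact hf0
  obtain ⟨c, z₀, hc, hz₀, hcf⟩ := (gaussField_epsU (π := π) hA hπ hM ζ₀.2).exists_scale ⟨f, rfl⟩ (hε0 _ ζ₀.2)
  change GRed π (algebraMap Qb (LaurentSeries Qb) c * epsU hM ζ₀.2 f) z₀ at hcf
  -- all the others
  have hall : ∀ (ζ : {ζ : RU q // ζ ≠ 1}), ∃ w : LaurentSeries k, w ≠ 0 ∧
      GRed π (algebraMap Qb (LaurentSeries Qb) c * epsU hM ζ.2 f) w := by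
    rintro ⟨ζ, h⟩
    obtain ⟨σ, hσ, rfl⟩ := exists_inertia_RU hA ζ₀.2 h
    have hdec := ((Frob.mem_inertiaSubgroupIn_iff A σ).1 hσ).1
    have h1 := gRed_inertia hπ hσ hcf
    rw [map_mul, coeffMap_algebraMap'] at h1
    have h2 := epsU_gal hM σ ζ₀.2 f
    rw [hf σ hσ] at h2
    rw [← h2] at h1
    have hσc : (σ : Qb →+* Qb) c ≠ 0 := by rw [Ne, map_eq_zero]; exact hc
    obtain ⟨h3, h4⟩ := decomp_div_mem hdec hc
    obtain ⟨w, hw, h5⟩ := gRed_unit_mul hπ h1 hz₀ (u := c / σ c) h4 (by rw [inv_div]; exact h3)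
      (div_ne_zero hc hσc)
    refine ⟨w, hw, ?_⟩
    rw [← mul_assoc, ← map_mul] at h5
    have h6 : c / σ c * (σ : Qb →+* Qb) c = c := div_mul_cancel₀ _ hσc
    rw [h6] at h5
    exact h5
  choose w hw hwf using hall
  -- the product of all the conjugates
  obtain ⟨n1, z1, hz1, h1⟩ := exists_zpow_gRed (k := k) hA hπ f.2 (fun h => hf0 (Subtype.ext h)) hf.coe
  have hN0 : normAlong (al2 M q) f ≠ 0 := by
    intro h0
    have h2 := norm_al2' hM f
    rw [h0] at h2
    have h3 : (f : LaurentSeries Qb) * ∏ ζ : {ζ : RU q // ζ ≠ 1}, epsU hM ζ.2 f ≠ 0 :=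
      mul_ne_zero (fun h => hf0 (Subtype.ext h)) (Finset.prod_ne_zero_iff.2 fun ζ _ => hε0 _ ζ.2)
    exact h3 (h2.symm.trans rfl)
  obtain ⟨n2, z2, hz2, h2⟩ := exists_zpow_gRed (k := k) hA hπ (normAlong (al2 M q) f).2
    (fun h => hN0 (Subtype.ext h)) (IFix.norm_al2 hf).coe
  -- compare
  have h3 : GRed π (algebraMap Qb (LaurentSeries Qb) ((q : Qb) ^ (n2 - n1)) *
      ∏ ζ : {ζ : RU q // ζ ≠ 1}, epsU hM ζ.2 f) (z2 / z1) := by
    have h4 := gRed_div h2 h1 hz1
    have hf0' : (f : LaurentSeries Qb) ≠ 0 := fun h => hf0 (Subtype.ext h)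
    have hqn : algebraMap Qb (LaurentSeries Qb) ((q : Qb) ^ n1) ≠ 0 := by
      rw [Ne, map_eq_zero]; exact zpow_ne_zero _ hq0
    have h5 : algebraMap Qb (LaurentSeries Qb) ((q : Qb) ^ n2) * (normAlong (al2 M q) f : LaurentSeries Qb) /
        (algebraMap Qb (LaurentSeries Qb) ((q : Qb) ^ n1) * (f : LaurentSeries Qb)) =
        algebraMap Qb (LaurentSeries Qb) ((q : Qb) ^ (n2 - n1)) *
      ∏ ζ : {ζ : RU q // ζ ≠ 1}, epsU hM ζ.2 f := by
      rw [norm_al2' hM f, zpow_sub₀ hq0, map_div₀]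
      field_simp
    rw [h5] at h4
    exact h4
  have h4 : GRed π (algebraMap Qb (LaurentSeries Qb) (c ^ (q - 1)) *
      ∏ ζ : {ζ : RU q // ζ ≠ 1}, epsU hM ζ.2 f) (∏ ζ, w ζ) := by
    have h5 := gRed_prod (Finset.univ : Finset {ζ : RU q // ζ ≠ 1}) (fun ζ _ => hwf ζ)
    rw [Finset.prod_mul_distrib, Finset.prod_const, Finset.card_univ, card_RU_ne, ← map_pow] at h5
    exact h5
  have hc' : c ^ (q - 1) ≠ 0 := pow_ne_zero _ hc
  have hqn' : (q : Qb) ^ (n2 - n1) ≠ 0 := zpow_ne_zero _ hq0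
  have h5 : (q : Qb) ^ (n2 - n1) / c ^ (q - 1) ∈ A :=
    div_mem_of_gRed hπ hc' h3 h4 (Finset.prod_ne_zero_iff.2 fun ζ _ => hw ζ)
  have h6 : c ^ (q - 1) / (q : Qb) ^ (n2 - n1) ∈ A :=
    div_mem_of_gRed hπ hqn' h4 h3 (div_ne_zero hz2 hz1)
  -- conclusion
  have hmain : ∃ z : LaurentSeries k, z ≠ 0 ∧
      GRed π (epsU hM ζ₀.2 (algebraMap Qb _ ((q : Qb) ^ (n2 - n1)) * f ^ (q - 1))) z := by
    obtain ⟨z, hz, h7⟩ := gRed_unit_mul hπ (gRed_pow (hwf ζ₀) (q - 1)) (pow_ne_zero _ (hw ζ₀)) h5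
      (by rw [inv_div]; exact h6) (div_ne_zero hqn' hc')
    refine ⟨z, hz, ?_⟩
    have h8 : epsU hM ζ₀.2 (algebraMap Qb _ ((q : Qb) ^ (n2 - n1)) * f ^ (q - 1)) =
        algebraMap Qb (LaurentSeries Qb) ((q : Qb) ^ (n2 - n1) / c ^ (q - 1)) *
          (algebraMap Qb (LaurentSeries Qb) c * epsU hM ζ₀.2 f) ^ (q - 1) := by
      rw [map_mul, AlgHom.commutes, map_pow, mul_pow, ← map_pow (algebraMap Qb (LaurentSeries Qb)), ← mul_assoc,
        ← map_mul, div_mul_cancel₀ _ hc']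
    rw [h8]
    exact h7
  obtain ⟨z, hz, h7⟩ := hmain
  refine ⟨n2 - n1, z, hz, fun ζ h => ?_⟩
  refine gRed_mid_indep hA hπ hM ?_ h7 h
  exact (IFix.algebraMap (fun σ _ => zpow_fixed σ _)).mul (hf.pow _)

end Fixed

end Fermat.Agent.QVal
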