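import Fermat.Agent.QComp.HasseH
import Fermat.Agent.QVal.Theta
import Fermat.Agent.QVal.Value

/-!
# The modular units `Δ(τ)/Δ(qτ)` and `q^12 Δ(q²τ)/Δ(qτ)` at level `M q²` (V9)
-/

set_option autoImplicit false
set_option linter.unusedSectionVars false
set_option linter.style.haveILetI false
set_option linter.unusedVariables false

noncomputable section
open AlgebraicCurve ModularCurve IntermediateField Fermat.Agent.JZ Polynomial Fermat.Agent.Red
open Fermat.Agent.FF Fermat.Agent.QComp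

namespace Fermat.Agent.QVal

local notation "Qb" => AlgebraicClosure ℚ
local notation "Γℚ" => (AlgebraicClosure ℚ ≃ₐ[ℚ] AlgebraicClosure ℚ)

section Integral

theorem isInt_of_adjoin {K F : Type*} [Field K] [Field F] [Algebra K F] {x y f : F}
    (hy : IsIntegral (Algebra.adjoin K {x}) y) (hf : IsIntegral (Algebra.adjoin K {y}) f) :
    IsIntegral (Algebra.adjoin K {x}) f := by
  have h1 : ∀ z ∈ Algebra.adjoin K {y}, z ∈ (integralClosure (Algebra.adjoin K {x}) F).toSubring := by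
    intro z hz
    induction hz using Algebra.adjoin_induction with
    | mem z hz => rw [Set.mem_singleton_iff.1 hz]; exact hy
    | algebraMap r =>
      exact isIntegral_algebraMap (R := Algebra.adjoin K {x}) (x := ⟨_, Subalgebra.algebraMap_mem _ r⟩)
    | add a b _ _ ha hb => exact add_mem ha hb
    | mul a b _ _ ha hb => exact mul_mem ha hb
  obtain ⟨p, hp, hpf⟩ := hf
  let g : Algebra.adjoin K {y} →+* integralClosure (Algebra.adjoin K {x}) F :=
    (algebraMap (Algebra.adjoin K {y}) F).codRestrict (integralClosure (Algebra.adjoin K {x}) F).toSubring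
      (fun z => h1 z z.2)
  have h2 : IsIntegral (integralClosure (Algebra.adjoin K {x}) F) f :=
    ⟨p.map g, hp.map g, by rw [Polynomial.eval₂_map]; exact hpf⟩
  exact isIntegral_trans (R := Algebra.adjoin K {x}) f h2

variable {q : ℕ} [NeZero q] [hqf : Fact q.Prime]

theorem isIntegral_of_ord {f : FB q} (h : ∀ P : Place Qb (FB q), 0 ≤ P.ord (Cusp.jE Qb q) → 0 ≤ P.ord f) :
    IsIntegral (Algebra.adjoin Qb {Cusp.jE Qb q}) f := by
  have e1 : Cusp.jE Qb q = jB q := Subtype.ext (ModFn.coeffMap_jqModC (algebraMap ℚ Qb))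
  have : IsFnField Qb (FB q) := modularFieldInputsBar.fnField q
  have : FiniteDimensional Qb⟮Cusp.jE Qb q⟯ (FB q) := by rw [e1]; exact finiteDimensional_jB q
  have : Algebra.IsSeparable Qb⟮Cusp.jE Qb q⟯ (FB q) := isSeparable_of_finite
  exact isIntegral_of_forall fun P hP => h P hP

theorem isInt_uE_inv : IsIntegral (Algebra.adjoin Qb {Cusp.jE Qb q}) (Cusp.uE q)⁻¹ :=
  isIntegral_of_ord fun P hP => by
    rw [Place.ord_inv, Cusp.ord_uE_of_nonneg q P hP, neg_zero]

theorem isInt_jEN : IsIntegral (Algebra.adjoin Qb {Cusp.jE Qb q}) (Cusp.jEN Qb q) :=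
  isIntegral_of_ord fun P hP => by
    by_contra h
    exact absurd (Cusp.j_neg_of_jN_neg q (not_le.1 h)) (not_lt.2 hP)

end Integral

variable {k : Type*} [Field k] {A : ValuationSubring Qb} {π : A →+* k} {M q : ℕ} [NeZero M] [NeZero q]
  [hqf : Fact q.Prime]

theorem isInt_d1' : IsIntegral (Algebra.adjoin Qb {al1 M q (jB M)}) (d1 M q) := by
  have h := isInt_transport (incQ M q) (isInt_uE (q := q))
  rwa [incQ_jE] at h

theorem isInt_d1_inv : IsIntegral (Algebra.adjoin Qb {al1 M q (jB M)}) (d1 M q)⁻¹ := by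
  have h := isInt_transport (incQ M q) (isInt_uE_inv (q := q))
  rw [incQ_jE, map_inv₀] at h
  exact h

/-- `j(qτ)` is integral over `Qb[j(τ)]` -/
theorem isInt_be1_jB : IsIntegral (Algebra.adjoin Qb {al1 M q (jB M)}) (be1 M q (jB M)) := by
  have h := isInt_transport (incQ M q) (isInt_jEN (q := q))
  rwa [incQ_jE, incQ_jEN] at h

theorem isInt_al2 {f x : FB (M * q)} (h : IsIntegral (Algebra.adjoin Qb {x}) f) :
    IsIntegral (Algebra.adjoin Qb {al2 M q x}) (al2 M q f) := isInt_transport (al2 M q) h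

theorem isInt_be2 {f x : FB (M * q)} (h : IsIntegral (Algebra.adjoin Qb {x}) f) :
    IsIntegral (Algebra.adjoin Qb {be2 M q x}) (be2 M q f) := isInt_transport (be2 M q) h

/-- `j(qτ)` at level two -/
theorem isInt_al2_be1_jB : IsIntegral (Algebra.adjoin Qb {al2 M q (al1 M q (jB M))})
    (al2 M q (be1 M q (jB M))) := isInt_al2 isInt_be1_jB

theorem isInt_be2_of {f : FB (M * q)} (h : IsIntegral (Algebra.adjoin Qb {al1 M q (jB M)}) f) :
    IsIntegral (Algebra.adjoin Qb {al2 M q (al1 M q (jB M))}) (be2 M q f) := by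
  have h1 := isInt_be2 h
  rw [← sq_comm] at h1
  exact isInt_of_adjoin isInt_al2_be1_jB h1

/-- `j(q²τ)` at level two -/
theorem isInt_be2_be1_jB : IsIntegral (Algebra.adjoin Qb {al2 M q (al1 M q (jB M))})
    (be2 M q (be1 M q (jB M))) := isInt_be2_of isInt_be1_jB

variable (M q) in
/-- the modular unit `Δ(τ)/Δ(qτ)` -/
def D1 : FB (M * q * q) := al2 M q (d1 M q)

variable (M q) in
/-- the modular unit `q^12 Δ(q²τ)/Δ(qτ)` -/
def D2 : FB (M * q * q) := algebraMap Qb _ ((q : Qb) ^ 12) * (be2 M q (d1 M q))⁻¹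

theorem D1_ne_zero : D1 M q ≠ 0 := (_root_.map_ne_zero _).2 d1_ne_zero

theorem D2_ne_zero : D2 M q ≠ 0 := by
  refine mul_ne_zero ?_ (inv_ne_zero ((_root_.map_ne_zero _).2 d1_ne_zero))
  rw [Ne, map_eq_zero]
  exact pow_ne_zero _ (by exact_mod_cast hqf.out.ne_zero)

theorem w2_D1 (hM : ¬ q ∣ M) : w2 hqf.out hM (D1 M q) = D2 M q := by
  rw [D1, w2_al, w1_d1, map_mul, AlgHom.commutes, map_inv₀, D2]

theorem w2_D2 (hM : ¬ q ∣ M) : w2 hqf.out hM (D2 M q) = D1 M q := by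
  rw [← w2_D1 hM, w2_w2]

theorem isInt_D1 : IsIntegral (Algebra.adjoin Qb {al2 M q (al1 M q (jB M))}) (D1 M q) :=
  isInt_al2 isInt_d1'

theorem isInt_D1_inv : IsIntegral (Algebra.adjoin Qb {al2 M q (al1 M q (jB M))}) (D1 M q)⁻¹ := by
  rw [D1, ← map_inv₀]
  exact isInt_al2 isInt_d1_inv

theorem isInt_const {K F : Type*} [Field K] [Field F] [Algebra K F] (x : F) (c : K) :
    IsIntegral (Algebra.adjoin K {x}) (algebraMap K F c) :=
  isIntegral_algebraMap (R := Algebra.adjoin K {x}) (x := ⟨_, Subalgebra.algebraMap_mem _ c⟩)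

theorem isInt_D2 : IsIntegral (Algebra.adjoin Qb {al2 M q (al1 M q (jB M))}) (D2 M q) := by
  rw [D2, ← map_inv₀ (be2 M q)]
  exact (isInt_const _ _).mul (isInt_be2_of isInt_d1_inv)

theorem isInt_D2_inv : IsIntegral (Algebra.adjoin Qb {al2 M q (al1 M q (jB M))}) (D2 M q)⁻¹ := by
  rw [D2, mul_inv, inv_inv, ← map_inv₀]
  exact (isInt_const _ _).mul (isInt_be2_of isInt_d1')

/-! ### invariance -/

theorem gal_d1 (σ : Γℚ) : gal (M * q) σ (d1 M q) = d1 M q := by
  apply Subtype.ext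
  rw [coe_gal, coe_d1, coeffEmb, coeffMap_coeffMap]
  exact coeffMap_congr (RingHom.ext fun x => σ.commutes x) _

theorem IFix_d1 : IFix A (d1 M q) := fun σ _ => gal_d1 σ

theorem IFix_D1 : IFix A (D1 M q) := IFix.al2 IFix_d1

theorem IFix_D2 : IFix A (D2 M q) :=
  (IFix.algebraMap fun σ _ => by rw [map_pow, map_natCast]).mul (IFix.be2 IFix_d1).inv

/-! ### reductions -/

theorem hasse_eq {h : LaurentSeries k} (hh : h * (Igusa.deltaC k) ^ (q - 1) = 1) :
    h = Igusa.deltaC k * (Igusa.deltaC k ^ q)⁻¹ := by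
  have h2 : Igusa.deltaC k ^ q = Igusa.deltaC k * Igusa.deltaC k ^ (q - 1) := by
    rw [← pow_succ', Nat.sub_add_cancel hqf.out.one_lt.le]
  have h3 := Igusa.deltaC_ne_zero k
  have h4 := pow_ne_zero (q - 1) h3
  rw [h2, eq_comm, ← mul_right_inj' h4, mul_comm _ h, hh]
  field_simp

theorem hasse_ne {h : LaurentSeries k} (hh : h * (Igusa.deltaC k) ^ (q - 1) = 1) : h ≠ 0 :=
  left_ne_zero_of_mul_eq_one hh

theorem gRed_d1' [CharP k q] {h : LaurentSeries k} (hh : h * (Igusa.deltaC k) ^ (q - 1) = 1) :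
    GRed π (d1 M q : LaurentSeries Qb) h := by
  rw [hasse_eq hh]; exact gRed_d1

/-- `h(q) ↦ h(q^q)` is the `q`-th power -/
theorem qExpand_hasse [CharP k q] {h : LaurentSeries k} (hh : h * (Igusa.deltaC k) ^ (q - 1) = 1) :
    qExpand k q h = h ^ q := by
  rw [hasse_eq hh, map_mul, map_inv₀, map_pow, ← deltaC_pow, mul_pow, inv_pow]

theorem gRed_be2_d1 [CharP k q] {h : LaurentSeries k} (hh : h * (Igusa.deltaC k) ^ (q - 1) = 1) :
    GRed π (be2 M q (d1 M q) : LaurentSeries Qb) (h ^ q) := by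
  rw [← qExpand_hasse hh]; exact gRed_be2 (gRed_d1' hh)

variable {hA : A.LiesOverPrime q} {hπ : ∀ a : A, π a = 0 ↔ ¬ IsUnit a}
    {hs : Function.Surjective π} {hM : ¬ q ∣ M} {h : modularFunctionFieldFullC k M}

/-- **(V9)** reductions of `D1` -/
theorem isRed_inf2_D1 (hh : (h : LaurentSeries k) * (Igusa.deltaC k) ^ (q - 1) = 1) :
    (rInf2 M q hA hπ hs hM).IsRed (D1 M q) h := by
  have := charP_of_liesOverPrime hA hπ
  exact isRed_rInf2.2 (gRed_al2 (gRed_d1' hh))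

theorem gRed_mid_D1 [CharP k q] (hh : (h : LaurentSeries k) * (Igusa.deltaC k) ^ (q - 1) = 1)
    {ζ : RU q} {h' : ζ ≠ 1} : GRed π (epsU hM h' (D1 M q)) h :=
  gRed_mid_al2 (gRed_d1' hh)

theorem gRed_mid_D2 (hA : A.LiesOverPrime q) (hπ : ∀ a : A, π a = 0 ↔ ¬ IsUnit a)
    (hh : (h : LaurentSeries k) * (Igusa.deltaC k) ^ (q - 1) = 1)
    {ζ : RU q} {h' : ζ ≠ 1} : GRed π (epsU hM h' (D2 M q)) h := by
  have := charP_of_liesOverPrime hA hπ
  rw [← w2_D1 hM]
  exact gRed_eps_w2 hA hπ h' (gRed_mid_D1 hh)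

theorem isRed_zero2_D2 (hh : (h : LaurentSeries k) * (Igusa.deltaC k) ^ (q - 1) = 1) :
    (rZero2 M q hA hπ hs hM).IsRed (D2 M q) h := by
  rw [isRed_rZero2, w2_D2]; exact isRed_inf2_D1 hh

theorem inv_pow_mul_D2 : algebraMap Qb (FB (M * q * q)) (((q : Qb) ^ 12)⁻¹) * D2 M q = (be2 M q (d1 M q))⁻¹ := by
  rw [D2, ← mul_assoc, ← map_mul, inv_mul_cancel₀, map_one, one_mul]
  exact pow_ne_zero _ (by exact_mod_cast hqf.out.ne_zero)

theorem isRed_inf2_D2 (hh : (h : LaurentSeries k) * (Igusa.deltaC k) ^ (q - 1) = 1) :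
    (rInf2 M q hA hπ hs hM).IsRed (algebraMap Qb _ (((q : Qb) ^ 12)⁻¹) * D2 M q) (h ^ q)⁻¹ := by
  have := charP_of_liesOverPrime hA hπ
  rw [inv_pow_mul_D2, isRed_rInf2]
  exact (gRed_be2_d1 (π := π) (M := M) hh).inv (pow_ne_zero _ (hasse_ne hh))

theorem isRed_zero2_D1 (hh : (h : LaurentSeries k) * (Igusa.deltaC k) ^ (q - 1) = 1) :
    (rZero2 M q hA hπ hs hM).IsRed (algebraMap Qb _ (((q : Qb) ^ 12)⁻¹) * D1 M q) (h ^ q)⁻¹ := by
  rw [isRed_rZero2, map_mul, AlgEquiv.commutes, w2_D1]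
  exact isRed_inf2_D2 hh

end Fermat.Agent.QVal
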