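import Fermat.Agent.QVal.LevelOne

/-!
# The two constant reductions of `X₀(M q)` at `q`: norms and completeness
-/

set_option autoImplicit false
set_option linter.unusedSectionVars false
set_option linter.style.haveILetI false
set_option linter.unusedVariables false

noncomputable section
open AlgebraicCurve ModularCurve IntermediateField Fermat.Agent.JZ Polynomial Fermat.Agent.Red

namespace Fermat.Agent.QVal

open ModFn

local notation "Qb" => AlgebraicClosure ℚ

section General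

variable {K k : Type*} [Field K] [Field k] {A : ValuationSubring K} {π : A →+* k}
  {F Fk F' : Type*} [Field F] [Algebra K F] [Field Fk] [Algebra k Fk] [Field F'] [Algebra K F']

/-- the valuation ring of a constant reduction lies over the Gauss valuation -/
theorem overGauss_of_red {R : ConstRed A π F Fk} {x : F} {xb : Fk} (hx : R.IsRed x xb)
    (hxb : Transcendental k xb) (hπ : ∀ a : A, π a = 0 ↔ ¬ IsUnit a) : QComp.OverGauss K A x R.O where
  mem_iff a := by
    rw [R.algebraMap_mem_iff]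
    constructor
    · intro h; exact ⟨⟨a, h⟩, rfl⟩
    · rintro ⟨b, rfl⟩; exact b.2
  mem := hx.mem
  inv_mem u hu := by
    have h1 := hx.theta u
    have h2 := (h1.inv (thetak_ne_zero hxb (map_of_prim hπ hu))).mem
    have h3 : theta A x u = QComp.ev K A x u := by
      rw [theta_apply, QComp.ev_eq_aeval]; rfl
    rw [← h3]
    exact h2

/-- the ring of series with a reduction -/
def gaussS (π : A →+* k) : Subring (LaurentSeries K) where
  carrier := {f | ∃ z, GRed π f z}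
  mul_mem' := by
    rintro f g ⟨z, hz⟩ ⟨w, hw⟩
    exact ⟨z * w, hz.mul hw⟩
  one_mem' := ⟨1, gRed_one π⟩
  add_mem' := by
    rintro f g ⟨z, hz⟩ ⟨w, hw⟩
    exact ⟨z + w, hz.add hw⟩
  zero_mem' := ⟨0, gRed_zero π⟩
  neg_mem' := by
    rintro f ⟨z, hz⟩
    exact ⟨-z, hz.neg⟩

theorem mem_gaussS {f : LaurentSeries K} : f ∈ gaussS π ↔ ∃ z, GRed π f z := Iff.rfl

theorem coeff_prod_mem {Ω ι : Type*} [CommRing Ω] (S : Subring Ω) (s : Finset ι) (y : ι → Ω)
    (h : ∀ i ∈ s, y i ∈ S) (n : ℕ) : (∏ i ∈ s, (X - C (y i))).coeff n ∈ S := by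
  classical
  have key : (∏ i ∈ s, (X - C (y i))) ∈ Polynomial.lifts S.subtype := by
    refine prod_mem fun i hi => ?_
    rw [Polynomial.mem_lifts]
    refine ⟨X - C ⟨y i, h i hi⟩, ?_⟩
    rw [Polynomial.map_sub, Polynomial.map_X, Polynomial.map_C]
    rfl
  rw [Polynomial.lifts_iff_coeff_lifts] at key
  obtain ⟨⟨a, ha⟩, hb⟩ := key n
  rw [← hb]
  exact ha

/-- membership in a valuation ring through a monic equation -/
theorem mem_of_monic {F₀ F₁ : Type*} [Field F₀] [Field F₁] (V : ValuationSubring F₁) (α : F₀ →+* F₁)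
    {χ : F₀[X]} (hχ : χ.Monic) {f : F₁} (hf : χ.eval₂ α f = 0) (hV : ∀ n, α (χ.coeff n) ∈ V) : f ∈ V := by
  have h1 : χ.map α ∈ Polynomial.lifts (V.toSubring.subtype) := by
    rw [Polynomial.lifts_iff_coeff_lifts]
    intro n
    rw [Polynomial.coeff_map]
    exact ⟨⟨_, hV n⟩, rfl⟩
  obtain ⟨χ', h2, -, h3⟩ := Polynomial.lifts_and_natDegree_eq_and_monic h1 (hχ.map α)
  have h4 : IsIntegral V f := by
    refine ⟨χ', h3, ?_⟩
    have h5 : (χ'.map V.toSubring.subtype).eval f = 0 := by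
      rw [h2, Polynomial.eval_map]; exact hf
    rw [Polynomial.eval_map] at h5
    exact h5
  obtain ⟨y, hy⟩ := (IsIntegrallyClosed.isIntegral_iff (R := V) (K := F₁)).1 h4
  rw [← hy]
  exact y.2

end General

section LevelOne

variable {k : Type*} [Field k] {A : ValuationSubring Qb} {π : A →+* k} {M q : ℕ} [NeZero M] [NeZero q]
  [hqf : Fact q.Prime]
  {hA : A.LiesOverPrime q} {hπ : ∀ a : A, π a = 0 ↔ ¬ IsUnit a}
  {hs : Function.Surjective π} {hM : ¬ q ∣ M}

theorem isRed_zero_be1 {f : FB M} {z : modularFunctionFieldFullC k M}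
    (h : (redX M hA hπ hs hM).IsRed f z) : (rZero1 M q hA hπ hs hM).IsRed (be1 M q f) z := by
  rw [isRed_rZero1, w1_be]; exact isRed_inf_al1 h

theorem isRed_inf_be1 [CharP k q] {f : FB M} {w : modularFunctionFieldFullC k M}
    (h : (redX M hA hπ hs hM).IsRed f (phiK q M w)) :
    (rInf1 M q hA hπ hs hM).IsRed (be1 M q f) (w ^ q) := by
  rw [isRed_rInf1]
  have h1 := gRed_be1 (q := q) (isRed_redX.1 h)
  rw [← pow_eq_phiK] at h1
  exact h1

theorem isRed_zero_al1 [CharP k q] {f : FB M} {w : modularFunctionFieldFullC k M}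
    (h : (redX M hA hπ hs hM).IsRed f (phiK q M w)) :
    (rZero1 M q hA hπ hs hM).IsRed (al1 M q f) (w ^ q) := by
  rw [isRed_rZero1, w1_al]; exact isRed_inf_be1 h

/-- **(V6), level one** -/
theorem isRed_norm_al1 [CharP k q] {f : FB (M * q)} {a c : modularFunctionFieldFullC k M}
    (ha : (rInf1 M q hA hπ hs hM).IsRed f a) (hc : (rZero1 M q hA hπ hs hM).IsRed f c) :
    (redX M hA hπ hs hM).IsRed (normAlong (al1 M q) f) (a * phiK q M c) := by
  rw [isRed_redX]
  rw [isRed_rInf1] at ha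
  rw [isRed_rZero1, isRed_rInf1] at hc
  have h1 := (gRed_qExpand ha q).mul (gRed_prod (Finset.univ : Finset (RU q)) (fun ζ _ =>
    gRed_twist_root hA hπ (RU.pow ζ) hc))
  rw [← qExpand_norm_al1 hqf.out hM f, Finset.prod_const, Finset.card_univ, card_RU, pow_eq_phiK,
    ← map_mul] at h1
  obtain ⟨z', hz', hzz⟩ := gRed_of_qExpand (gaussFB hA M) hπ q (normAlong (al1 M q) f).2 h1
  have hz : z' = _ := qExpand_injective (R := k) q hzz
  rw [hz] at hz'
  exact hz'

theorem isRed_norm_be1 [CharP k q] {f : FB (M * q)} {a c : modularFunctionFieldFullC k M}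
    (ha : (rInf1 M q hA hπ hs hM).IsRed f a) (hc : (rZero1 M q hA hπ hs hM).IsRed f c) :
    (redX M hA hπ hs hM).IsRed (normAlong (be1 M q) f) (phiK q M a * c) := by
  have h1 := normAlong_be1 hqf.out hM (w1 hqf.out hM f)
  rw [w1_w1] at h1
  have h2 : (redX M hA hπ hs hM).IsRed (normAlong (al1 M q) (w1 hqf.out hM f)) (c * phiK q M a) :=
    isRed_norm_al1 (isRed_rZero1.1 hc) (isRed_rZero1_w1.2 ha)
  rw [← h1, mul_comm c] at h2
  exact h2

theorem eI_ne_zero (hA : A.LiesOverPrime q) (hπ : ∀ a : A, π a = 0 ↔ ¬ IsUnit a) (hM : ¬ q ∣ M) :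
    eI hM ≠ (0 : FB (M * q)) := by
  have := charP_of_liesOverPrime hA hπ
  intro h
  have h1 := gRed_eI (π := π) hM
  rw [h] at h1
  exact one_ne_zero (h1.unique (gRed_zero π))

/-- the two reductions are distinct -/
theorem rInf1_ne_rZero1 : (rInf1 M q hA hπ hs hM).O ≠ (rZero1 M q hA hπ hs hM).O := by
  intro h
  have h1 := (isRed_eI_inf (hA := hA) (hπ := hπ) (hs := hs) (hM := hM)).inv one_ne_zero
  have h2 := (isRed_eI_zero (hA := hA) (hπ := hπ) (hs := hs) (hM := hM)).inv_notMem (eI_ne_zero hA hπ hM)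
  rw [← h] at h2
  exact h2 h1.mem

theorem isRed_jB : (redX M hA hπ hs hM).IsRed (jB M) (RedQ.xj k M) := isRed_redX.2 (gRed_jB M)

theorem overGauss_rInf1 : QComp.OverGauss Qb A (al1 M q (jB M)) (rInf1 M q hA hπ hs hM).O :=
  overGauss_of_red (isRed_inf_al1 isRed_jB) (RedQ.transcendental_xj k M) hπ

theorem transcendental_xj_pow : Transcendental k (RedQ.xj k M ^ q) :=
  (RedQ.transcendental_xj k M).pow hqf.out.pos

theorem isRed_zero_al1_jB [CharP k q] :
    (rZero1 M q hA hπ hs hM).IsRed (al1 M q (jB M)) (RedQ.xj k M ^ q) :=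
  isRed_zero_al1 (by rw [phiK_xj]; exact isRed_jB)

theorem isRed_inf_be1_jB [CharP k q] :
    (rInf1 M q hA hπ hs hM).IsRed (be1 M q (jB M)) (RedQ.xj k M ^ q) :=
  isRed_inf_be1 (by rw [phiK_xj]; exact isRed_jB)

theorem overGauss_rZero1 : QComp.OverGauss Qb A (al1 M q (jB M)) (rZero1 M q hA hπ hs hM).O := by
  have := charP_of_liesOverPrime hA hπ
  exact overGauss_of_red isRed_zero_al1_jB transcendental_xj_pow hπ

/-- elements integral at both reductions are integral over the reduction ring below -/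
theorem exists_monic_level1 (hA : A.LiesOverPrime q) (hπ : ∀ a : A, π a = 0 ↔ ¬ IsUnit a)
    (hs : Function.Surjective π) (hM : ¬ q ∣ M) {f : FB (M * q)} (h1 : f ∈ (rInf1 M q hA hπ hs hM).O)
    (h2 : f ∈ (rZero1 M q hA hπ hs hM).O) : ∃ χ : (FB M)[X], χ.Monic ∧
      χ.eval₂ (al1 M q : FB M →+* FB (M * q)) f = 0 ∧ ∀ n, χ.coeff n ∈ (redX M hA hπ hs hM).O := by
  obtain ⟨a, ha⟩ := (rInf1 M q hA hπ hs hM).exists_isRed_of_mem h1
  obtain ⟨c, hc⟩ := (rZero1 M q hA hπ hs hM).exists_isRed_of_mem h2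
  rw [isRed_rInf1] at ha
  rw [isRed_rZero1, isRed_rInf1] at hc
  obtain ⟨χ, hχ, hχ0, hχm⟩ := (fullEmb1 hqf.out hM).exists_charpoly f
  refine ⟨χ, hχ, hχ0, fun n => ?_⟩
  have h3 : qExpand Qb q ((χ.coeff n : FB M) : LaurentSeries Qb) ∈ gaussS π := by
    have h4 := congrArg (fun p => p.coeff n) hχm
    simp only [coeff_map] at h4
    have h5 : base1 (q := q) (χ.coeff n) = qExpand Qb q ((χ.coeff n : FB M) : LaurentSeries Qb) := rfl
    rw [← h5, h4]
    refine coeff_prod_mem (gaussS π) _ _ (fun i _ => ?_) n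
    cases i with
    | none => exact ⟨_, gRed_qExpand ha q⟩
    | some ζ => exact ⟨_, gRed_twist_root hA hπ (RU.pow ζ) hc⟩
  obtain ⟨z, hz⟩ := h3
  obtain ⟨z', hz', -⟩ := gRed_of_qExpand (gaussFB hA M) hπ q (χ.coeff n).2 hz
  rw [← gaussRes_bar M hA hπ hs hM] at *
  have h6 : z' ∈ modularFunctionFieldFullC k M := by
    rw [← gaussRes_bar M hA hπ hs hM]; exact ⟨_, (χ.coeff n).2, hz'⟩
  exact (isRed_redX (z := ⟨z', h6⟩).2 hz').mem

theorem isCoord' (hA : A.LiesOverPrime q) (hπ : ∀ a : A, π a = 0 ↔ ¬ IsUnit a)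
    (hs : Function.Surjective π) (hM : ¬ q ∣ M) : IsCoord (redX M hA hπ hs hM) (jB M) (RedQ.xj k M) :=
  have h := isCoord_jB hA hπ hs hM
  { isRed := h.isRed
    transcendental := h.trans
    finiteDimensional := h.finite
    finiteDimensionalk := h.finite'
    finrank_eq := h.finrank_eq }

theorem mem_of_inter_level1 {V : ValuationSubring (FB (M * q))}
    (hV : QComp.OverGauss Qb A (al1 M q (jB M)) V) {f : FB (M * q)}
    (h1 : f ∈ (rInf1 M q hA hπ hs hM).O) (h2 : f ∈ (rZero1 M q hA hπ hs hM).O) : f ∈ V := by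
  obtain ⟨χ, hχ, hχ0, hχO⟩ := exists_monic_level1 hA hπ hs hM h1 h2
  exact mem_of_monic V _ hχ hχ0 (fun n =>
    map_mem_of_overGauss (isCoord' hA hπ hs hM) hπ (al1 M q) hV (hχO n))

theorem exists_mul_pow_mem (hA : A.LiesOverPrime q) (hπ : ∀ a : A, π a = 0 ↔ ¬ IsUnit a)
    (hs : Function.Surjective π) (hM : ¬ q ∣ M) {x e : FB (M * q)}
    (he : (rInf1 M q hA hπ hs hM).IsRed e 0) : ∃ N : ℕ, ∀ n ≥ N, x * e ^ n ∈ (rInf1 M q hA hπ hs hM).O := by
  rw [isRed_rInf1] at he
  obtain ⟨N, hN⟩ := exists_gRed_zero_mul hA hπ (gaussFB hA (M * q)) x.2 e.2 he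
  refine ⟨N, fun n hn => ?_⟩
  have h1 := hN n hn
  have h2 : (rInf1 M q hA hπ hs hM).IsRed (x * e ^ n) 0 := isRed_rInf1.2 h1
  exact h2.mem

/-- **(V5), level one** -/
theorem eq_or_eq_level1 {V : ValuationSubring (FB (M * q))}
    (hV : QComp.OverGauss Qb A (al1 M q (jB M)) V) :
    V = (rInf1 M q hA hπ hs hM).O ∨ V = (rZero1 M q hA hπ hs hM).O := by
  have hVA : ∀ a : Qb, algebraMap Qb (FB (M * q)) a ∈ V → a ∈ A := by
    intro a ha
    obtain ⟨b, hb⟩ := (hV.mem_iff a).1 ha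
    rw [← hb]; exact b.2
  have e1 := isRed_eI_inf (hA := hA) (hπ := hπ) (hs := hs) (hM := hM)
  have e2 := isRed_eI_zero (hA := hA) (hπ := hπ) (hs := hs) (hM := hM)
  have heV : eI hM ∈ V := mem_of_inter_level1 hV e1.mem e2.mem
  have h0 : (eI hM ≠ 0 ∧ (eI hM)⁻¹ ∈ V) ∨ (1 - eI hM ≠ 0 ∧ (1 - eI hM)⁻¹ ∈ V) := by
    obtain ⟨i, -, hi, hi0⟩ := exists_unit_of_sum (Finset.univ : Finset Bool)
      (fun b => if b then eI hM else 1 - eI hM) V
      (by
        intro i _
        cases i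
        · simpa using sub_mem (one_mem _) heV
        · simpa using heV) (by simp)
    cases i
    · right; simpa [and_comm] using And.intro hi hi0
    · left; simpa [and_comm] using And.intro hi hi0
  rcases h0 with ⟨hi0, hi⟩ | ⟨hi0, hi⟩
  · left
    refine eq_of_le _ (fun x hx => ?_) hVA
    obtain ⟨N, hN⟩ := exists_mul_pow_mem hA hπ hs hM (x := w1 hqf.out hM x) (isRed_rZero1.1 e2)
    have h1 : x * eI hM ^ N ∈ V := by
      refine mem_of_inter_level1 (hA := hA) (hπ := hπ) (hs := hs) (hM := hM) hV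
        (mul_mem hx (pow_mem e1.mem N)) ?_
      rw [mem_rZero1, map_mul, map_pow]
      exact hN N le_rfl
    have h2 : x = (x * eI hM ^ N) * (eI hM)⁻¹ ^ N := by
      rw [mul_assoc, ← mul_pow, mul_inv_cancel₀ hi0, one_pow, mul_one]
    rw [h2]
    exact mul_mem h1 (pow_mem hi N)
  · right
    refine eq_of_le _ (fun x hx => ?_) hVA
    have e3 : (rInf1 M q hA hπ hs hM).IsRed (1 - eI hM) 0 := by
      have := (rInf1 M q hA hπ hs hM).isRed_one.sub e1
      rwa [sub_self] at this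
    obtain ⟨N, hN⟩ := exists_mul_pow_mem hA hπ hs hM (x := x) e3
    have h1 : x * (1 - eI hM) ^ N ∈ V := by
      refine mem_of_inter_level1 (hA := hA) (hπ := hπ) (hs := hs) (hM := hM) hV (hN N le_rfl) ?_
      exact mul_mem hx (pow_mem (sub_mem (one_mem _) e2.mem) N)
    have h2 : x = (x * (1 - eI hM) ^ N) * (1 - eI hM)⁻¹ ^ N := by
      rw [mul_assoc, ← mul_pow, mul_inv_cancel₀ hi0, one_pow, mul_one]
    rw [h2]
    exact mul_mem h1 (pow_mem hi N)

end LevelOne

end Fermat.Agent.QVal
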