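import Fermat.Agent.QVal.LevelTwoB

/-!
# The coefficientwise Galois action
-/

set_option autoImplicit false
set_option linter.unusedSectionVars false
set_option linter.style.haveILetI false
set_option linter.unusedVariables false

noncomputable section
open AlgebraicCurve ModularCurve IntermediateField Fermat.Agent.JZ Polynomial Fermat.Agent.Red

namespace Fermat.Agent.QVal

open ModFn

local notation "Qb" => AlgebraicClosure ℚ
local notation "Γℚ" => (AlgebraicClosure ℚ ≃ₐ[ℚ] AlgebraicClosure ℚ)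

/-- the coefficientwise Galois action -/
abbrev gal (N : ℕ) (σ : Γℚ) : FB N ≃+* FB N := arithmeticRingAut (modularFunctionFieldFull N) σ

theorem coe_gal (N : ℕ) (σ : Γℚ) (x : FB N) :
    (gal N σ x : LaurentSeries Qb) = coeffMap (σ : Qb →+* Qb) (x : LaurentSeries Qb) := rfl

variable {k : Type*} [Field k] {A : ValuationSubring Qb} {π : A →+* k} {M q : ℕ} [NeZero M] [NeZero q]
  [hqf : Fact q.Prime] (hM : ¬ q ∣ M) (σ : Γℚ)

theorem gal_al1 (x : FB M) : gal (M * q) σ (al1 M q x) = al1 M q (gal M σ x) :=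
  Subtype.ext (by rw [coe_gal, coe_al1, coe_al1, coe_gal])

theorem gal_be1 (x : FB M) : gal (M * q) σ (be1 M q x) = be1 M q (gal M σ x) :=
  Subtype.ext (by rw [coe_gal, coe_be1, coe_be1, coe_gal, ModFn.coeffMap_qExpand])

theorem gal_al2 (x : FB (M * q)) : gal (M * q * q) σ (al2 M q x) = al2 M q (gal (M * q) σ x) :=
  Subtype.ext (by rw [coe_gal, coe_al2, coe_al2, coe_gal])

theorem gal_be2 (x : FB (M * q)) : gal (M * q * q) σ (be2 M q x) = be2 M q (gal (M * q) σ x) :=
  Subtype.ext (by rw [coe_gal, coe_be2, coe_be2, coe_gal, ModFn.coeffMap_qExpand])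

theorem w1_gal (x : FB (M * q)) :
    w1 hqf.out hM (gal (M * q) σ x) = gal (M * q) σ (w1 hqf.out hM x) := by
  have h1 : RingHom.eqLocusField
      ((w1 hqf.out hM : FB (M * q) →+* FB (M * q)).comp (gal (M * q) σ : FB (M * q) →+* FB (M * q)))
      ((gal (M * q) σ : FB (M * q) →+* FB (M * q)).comp (w1 hqf.out hM : FB (M * q) →+* FB (M * q))) = ⊤ := by
    apply gen1 M q
    · intro x
      change w1 hqf.out hM (gal (M * q) σ (al1 M q x)) = gal (M * q) σ (w1 hqf.out hM (al1 M q x))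
      rw [gal_al1, w1_al, w1_al, gal_be1]
    · change w1 hqf.out hM (gal (M * q) σ (be1 M q _)) = gal (M * q) σ (w1 hqf.out hM (be1 M q _))
      rw [gal_be1, w1_be, w1_be, gal_al1]
  have h2 : x ∈ (⊤ : Subfield (FB (M * q))) := trivial
  rw [← h1] at h2
  exact h2

theorem w2_gal (x : FB (M * q * q)) :
    w2 hqf.out hM (gal (M * q * q) σ x) = gal (M * q * q) σ (w2 hqf.out hM x) := by
  have h1 : ((w2 hqf.out hM : FB (M * q * q) →+* FB (M * q * q)).comp
      (gal (M * q * q) σ : FB (M * q * q) →+* FB (M * q * q))) =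
      ((gal (M * q * q) σ : FB (M * q * q) →+* FB (M * q * q)).comp
        (w2 hqf.out hM : FB (M * q * q) →+* FB (M * q * q))) := by
    apply ext_unique
    · intro x
      change w2 hqf.out hM (gal (M * q * q) σ (al2 M q x)) = gal (M * q * q) σ (w2 hqf.out hM (al2 M q x))
      rw [gal_al2, w2_al, w2_al, gal_be2, w1_gal]
    · intro x
      change w2 hqf.out hM (gal (M * q * q) σ (be2 M q x)) = gal (M * q * q) σ (w2 hqf.out hM (be2 M q x))
      rw [gal_be2, w2_be, w2_be, gal_al2, w1_gal]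
  exact DFunLike.congr_fun h1 x

/-- the action on roots of unity -/
def galRU (ζ : RU q) : RU q :=
  ⟨Units.map (σ : Qb →* Qb) (ζ : Qbˣ), by
    rw [mem_rootsOfUnity, ← map_pow, RU.pow ζ, map_one]⟩

theorem coe_galRU (ζ : RU q) : ((galRU σ ζ : Qbˣ) : Qb) = σ ((ζ : Qbˣ) : Qb) := rfl

theorem galRU_ne {ζ : RU q} (h : ζ ≠ 1) : galRU σ ζ ≠ 1 := by
  intro h1
  apply h
  apply Subtype.ext
  apply Units.ext
  have h2 := congrArg (fun z : RU q => ((z : Qbˣ) : Qb)) h1
  simp only [coe_galRU] at h2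
  apply σ.injective
  rw [h2]
  exact (map_one σ).symm

theorem epsU_gal {ζ : RU q} (h : ζ ≠ 1) (x : FB (M * q * q)) :
    epsU hM (galRU_ne σ h) (gal (M * q * q) σ x) = coeffMap (σ : Qb →+* Qb) (epsU hM h x) := by
  have h1 : ((epsU hM (galRU_ne σ h) : FB (M * q * q) →+* LaurentSeries Qb).comp
      (gal (M * q * q) σ : FB (M * q * q) →+* FB (M * q * q))) =
      (coeffMap (σ : Qb →+* Qb)).comp (epsU hM h : FB (M * q * q) →+* LaurentSeries Qb) := by
    apply ext_unique
    · intro x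
      change epsU hM (galRU_ne σ h) (gal (M * q * q) σ (al2 M q x)) = coeffMap (σ : Qb →+* Qb) (epsU hM h (al2 M q x))
      rw [gal_al2, epsU_al, epsU_al, coe_gal]
    · intro x
      change epsU hM (galRU_ne σ h) (gal (M * q * q) σ (be2 M q x)) = coeffMap (σ : Qb →+* Qb) (epsU hM h (be2 M q x))
      rw [gal_be2, epsU_be, epsU_be, w1_gal, coe_gal, ModFn.coeffMap_twist]
      rfl
  exact DFunLike.congr_fun h1 x

/-! ### norms commute with the Galois action -/

theorem normAlong_gal {F F' : Type*} [Field F] [Field F'] [Algebra Qb F]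
    [Algebra Qb F'] (φ : F →ₐ[Qb] F') (e₀ : F ≃+* F) (e : F' ≃+* F')
    (h : ∀ x, φ (e₀ x) = e (φ x)) (x : F') :
    normAlong φ (e x) = e₀ (normAlong φ x) := by
  have h1 := @Algebra.norm_eq_of_equiv_equiv F F' F F' _ _ _ _ (algebraAlong φ) (algebraAlong φ)
    e₀ e (by ext y; exact h y) x
  have h2 : normAlong φ x = e₀.symm (normAlong φ (e x)) := h1
  rw [h2, RingEquiv.apply_symm_apply]

theorem norm_al1_gal (x : FB (M * q)) :
    normAlong (al1 M q) (gal (M * q) σ x) = gal M σ (normAlong (al1 M q) x) :=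
  normAlong_gal _ _ _ (fun x => (gal_al1 σ x).symm) x

theorem norm_be1_gal (x : FB (M * q)) :
    normAlong (be1 M q) (gal (M * q) σ x) = gal M σ (normAlong (be1 M q) x) :=
  normAlong_gal _ _ _ (fun x => (gal_be1 σ x).symm) x

theorem norm_al2_gal (x : FB (M * q * q)) :
    normAlong (al2 M q) (gal (M * q * q) σ x) = gal (M * q) σ (normAlong (al2 M q) x) :=
  normAlong_gal _ _ _ (fun x => (gal_al2 σ x).symm) x

theorem norm_be2_gal (x : FB (M * q * q)) :
    normAlong (be2 M q) (gal (M * q * q) σ x) = gal (M * q) σ (normAlong (be2 M q) x) :=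
  normAlong_gal _ _ _ (fun x => (gal_be2 σ x).symm) x

/-! ### inertia and reductions -/

section inertia

variable {σ}

theorem inertia_mem (hσ : σ ∈ A.inertiaSubgroupIn ℚ) {a : Qb} (ha : a ∈ A) : σ a ∈ A :=
  (Frob.apply_mem_iff ((Frob.mem_inertiaSubgroupIn_iff A σ).1 hσ).1).2 ha

theorem inertia_pi (hπ : ∀ a : A, π a = 0 ↔ ¬ IsUnit a) (hσ : σ ∈ A.inertiaSubgroupIn ℚ) (a : A) :
    π ⟨σ a, inertia_mem hσ a.2⟩ = π a := by
  have h1 := ((Frob.mem_inertiaSubgroupIn_iff A σ).1 hσ).2 a a.2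
  rw [← sub_eq_zero, ← map_sub, hπ]
  exact (IsLocalRing.mem_maximalIdeal _).1 (A.coe_mem_nonunits_iff.1 h1)

/-- the action of an element of inertia on `A` -/
def actA (hσ : σ ∈ A.inertiaSubgroupIn ℚ) : A →+* A :=
  ((σ : Qb →+* Qb).comp A.subtype).codRestrict A.toSubring (fun a => inertia_mem hσ a.2)

/-- **Gauss reductions are invariant under inertia** -/
theorem gRed_inertia (hπ : ∀ a : A, π a = 0 ↔ ¬ IsUnit a) (hσ : σ ∈ A.inertiaSubgroupIn ℚ)
    {f : LaurentSeries Qb} {z : LaurentSeries k} (h : GRed π f z) :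
    GRed π (coeffMap (σ : Qb →+* Qb) f) z := by
  obtain ⟨a, b, hb, h1, h2⟩ := h
  have hρ : ∀ c : LaurentSeries A, rhoA π (coeffMap (actA hσ) c) = rhoA π c := by
    intro c
    ext n
    simp only [coeffMap_coeff]
    exact inertia_pi hπ hσ _
  have hι : ∀ c : LaurentSeries A, iotaA A (coeffMap (actA hσ) c) = coeffMap (σ : Qb →+* Qb) (iotaA A c) := by
    intro c
    ext n
    simp only [coeffMap_coeff]
    rfl
  refine ⟨coeffMap (actA hσ) a, coeffMap (actA hσ) b, ?_, ?_, ?_⟩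
  · rw [hρ]; exact hb
  · rw [hι, hι, ← map_mul, h1]
  · rw [hρ, hρ, h2]

end inertia

end Fermat.Agent.QVal
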