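import Fermat.Agent.Red.Gauss
import Fermat.Agent.Frob.Basic

/-!
# Transport of constant reductions, and valuation rings containing finite intersections
-/

set_option autoImplicit false
set_option linter.unusedSectionVars false
set_option linter.style.haveILetI false
set_option linter.unusedVariables false

noncomputable section

open AlgebraicCurve IntermediateField ModularCurve Fermat.Agent.Red

namespace Fermat.Agent.QVal

section Comap

variable {K k : Type*} [Field K] [Field k] {A : ValuationSubring K} {π : A →+* k}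
  {F F' Fk : Type*} [Field F] [Algebra K F] [Field F'] [Algebra K F'] [Field Fk] [Algebra k Fk]

/-- transport of a constant reduction along an isomorphism -/
def comapRed (R : ConstRed A π F Fk) (e : F' ≃ₐ[K] F) : ConstRed A π F' Fk where
  O := R.O.comap (e : F' →+* F)
  algebraMap_mem_iff a := by
    rw [ValuationSubring.mem_comap]
    have h : (e : F' →+* F) (algebraMap K F' a) = algebraMap K F a := e.commutes a
    rw [h]
    exact R.algebraMap_mem_iff a
  red :=
    { toFun := fun y => R.red ⟨e y, y.2⟩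
      map_one' := by
        have : (⟨e ((1 : R.O.comap (e : F' →+* F)) : F'), (1 : R.O.comap (e : F' →+* F)).2⟩ : R.O) = 1 :=
          Subtype.ext (map_one e)
        exact (congrArg R.red this).trans (map_one _)
      map_mul' := fun x y => by
        rw [← map_mul]
        exact congrArg R.red (Subtype.ext (map_mul e _ _))
      map_zero' := by
        have : (⟨e ((0 : R.O.comap (e : F' →+* F)) : F'), (0 : R.O.comap (e : F' →+* F)).2⟩ : R.O) = 0 :=
          Subtype.ext (map_zero e)
        exact (congrArg R.red this).trans (map_zero _)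
      map_add' := fun x y => by
        rw [← map_add]
        exact congrArg R.red (Subtype.ext (map_add e _ _)) }
  red_surjective := by
    intro z
    obtain ⟨y, hy⟩ := R.red_surjective z
    refine ⟨⟨e.symm y, ?_⟩, ?_⟩
    · rw [ValuationSubring.mem_comap]
      have : (e : F' →+* F) (e.symm y) = y := e.apply_symm_apply _
      rw [this]; exact y.2
    · rw [← hy]
      exact congrArg R.red (Subtype.ext (e.apply_symm_apply _))
  red_eq_zero_iff := by
    intro y
    have h := R.red_eq_zero_iff ⟨e y, y.2⟩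
    refine h.trans (not_congr ?_)
    constructor
    · intro hu
      obtain ⟨b, hb⟩ := hu.exists_right_inv
      have hb' : e y * (b : F) = 1 := congrArg Subtype.val hb
      have hmem : e.symm b ∈ R.O.comap (e : F' →+* F) := by
        rw [ValuationSubring.mem_comap]
        have : (e : F' →+* F) (e.symm b) = b := e.apply_symm_apply _
        rw [this]; exact b.2
      refine IsUnit.of_mul_eq_one ⟨e.symm b, hmem⟩ (Subtype.ext ?_)
      apply e.injective
      change e ((y : F') * e.symm b) = e 1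
      rw [map_mul, e.apply_symm_apply, hb', map_one]
    · intro hu
      obtain ⟨b, hb⟩ := hu.exists_right_inv
      refine IsUnit.of_mul_eq_one ⟨e b, b.2⟩ (Subtype.ext ?_)
      change e y * e b = 1
      rw [← map_mul]
      have hb' : (y : F') * (b : F') = 1 := congrArg Subtype.val hb
      rw [hb', map_one]
  red_algebraMap a := by
    have h := R.red_algebraMap a
    refine Eq.trans (congrArg R.red (Subtype.ext ?_)) h
    exact e.commutes _
  exists_scale := by
    intro f hf
    obtain ⟨c, hc, h1, h2⟩ := R.exists_scale (e f) (by simpa using hf)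
    refine ⟨c, hc, ?_, ?_⟩
    · rw [ValuationSubring.mem_comap]
      have : (e : F' →+* F) (algebraMap K F' c * f) = algebraMap K F c * e f := by
        rw [map_mul]; congr 1; exact e.commutes c
      rw [this]; exact h1
    · rw [ValuationSubring.mem_comap]
      have : (e : F' →+* F) (algebraMap K F' c * f)⁻¹ = (algebraMap K F c * e f)⁻¹ := by
        rw [map_inv₀, map_mul]; congr 2; exact e.commutes c
      rw [this]; exact h2

theorem comapRed_isRed {R : ConstRed A π F Fk} {e : F' ≃ₐ[K] F} {f : F'} {z : Fk} :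
    (comapRed R e).IsRed f z ↔ R.IsRed (e f) z := Iff.rfl

theorem mem_comapRed_O {R : ConstRed A π F Fk} {e : F' ≃ₐ[K] F} {f : F'} :
    f ∈ (comapRed R e).O ↔ e f ∈ R.O := Iff.rfl

/-- a valuation ring containing `R.O` and inducing `A` on constants equals `R.O` -/
theorem eq_of_le (R : ConstRed A π F Fk) {V : ValuationSubring F} (hle : R.O ≤ V)
    (hV : ∀ a : K, algebraMap K F a ∈ V → a ∈ A) : V = R.O := by
  refine le_antisymm ?_ hle
  intro f hf
  by_cases hf0 : f = 0
  · rw [hf0]; exact zero_mem _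
  obtain ⟨c, hc, h1, h2⟩ := R.exists_scale f hf0
  have hc' : algebraMap K F c ≠ 0 := by simpa using hc
  have h3 : algebraMap K F c⁻¹ ∈ V := by
    have h4 : algebraMap K F c⁻¹ = f * (algebraMap K F c * f)⁻¹ := by
      rw [map_inv₀, mul_inv, mul_left_comm, mul_inv_cancel₀ hf0, mul_one]
    rw [h4]
    exact mul_mem hf (hle h2)
  have h5 := (R.algebraMap_mem_iff _).2 (hV _ h3)
  have h6 : f = algebraMap K F c⁻¹ * (algebraMap K F c * f) := by
    rw [← mul_assoc, ← map_mul, inv_mul_cancel₀ hc, map_one, one_mul]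
  rw [h6]
  exact mul_mem h5 h1

theorem isRed_zero_iff_inv_notMem (R : ConstRed A π F Fk) {f : F} (hf : f ≠ 0) :
    R.IsRed f 0 ↔ f⁻¹ ∉ R.O := by
  constructor
  · intro h; exact h.inv_notMem hf
  · intro h
    have hm : f ∈ R.O := (R.O.mem_or_inv_mem f).resolve_right h
    obtain ⟨z, hz⟩ := R.exists_isRed_of_mem hm
    by_cases hz0 : z = 0
    · rwa [hz0] at hz
    · exact absurd (hz.inv hz0).mem h

end Comap

section Bourbaki

variable {F : Type*} [Field F]

/-- for `x` in a valuation ring with residue characteristic `q`, for all large primes `s`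
`1 + x + … + x^(s-1)` is a unit -/
theorem exists_bound_of_mem (O : ValuationSubring F) {q : ℕ} (hq : q.Prime) (hO : (q : F) ∈ O.nonunits)
    {x : F} (hx : x ∈ O) : ∃ N : ℕ, ∀ s : ℕ, s.Prime → N < s →
      (∑ i ∈ Finset.range s, x ^ i) ≠ 0 ∧ (∑ i ∈ Finset.range s, x ^ i)⁻¹ ∈ O := by
  classical
  -- the residue class
  let r := IsLocalRing.residue O
  have hq0 : (q : IsLocalRing.ResidueField O) = 0 := by
    have h1 : r (q : O) = 0 := by
      rw [IsLocalRing.residue_eq_zero_iff]
      have : ((q : O) : F) ∈ O.nonunits := by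
        have h2 : ((q : O) : F) = (q : F) := by simp
        rw [h2]; exact hO
      exact O.coe_mem_nonunits_iff.1 this
    rwa [map_natCast] at h1
  have hchar : CharP (IsLocalRing.ResidueField O) q := by
    have : Fact q.Prime := ⟨hq⟩
    exact (CharP.charP_iff_prime_eq_zero hq).2 hq0
  set y := r ⟨x, hx⟩ with hy
  have key : ∃ N : ℕ, ∀ s : ℕ, s.Prime → N < s → ∑ i ∈ Finset.range s, y ^ i ≠ 0 := by
    by_cases hy1 : y = 1
    · refine ⟨q, fun s hs hqs => ?_⟩
      rw [hy1]
      simp only [one_pow, Finset.sum_const, Finset.card_range, nsmul_eq_mul, mul_one]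
      intro h0
      have h1 := (CharP.cast_eq_zero_iff _ q s).1 h0
      have := (Nat.prime_dvd_prime_iff_eq hq hs).1 h1
      omega
    · refine ⟨orderOf y, fun s hs hos h0 => ?_⟩
      have h1 : y ^ s = 1 := by
        have h2 := geom_sum_mul y s
        rw [h0, zero_mul] at h2
        exact (sub_eq_zero.1 h2.symm)
      have h2 := orderOf_dvd_of_pow_eq_one h1
      rcases (Nat.dvd_prime hs).1 h2 with h3 | h3
      · exact hy1 (orderOf_eq_one_iff.1 h3)
      · omega
  obtain ⟨N, hN⟩ := key
  refine ⟨N, fun s hs hNs => ?_⟩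
  have h1 := hN s hs hNs
  have h2 : r (∑ i ∈ Finset.range s, (⟨x, hx⟩ : O) ^ i) ≠ 0 := by
    rw [map_sum]
    simpa only [map_pow] using h1
  have h3 : IsUnit (∑ i ∈ Finset.range s, (⟨x, hx⟩ : O) ^ i) := by
    by_contra h4
    exact h2 ((IsLocalRing.residue_eq_zero_iff _).2 h4)
  obtain ⟨b, hb⟩ := h3.exists_right_inv
  have hb' : (∑ i ∈ Finset.range s, x ^ i) * (b : F) = 1 := by
    have h4 := congrArg (Subtype.val) hb
    simpa using h4
  refine ⟨left_ne_zero_of_mul_eq_one hb', ?_⟩
  rw [inv_eq_of_mul_eq_one_right hb']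
  exact b.2

theorem exists_prime_gt (N : ℕ) : ∃ s : ℕ, s.Prime ∧ N < s := by
  obtain ⟨s, hs, hp⟩ := Nat.exists_infinite_primes (N + 1)
  exact ⟨s, hp, hs⟩

/-- for `x ∉ O`: `1/(1+…+x^(s-1))` and `x/(1+…+x^(s-1))` belong to `O` for `s ≥ 2` -/
theorem mem_of_notMem (O : ValuationSubring F) {x : F} (hx : x ∉ O) {s : ℕ} (hs : 2 ≤ s) :
    (∑ i ∈ Finset.range s, x ^ i)⁻¹ ∈ O ∧ x * (∑ i ∈ Finset.range s, x ^ i)⁻¹ ∈ O := by
  have hx0 : x ≠ 0 := by rintro rfl; exact hx (zero_mem _)
  have hxi : x⁻¹ ∈ O := (O.mem_or_inv_mem x).resolve_left hx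
  have hv : 1 < O.valuation x := by
    rw [← not_le, ValuationSubring.valuation_le_one_iff]; exact hx
  -- valuation of the sum
  have key : ∀ n : ℕ, O.valuation (∑ i ∈ Finset.range (n + 1), x ^ i) = O.valuation x ^ n := by
    intro n
    induction n with
    | zero => simp
    | succ n ih =>
      have h1 : O.valuation (∑ i ∈ Finset.range (n + 1), x ^ i) < O.valuation (x ^ (n + 1)) := by
        rw [ih, map_pow]
        exact pow_lt_pow_right₀ hv (Nat.lt_succ_self n)
      rw [Finset.sum_range_succ, Valuation.map_add_eq_of_lt_right _ h1, map_pow]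
  obtain ⟨n, rfl⟩ : ∃ n, s = (n + 1) + 1 := ⟨s - 2, by omega⟩
  rw [← ValuationSubring.valuation_le_one_iff, ← ValuationSubring.valuation_le_one_iff, map_mul, map_inv₀, key]
  have hpos : 0 < O.valuation x := zero_lt_one.trans hv
  have h1 : (O.valuation x ^ (n + 1))⁻¹ ≤ 1 := inv_le_one_of_one_le₀ (one_le_pow₀ hv.le)
  refine ⟨h1, ?_⟩
  rw [pow_succ, mul_inv, mul_comm, mul_assoc, inv_mul_cancel₀ hpos.ne', mul_one]
  exact inv_le_one_of_one_le₀ (one_le_pow₀ hv.le)

/-- **A valuation ring containing a finite intersection of valuation rings contains one of them.** -/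
theorem exists_le_of_inter {ι : Type*} [Finite ι] [Nonempty ι] (O : ι → ValuationSubring F) {q : ℕ}
    (hq : q.Prime) (hO : ∀ i, (q : F) ∈ (O i).nonunits) (V : ValuationSubring F)
    (hV : ∀ x, (∀ i, x ∈ O i) → x ∈ V) : ∃ i, O i ≤ V := by
  classical
  have : Fintype ι := Fintype.ofFinite ι
  let D : Subring F := ⨅ i, (O i).toSubring
  have hD : ∀ x, x ∈ D ↔ ∀ i, x ∈ O i := fun x => Subring.mem_iInf
  have hDV : ∀ x ∈ D, x ∈ V := fun x hx => hV x ((hD x).1 hx)
  -- the centres
  have hle : ∀ i, D ≤ (O i).toSubring := fun i => iInf_le _ i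
  let P : ι → Ideal D := fun i => (IsLocalRing.maximalIdeal (O i)).comap (Subring.inclusion (hle i))
  have hDV' : D ≤ V.toSubring := hDV
  let Q : Ideal D := (IsLocalRing.maximalIdeal V).comap (Subring.inclusion hDV')
  have hP : ∀ i (d : D), d ∈ P i ↔ (d : F) ∈ (O i).nonunits := by
    intro i d
    have h1 := (O i).coe_mem_nonunits_iff (a := Subring.inclusion (hle i) d)
    exact h1.symm
  have hQ : ∀ (d : D), d ∈ Q ↔ (d : F) ∈ V.nonunits := by
    intro d
    have h1 := V.coe_mem_nonunits_iff (a := Subring.inclusion hDV' d)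
    exact h1.symm
  have hsub : (Q : Set D) ⊆ ⋃ i ∈ (Finset.univ : Finset ι), (P i : Set D) := by
    intro d hd
    by_contra hno
    simp only [Set.mem_iUnion, not_exists, Finset.mem_univ, true_implies, SetLike.mem_coe] at hno
    have hd0 : (d : F) ≠ 0 := by
      intro h0
      obtain ⟨i⟩ := ‹Nonempty ι›
      apply hno i
      rw [hP, h0, ValuationSubring.mem_nonunits_iff, map_zero]
      exact zero_lt_one
    have hinv : (d : F)⁻¹ ∈ D := by
      rw [hD]
      intro i
      have h1 := hno i
      rw [hP, Frob.mem_nonunits_iff_inv] at h1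
      push Not at h1
      exact h1.2
    have h2 := (hQ d).1 hd
    rw [Frob.mem_nonunits_iff_inv] at h2
    rcases h2 with h2 | h2
    · exact hd0 h2
    · exact h2 (hDV _ hinv)
  have hprime : ∀ i ∈ (Finset.univ : Finset ι), (P i).IsPrime := fun i _ => Ideal.comap_isPrime _ _
  obtain ⟨i₁⟩ := ‹Nonempty ι›
  obtain ⟨i, -, hi⟩ := (Ideal.subset_union_prime i₁ i₁ (fun i hi _ _ => hprime i hi)).1 hsub
  refine ⟨i, fun x hx => ?_⟩
  -- the Bourbaki element
  have hN : ∀ j, ∃ N : ℕ, ∀ s : ℕ, s.Prime → N < s →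
      (∑ i ∈ Finset.range s, x ^ i)⁻¹ ∈ O j ∧ x * (∑ i ∈ Finset.range s, x ^ i)⁻¹ ∈ O j := by
    intro j
    by_cases hj : x ∈ O j
    · obtain ⟨N, hN⟩ := exists_bound_of_mem (O j) hq (hO j) hj
      exact ⟨N, fun s hs hNs => ⟨(hN s hs hNs).2, mul_mem hj (hN s hs hNs).2⟩⟩
    · exact ⟨2, fun s hs hNs => mem_of_notMem (O j) hj (by omega)⟩
  choose N hN using hN
  obtain ⟨N', hN'⟩ := exists_bound_of_mem (O i) hq (hO i) hx
  obtain ⟨s, hs, hNs⟩ := exists_prime_gt (∑ j, N j + N')
  have hNs' : ∀ j, N j < s := fun j => lt_of_le_of_lt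
    (Finset.single_le_sum (f := N) (fun _ _ => Nat.zero_le _) (Finset.mem_univ j)) (by omega)
  set u := (∑ i ∈ Finset.range s, x ^ i)⁻¹ with hu
  have huD : u ∈ D := (hD u).2 fun j => (hN j s hs (hNs' j)).1
  have hxuD : x * u ∈ D := (hD _).2 fun j => (hN j s hs (hNs' j)).2
  have hui : u⁻¹ ∈ O i := by
    rw [hu, inv_inv]
    exact sum_mem fun j _ => pow_mem hx j
  have hu0 : u ≠ 0 := inv_ne_zero (hN' s hs (by omega)).1
  have huQ : u⁻¹ ∈ V := by
    by_contra h1
    have h2 : (⟨u, huD⟩ : D) ∈ Q := by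
      rw [hQ, Frob.mem_nonunits_iff_inv]
      exact Or.inr h1
    have h3 := (hP i _).1 (hi h2)
    rw [Frob.mem_nonunits_iff_inv] at h3
    rcases h3 with h3 | h3
    · exact hu0 h3
    · exact h3 hui
  have h4 : x = (x * u) * u⁻¹ := by rw [mul_assoc, mul_inv_cancel₀ hu0, mul_one]
  rw [h4]
  exact mul_mem (hDV _ hxuD) huQ

end Bourbaki

end Fermat.Agent.QVal
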