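import Mathlib
set_option autoImplicit false
set_option linter.unusedSectionVars false
set_option linter.style.haveILetI false
set_option linter.unusedVariables false

/-!
# Norms, traces and characteristic polynomials via a full family of embeddings
-/

noncomputable section
open Polynomial

namespace Fermat.Agent.QVal

/-- A full family of embeddings `σ a : F' → Ω` over `i : F → Ω`. -/
structure FullEmb {F F' Ω ι : Type*} [Field F] [Field F'] [Field Ω] [Fintype ι]
    (α : F →+* F') (i : F →+* Ω) (σ : ι → (F' →+* Ω)) : Prop where
  comm : ∀ a x, σ a (α x) = i x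
  inj : Function.Injective σ
  pos : 0 < Fintype.card ι
  card : @Module.finrank F F' _ _ α.toAlgebra.toModule = Fintype.card ι

variable {F F' Ω ι : Type*} [Field F] [Field F'] [Field Ω] [Fintype ι] [CharZero F]
  {α : F →+* F'} {i : F →+* Ω} {σ : ι → (F' →+* Ω)}

/-- the norm along a ring homomorphism -/
def normR (α : F →+* F') : F' →* F :=
  letI := α.toAlgebra
  Algebra.norm F

/-- the trace along a ring homomorphism -/
def traceR (α : F →+* F') : F' → F :=
  letI := α.toAlgebra
  fun x => Algebra.trace F F' x

/-- the characteristic polynomial along a ring homomorphism -/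
def charR (α : F →+* F') [h : Fact (0 < @Module.finrank F F' _ _ α.toAlgebra.toModule)] (x : F') : F[X] :=
  letI := α.toAlgebra
  haveI : FiniteDimensional F F' := FiniteDimensional.of_finrank_pos h.out
  LinearMap.charpoly (Algebra.lmul F F' x)

namespace FullEmb

variable (h : FullEmb α i σ)
include h

/-- the embeddings into the algebraic closure of `Ω` -/
theorem aux : letI := α.toAlgebra; FiniteDimensional F F' :=
  letI := α.toAlgebra
  FiniteDimensional.of_finrank_pos (by rw [h.card]; exact h.pos)

theorem exists_equiv : letI := α.toAlgebra; letI : Algebra F (AlgebraicClosure Ω) :=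
      ((algebraMap Ω (AlgebraicClosure Ω)).comp i).toAlgebra
    ∃ e : ι ≃ (F' →ₐ[F] AlgebraicClosure Ω), ∀ a x, e a x = algebraMap Ω (AlgebraicClosure Ω) (σ a x) := by
  letI := α.toAlgebra
  letI : Algebra F (AlgebraicClosure Ω) := ((algebraMap Ω (AlgebraicClosure Ω)).comp i).toAlgebra
  haveI := h.aux
  let τ : ι → (F' →ₐ[F] AlgebraicClosure Ω) := fun a =>
    { (algebraMap Ω (AlgebraicClosure Ω)).comp (σ a) with
      commutes' := fun y => by
        change algebraMap Ω (AlgebraicClosure Ω) (σ a (α y)) = algebraMap Ω (AlgebraicClosure Ω) (i y)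
        rw [h.comm] }
  have hτ : Function.Injective τ := by
    intro a b hab
    apply h.inj
    ext y
    have := DFunLike.congr_fun hab y
    exact (algebraMap Ω (AlgebraicClosure Ω)).injective this
  have hbij : Function.Bijective τ := by
    rw [Fintype.bijective_iff_injective_and_card]
    exact ⟨hτ, by rw [AlgHom.card]; exact h.card.symm⟩
  exact ⟨Equiv.ofBijective τ hbij, fun a x => rfl⟩

theorem norm (x : F') : i (normR α x) = ∏ a, σ a x := by
  letI := α.toAlgebra
  letI : Algebra F (AlgebraicClosure Ω) := ((algebraMap Ω (AlgebraicClosure Ω)).comp i).toAlgebra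
  haveI := h.aux
  obtain ⟨e, he⟩ := h.exists_equiv
  apply (algebraMap Ω (AlgebraicClosure Ω)).injective
  rw [map_prod]
  have h1 := Algebra.norm_eq_prod_embeddings F (AlgebraicClosure Ω) x
  rw [← e.prod_comp] at h1
  simp only [he] at h1
  exact h1

theorem trace (x : F') : i (traceR α x) = ∑ a, σ a x := by
  letI := α.toAlgebra
  letI : Algebra F (AlgebraicClosure Ω) := ((algebraMap Ω (AlgebraicClosure Ω)).comp i).toAlgebra
  haveI := h.aux
  obtain ⟨e, he⟩ := h.exists_equiv
  apply (algebraMap Ω (AlgebraicClosure Ω)).injective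
  rw [map_sum]
  have h1 := trace_eq_sum_embeddings (K := F) (E := AlgebraicClosure Ω) (x := x)
  rw [← e.sum_comp] at h1
  simp only [he] at h1
  exact h1

theorem exists_charpoly (x : F') : ∃ χ : F[X], χ.Monic ∧ χ.eval₂ α x = 0 ∧
    χ.map i = ∏ a, (X - C (σ a x)) := by
  letI := α.toAlgebra
  haveI := h.aux
  refine ⟨LinearMap.charpoly (Algebra.lmul F F' x), LinearMap.charpoly_monic _, ?_, ?_⟩
  · have h1 := LinearMap.aeval_self_charpoly (Algebra.lmul F F' x)
    rw [Polynomial.aeval_algHom_apply] at h1
    exact Algebra.lmul_injective (R := F) (h1.trans (map_zero _).symm)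
  · apply Polynomial.eq_of_infinite_eval_eq
    have h2 : Set.range (fun n : ℕ => i (n : F)) ⊆
        {t | ((LinearMap.charpoly (Algebra.lmul F F' x)).map i).eval t = (∏ a, (X - C (σ a x))).eval t} := by
      rintro _ ⟨n, rfl⟩
      simp only [Set.mem_setOf_eq]
      rw [Polynomial.eval_map, Polynomial.eval₂_at_apply, LinearMap.eval_charpoly]
      have h3 : (algebraMap F (Module.End F F')) (n : F) - (Algebra.lmul F F') x =
          Algebra.lmul F F' (algebraMap F F' (n : F) - x) := by
        rw [map_sub, AlgHom.commutes]
      rw [h3]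
      have h4 := h.norm (algebraMap F F' (n : F) - x)
      refine h4.trans ?_
      rw [Polynomial.eval_prod]
      refine Finset.prod_congr rfl fun a _ => ?_
      rw [map_sub, eval_sub, eval_X, eval_C]
      congr 1
      exact h.comm a _
    refine Set.Infinite.mono h2 (Set.infinite_range_of_injective ?_)
    intro m n hmn
    exact Nat.cast_injective (i.injective hmn)

end FullEmb

end Fermat.Agent.QVal
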