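import Fermat.Agent.Red.XZero
import Fermat.Agent.ESh.NormRed
import Fermat.Agent.CFT.Loc.UnrGlob

/-!
# Tools for Gauss reductions
-/

set_option autoImplicit false
set_option linter.unusedSectionVars false
set_option linter.style.haveILetI false
set_option linter.unusedVariables false

noncomputable section

open AlgebraicCurve IntermediateField ModularCurve Fermat.Agent.Red

namespace Fermat.Agent.QVal

section Good

variable {L k : Type*} [Field L] [Field k] {A : ValuationSubring L} {π : A →+* k}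

variable (A) in
/-- bounded series with coefficients in a number field -/
def Good [Algebra ℚ L] (P : LaurentSeries L) : Prop :=
  ∃ K₀ : IntermediateField ℚ L, FiniteDimensional ℚ K₀ ∧ (∀ n, P.coeff n ∈ K₀) ∧
    ∃ c : L, c ∈ K₀ ∧ c ∈ A ∧ c ≠ 0 ∧ ∀ n, c * P.coeff n ∈ A

theorem coeff_algebraMap_mul (c : L) (P : LaurentSeries L) (n : ℤ) :
    (algebraMap L (LaurentSeries L) c * P).coeff n = c * P.coeff n := by
  rw [algebraMap_eq_C, HahnSeries.C_mul_eq_smul, HahnSeries.coeff_smul, smul_eq_mul]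

theorem exists_iota_of_mul {c : L} {P : LaurentSeries L} (h : ∀ n, c * P.coeff n ∈ A) :
    ∃ a : LaurentSeries A, iotaA A a = algebraMap L (LaurentSeries L) c * P :=
  exists_iotaA _ fun n => by rw [coeff_algebraMap_mul]; exact h n

theorem coeff_iotaA_mem (a : LaurentSeries A) (n : ℤ) : (iotaA A a).coeff n ∈ A := by
  rw [coeffMap_coeff]; exact (a.coeff n).2

section

variable [Algebra ℚ L]

theorem Good.mul {P Q : LaurentSeries L} (hP : Good A P) (hQ : Good A Q) : Good A (P * Q) := by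
  obtain ⟨K, hK, hPK, c, hcK, hcA, hc0, hc⟩ := hP
  obtain ⟨K', hK', hQK, c', hcK', hcA', hc0', hc'⟩ := hQ
  refine ⟨K ⊔ K', inferInstance, ?_, c * c', mul_mem ((le_sup_left : K ≤ K ⊔ K') hcK)
    ((le_sup_right : K' ≤ K ⊔ K') hcK'), mul_mem hcA hcA', mul_ne_zero hc0 hc0', ?_⟩
  · intro n
    rw [HahnSeries.coeff_mul]
    exact sum_mem fun ij _ => mul_mem ((le_sup_left : K ≤ K ⊔ K') (hPK _))
      ((le_sup_right : K' ≤ K ⊔ K') (hQK _))
  · intro n
    obtain ⟨a, ha⟩ := exists_iota_of_mul hc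
    obtain ⟨a', ha'⟩ := exists_iota_of_mul hc'
    have h : (iotaA A (a * a')) = algebraMap L (LaurentSeries L) (c * c') * (P * Q) := by
      rw [map_mul, ha, ha', map_mul]; ring
    rw [← coeff_algebraMap_mul, ← h]
    exact coeff_iotaA_mem _ _

theorem Good.add {P Q : LaurentSeries L} (hP : Good A P) (hQ : Good A Q) : Good A (P + Q) := by
  obtain ⟨K, hK, hPK, c, hcK, hcA, hc0, hc⟩ := hP
  obtain ⟨K', hK', hQK, c', hcK', hcA', hc0', hc'⟩ := hQ
  refine ⟨K ⊔ K', inferInstance, ?_, c * c', mul_mem ((le_sup_left : K ≤ K ⊔ K') hcK)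
    ((le_sup_right : K' ≤ K ⊔ K') hcK'), mul_mem hcA hcA', mul_ne_zero hc0 hc0', ?_⟩
  · intro n
    rw [HahnSeries.coeff_add]
    exact add_mem ((le_sup_left : K ≤ K ⊔ K') (hPK _)) ((le_sup_right : K' ≤ K ⊔ K') (hQK _))
  · intro n
    rw [HahnSeries.coeff_add]
    have : c * c' * (P.coeff n + Q.coeff n) = c' * (c * P.coeff n) + c * (c' * Q.coeff n) := by ring
    rw [this]
    exact add_mem (mul_mem hcA' (hc n)) (mul_mem hcA (hc' n))

theorem Good.const [Algebra.IsAlgebraic ℚ L] (r : L) : Good A (algebraMap L (LaurentSeries L) r) := by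
  have hfin : FiniteDimensional ℚ ℚ⟮r⟯ :=
    IntermediateField.adjoin.finiteDimensional (Algebra.IsAlgebraic.isAlgebraic r).isIntegral
  have hr : r ∈ ℚ⟮r⟯ := IntermediateField.mem_adjoin_simple_self ℚ r
  have hco : ∀ n, (algebraMap L (LaurentSeries L) r).coeff n = if n = 0 then r else 0 := by
    intro n
    rw [algebraMap_laurentSeries_eq_single, HahnSeries.coeff_single]
    split_ifs <;> rfl
  by_cases hrA : r ∈ A
  · refine ⟨ℚ⟮r⟯, hfin, ?_, 1, one_mem _, one_mem _, one_ne_zero, ?_⟩
    · intro n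
      rw [hco]
      split_ifs
      · exact hr
      · exact zero_mem _
    · intro n
      rw [hco, one_mul]
      split_ifs
      · exact hrA
      · exact zero_mem _
  · have hr0 : r ≠ 0 := by rintro rfl; exact hrA (zero_mem _)
    have hinv : r⁻¹ ∈ A := (A.mem_or_inv_mem r).resolve_left hrA
    refine ⟨ℚ⟮r⟯, hfin, ?_, r⁻¹, inv_mem hr, hinv, inv_ne_zero hr0, ?_⟩
    · intro n
      rw [hco]
      split_ifs
      · exact hr
      · exact zero_mem _
    · intro n
      rw [hco]
      split_ifs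
      · rw [inv_mul_cancel₀ hr0]; exact one_mem _
      · rw [mul_zero]; exact zero_mem _

theorem Good.of_int (y : LaurentSeries ℤ) : Good A (coeffMap (Int.castRingHom L) y) := by
  have hfin : FiniteDimensional ℚ (⊥ : IntermediateField ℚ L) := inferInstance
  refine ⟨⊥, hfin, ?_, 1, one_mem _, one_mem _, one_ne_zero, ?_⟩
  · intro n
    rw [coeffMap_coeff]
    exact intCast_mem _ _
  · intro n
    rw [coeffMap_coeff, one_mul]
    exact intCast_mem _ _

/-- **contents** -/
theorem Good.exists_scale (π : A →+* k) {ℓ : ℕ} (hℓ : ℓ.Prime) (hA : A.LiesOverPrime ℓ) {P : LaurentSeries L}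
    (hP : Good A P) (hP0 : P ≠ 0) : ∃ (n₀ : ℤ) (a : LaurentSeries A), P.coeff n₀ ≠ 0 ∧
      rhoA π a ≠ 0 ∧ P = algebraMap L (LaurentSeries L) (P.coeff n₀) * iotaA A a := by
  obtain ⟨K, hK, hPK, c, hcK, hcA, hc0, hc⟩ := hP
  obtain ⟨t, ⟨n₀, ht⟩, ht0, hdiv⟩ := exists_content A hℓ hA K (Set.range fun n : ℤ => c * P.coeff n)
    (by rintro _ ⟨n, rfl⟩; exact hc n) (by rintro _ ⟨n, rfl⟩; exact mul_mem hcK (hPK n)) (by
      obtain ⟨n, hn⟩ : ∃ n, P.coeff n ≠ 0 := by
        by_contra h
        push Not at h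
        exact hP0 (HahnSeries.ext (funext h))
      exact ⟨_, ⟨n, rfl⟩, mul_ne_zero hc0 hn⟩)
  simp only at ht
  subst ht
  have hn0 : P.coeff n₀ ≠ 0 := right_ne_zero_of_mul ht0
  obtain ⟨a, ha⟩ := exists_iota_of_mul (A := A) (c := (P.coeff n₀)⁻¹) (P := P) (by
    intro n
    have h := hdiv _ ⟨n, rfl⟩
    simp only at h
    rw [mul_div_mul_left _ _ hc0, div_eq_inv_mul] at h
    exact h)
  refine ⟨n₀, a, hn0, ?_, ?_⟩
  · intro h
    have h1 : (iotaA A a).coeff n₀ = 1 := by
      rw [ha, coeff_algebraMap_mul, inv_mul_cancel₀ hn0]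
    have h2 : a.coeff n₀ = 1 := Subtype.ext h1
    have h3 := congrArg (fun x => HahnSeries.coeff x n₀) h
    simp only [coeffMap_coeff, h2, map_one, HahnSeries.coeff_zero] at h3
    exact one_ne_zero h3
  · rw [ha, ← mul_assoc, ← map_mul, mul_inv_cancel₀ hn0, map_one, one_mul]

/-- fields generated by good series -/
theorem gaussField_of_good [Algebra.IsAlgebraic ℚ L] {ℓ : ℕ} (hℓ : ℓ.Prime)
    (hA : A.LiesOverPrime ℓ) (G : Set (LaurentSeries L)) (hG : ∀ g ∈ G, Good A g) :
    GaussField π (IntermediateField.adjoin L G) where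
  exists_frac := by
    have hgood : ∀ P ∈ Algebra.adjoin L G, Good A P := by
      intro P hP
      induction hP using Algebra.adjoin_induction with
      | mem x hx => exact hG x hx
      | algebraMap r => exact Good.const r
      | add u v _ _ hu hv => exact hu.add hv
      | mul u v _ _ hu hv => exact hu.mul hv
    have key : ∀ P ∈ Algebra.adjoin L G, P ≠ 0 → ∃ (d : L) (a : LaurentSeries A), d ≠ 0 ∧
        rhoA π a ≠ 0 ∧ P = algebraMap L (LaurentSeries L) d * iotaA A a := by
      intro P hP hP0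
      obtain ⟨n₀, a, h1, h2, h3⟩ := (hgood P hP).exists_scale π hℓ hA hP0
      exact ⟨_, a, h1, h2, h3⟩
    intro f hf hf0
    rw [IntermediateField.mem_adjoin_iff_div] at hf
    obtain ⟨r, hr, s, hs, rfl⟩ := hf
    have hr0 : r ≠ 0 := by rintro rfl; simp at hf0
    have hs0 : s ≠ 0 := by rintro rfl; simp at hf0
    obtain ⟨d, a, hd, ha, hra⟩ := key r hr hr0
    obtain ⟨e, b, he, hb, hsb⟩ := key s hs hs0
    have hd' : algebraMap L (LaurentSeries L) d ≠ 0 := by simpa using hd
    have he' : algebraMap L (LaurentSeries L) e ≠ 0 := by simpa using he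
    have haE : iotaA A a = algebraMap L (LaurentSeries L) d⁻¹ * r := by
      rw [hra, ← mul_assoc, ← map_mul, inv_mul_cancel₀ hd, map_one, one_mul]
    have hbE : iotaA A b = algebraMap L (LaurentSeries L) e⁻¹ * s := by
      rw [hsb, ← mul_assoc, ← map_mul, inv_mul_cancel₀ he, map_one, one_mul]
    refine ⟨d / e, a, b, div_ne_zero hd he, ha, hb, ?_, ?_, ?_⟩
    · rw [haE]
      exact mul_mem (IntermediateField.algebraMap_mem _ _)
        (IntermediateField.algebra_adjoin_le_adjoin _ _ hr)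
    · rw [hbE]
      exact mul_mem (IntermediateField.algebraMap_mem _ _)
        (IntermediateField.algebra_adjoin_le_adjoin _ _ hs)
    · have hb0 : iotaA A b ≠ 0 := by
        intro h
        rw [hsb, h, mul_zero] at hs0
        exact hs0 rfl
      rw [hra, hsb, map_div₀]
      field_simp

end

end Good

section GRedTools

variable {L k : Type*} [Field L] [Field k] {A : ValuationSubring L} {π : A →+* k}

theorem gRed_qExpand {f : LaurentSeries L} {z : LaurentSeries k} (h : GRed π f z) (m : ℕ) [NeZero m] :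
    GRed π (qExpand L m f) (qExpand k m z) := by
  obtain ⟨a, b, hb, h1, h2⟩ := h
  refine ⟨qExpand A m a, qExpand A m b, ?_, ?_, ?_⟩
  · rw [coeffMap_qExpand]
    exact fun h => hb (qExpand_injective (R := k) m (h.trans (map_zero _).symm))
  · rw [coeffMap_qExpand, coeffMap_qExpand, ← map_mul, h1]
  · rw [coeffMap_qExpand, coeffMap_qExpand, ← map_mul, h2]

theorem gRed_twist {f : LaurentSeries L} {z : LaurentSeries k} (h : GRed π f z) (ζ : Aˣ) :
    GRed π (ModFn.twist (Units.map A.subtype.toMonoidHom ζ) f) (ModFn.twist (Units.map π.toMonoidHom ζ) z) := by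
  obtain ⟨a, b, hb, h1, h2⟩ := h
  refine ⟨ModFn.twist ζ a, ModFn.twist ζ b, ?_, ?_, ?_⟩
  · rw [ModFn.coeffMap_twist]
    exact fun h => hb (ModFn.twist_injective _ (h.trans (map_zero _).symm))
  · rw [iotaA, ModFn.coeffMap_twist, ModFn.coeffMap_twist]
    exact (map_mul _ _ _).symm.trans (congrArg _ h1)
  · rw [ModFn.coeffMap_twist, ModFn.coeffMap_twist, ← map_mul, h2]

theorem gRed_sum {ι : Type*} (s : Finset ι) {y : ι → LaurentSeries L} {z : ι → LaurentSeries k}
    (h : ∀ i ∈ s, GRed π (y i) (z i)) : GRed π (∑ i ∈ s, y i) (∑ i ∈ s, z i) := by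
  classical
  induction s using Finset.induction_on with
  | empty => simpa using gRed_zero π
  | insert i s his ih =>
    rw [Finset.sum_insert his, Finset.sum_insert his]
    exact (h i (Finset.mem_insert_self i s)).add
      (ih fun j hj => h j (Finset.mem_insert_of_mem hj))

theorem gRed_prod {ι : Type*} (s : Finset ι) {y : ι → LaurentSeries L} {z : ι → LaurentSeries k}
    (h : ∀ i ∈ s, GRed π (y i) (z i)) : GRed π (∏ i ∈ s, y i) (∏ i ∈ s, z i) := by
  classical
  induction s using Finset.induction_on with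
  | empty => simpa using gRed_one π
  | insert i s his ih =>
    rw [Finset.prod_insert his, Finset.prod_insert his]
    exact (h i (Finset.mem_insert_self i s)).mul
      (ih fun j hj => h j (Finset.mem_insert_of_mem hj))

theorem gRed_sub {f f' : LaurentSeries L} {z z' : LaurentSeries k} (h : GRed π f z)
    (h' : GRed π f' z') : GRed π (f - f') (z - z') := by
  rw [sub_eq_add_neg, sub_eq_add_neg]; exact h.add h'.neg

theorem gRed_pow {f : LaurentSeries L} {z : LaurentSeries k} (h : GRed π f z) (n : ℕ) :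
    GRed π (f ^ n) (z ^ n) := by
  induction n with
  | zero => rw [pow_zero, pow_zero]; exact gRed_one π
  | succ n ih => rw [pow_succ, pow_succ]; exact ih.mul h

theorem gRed_div {f f' : LaurentSeries L} {z z' : LaurentSeries k} (h : GRed π f z)
    (h' : GRed π f' z') (hz : z' ≠ 0) : GRed π (f / f') (z / z') := by
  rw [div_eq_mul_inv, div_eq_mul_inv]; exact h.mul (h'.inv hz)

theorem gRed_smul {f : LaurentSeries L} {z : LaurentSeries k} (h : GRed π f z) (a : A) :
    GRed π (algebraMap L (LaurentSeries L) a * f) (algebraMap k (LaurentSeries k) (π a) * z) :=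
  (gRed_algebraMap π a).mul h

/-- if a multiple `c f` has a nonzero reduction and `f` is integral then `c⁻¹` is integral -/
theorem inv_mem_of_gRed (hπ : ∀ a : A, π a = 0 ↔ ¬ IsUnit a) {f : LaurentSeries L}
    {z w : LaurentSeries k} {c : L} (h : GRed π f z)
    (hc : GRed π (algebraMap L (LaurentSeries L) c * f) w) (hw : w ≠ 0) : c⁻¹ ∈ A := by
  rcases A.mem_or_inv_mem c with hcA | hcA
  · have h1 := (gRed_smul h ⟨c, hcA⟩).unique hc
    have h2 : π ⟨c, hcA⟩ ≠ 0 := by
      intro h0
      rw [h0, map_zero, zero_mul] at h1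
      exact hw h1.symm
    have h3 : IsUnit (⟨c, hcA⟩ : A) := by
      by_contra h4
      exact h2 ((hπ _).2 h4)
    obtain ⟨b, hb⟩ := h3.exists_right_inv
    have hb' : c * (b : L) = 1 := congrArg Subtype.val hb
    rw [inv_eq_of_mul_eq_one_right hb']
    exact b.2
  · exact hcA

/-- descent of reductions along an injective homomorphism compatible with reductions -/
theorem gRed_of_comp {E : IntermediateField L (LaurentSeries L)} (hE : GaussField π E)
    (hπ : ∀ a : A, π a = 0 ↔ ¬ IsUnit a) (Φ : LaurentSeries L →+* LaurentSeries L)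
    (φ : LaurentSeries k →+* LaurentSeries k)
    (hΦ : ∀ c : L, Φ (algebraMap L (LaurentSeries L) c) = algebraMap L (LaurentSeries L) c)
    (hcomp : ∀ f z, GRed π f z → GRed π (Φ f) (φ z)) {f : LaurentSeries L} (hf : f ∈ E)
    {z : LaurentSeries k} (h : GRed π (Φ f) z) : ∃ z', GRed π f z' ∧ φ z' = z := by
  by_cases hf0 : f = 0
  · subst hf0
    rw [map_zero] at h
    exact ⟨0, gRed_zero π, by rw [map_zero]; exact (gRed_zero π).unique h⟩
  · obtain ⟨c, z', hc, hz', hcf⟩ := hE.exists_scale hf hf0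
    have h1 := hcomp _ _ hcf
    rw [map_mul, hΦ] at h1
    have hφ : φ z' ≠ 0 := by
      rw [Ne, map_eq_zero]; exact hz'
    have hcA := inv_mem_of_gRed hπ h h1 hφ
    have h2 := gRed_smul hcf ⟨c⁻¹, hcA⟩
    have h3 : algebraMap L (LaurentSeries L) c⁻¹ * (algebraMap L (LaurentSeries L) c * f) = f := by
      rw [← mul_assoc, ← map_mul, inv_mul_cancel₀ hc, map_one, one_mul]
    rw [h3] at h2
    exact ⟨_, h2, (hcomp _ _ h2).unique h⟩

theorem qExpand_algebraMap (m : ℕ) [NeZero m] (c : L) :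
    qExpand L m (algebraMap L (LaurentSeries L) c) = algebraMap L (LaurentSeries L) c := by
  rw [algebraMap_laurentSeries_eq_single, qExpand_single, mul_zero]

theorem gRed_of_qExpand {E : IntermediateField L (LaurentSeries L)} (hE : GaussField π E)
    (hπ : ∀ a : A, π a = 0 ↔ ¬ IsUnit a) (m : ℕ) [NeZero m] {f : LaurentSeries L} (hf : f ∈ E)
    {z : LaurentSeries k} (h : GRed π (qExpand L m f) z) : ∃ z', GRed π f z' ∧ qExpand k m z' = z :=
  gRed_of_comp hE hπ (qExpand L m) (qExpand k m) (qExpand_algebraMap m)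
    (fun f z h => gRed_qExpand h m) hf h

end GRedTools

section Rank

open CFT.Loc
open scoped Pointwise

variable {q : ℕ} [hq : Fact q.Prime] {A : ValuationSubring (AlgebraicClosure ℚ)}

/-- places over `q` have rank one -/
theorem exists_pow_mul_mem (hA : A.LiesOverPrime q) {d : AlgebraicClosure ℚ} (hd : d ∈ A.nonunits)
    (c : AlgebraicClosure ℚ) : ∃ N : ℕ, ∀ n ≥ N, d ^ n * c ∈ A.nonunits := by
  obtain ⟨g, rfl⟩ := exists_eq_smul_padicPlace q hA
  have hnu : ∀ y : AlgebraicClosure ℚ, y ∈ (g • padicPlace q).nonunits ↔ ‖jg q g y‖ < 1 := by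
    intro y
    rw [Frob.mem_nonunits_iff_inv, mem_smul_padicPlace_iff, map_inv₀, norm_inv]
    by_cases hy : y = 0
    · simp [hy]
    · have hpos : 0 < ‖jg q g y‖ := norm_pos_iff.2 ((_root_.map_ne_zero _).2 hy)
      rw [inv_le_one₀ hpos, not_le]
      simp [hy]
  have hd1 := (hnu d).1 hd
  obtain ⟨N, hN⟩ : ∃ N : ℕ, ∀ n ≥ N, ‖jg q g d‖ ^ n * ‖jg q g c‖ < 1 := by
    have h1 : Filter.Tendsto (fun n : ℕ => ‖jg q g d‖ ^ n * ‖jg q g c‖) Filter.atTop (nhds (0 * ‖jg q g c‖)) :=
      (tendsto_pow_atTop_nhds_zero_of_lt_one (norm_nonneg _) hd1).mul_const _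
    rw [zero_mul] at h1
    exact Filter.eventually_atTop.1 (h1.eventually (gt_mem_nhds one_pos))
  refine ⟨N, fun n hn => ?_⟩
  rw [hnu, map_mul, map_pow, norm_mul, norm_pow]
  exact hN n hn

end Rank

end Fermat.Agent.QVal
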