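import Fermat.Agent.QVal.LevelOneB

/-!
# Embeddings whose values are quotients of bounded series
-/

set_option autoImplicit false
set_option linter.unusedSectionVars false
set_option linter.style.haveILetI false
set_option linter.unusedVariables false

noncomputable section
open AlgebraicCurve ModularCurve IntermediateField Fermat.Agent.JZ Polynomial Fermat.Agent.Red

namespace Fermat.Agent.QVal

open ModFn

section General

variable {L k : Type*} [Field L] [Field k] {A : ValuationSubring L} {π : A →+* k} [Algebra ℚ L]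
  [Algebra.IsAlgebraic ℚ L]

theorem Good.neg {P : LaurentSeries L} (h : Good A P) : Good A (-P) := by
  obtain ⟨K, hK, h1, c, h2, h3, h4, h5⟩ := h
  refine ⟨K, hK, fun n => ?_, c, h2, h3, h4, fun n => ?_⟩
  · rw [HahnSeries.coeff_neg]; exact neg_mem (h1 n)
  · rw [HahnSeries.coeff_neg, mul_neg]; exact neg_mem (h5 n)

theorem Good.zero : Good A (0 : LaurentSeries L) := by
  have := Good.const (A := A) (0 : L)
  rwa [map_zero] at this

theorem Good.one : Good A (1 : LaurentSeries L) := by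
  have := Good.const (A := A) (1 : L)
  rwa [map_one] at this

theorem Good.of_iota {P : LaurentSeries L} (K : IntermediateField ℚ L) (hK : FiniteDimensional ℚ K)
    (h1 : ∀ n, P.coeff n ∈ K) (h2 : ∀ n, P.coeff n ∈ A) : Good A P :=
  ⟨K, hK, h1, 1, one_mem _, one_mem _, one_ne_zero, fun n => by rw [one_mul]; exact h2 n⟩

/-- twists by units of `A` of good series -/
theorem Good.twist {P : LaurentSeries L} (h : Good A P) {ζ : Lˣ} (hζ : (ζ : L) ∈ A)
    (hζ' : (ζ : L)⁻¹ ∈ A) : Good A (ModFn.twist ζ P) := by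
  obtain ⟨K, hK, h1, c, h2, h3, h4, h5⟩ := h
  have hfin : FiniteDimensional ℚ ℚ⟮(ζ : L)⟯ :=
    IntermediateField.adjoin.finiteDimensional (Algebra.IsAlgebraic.isAlgebraic (ζ : L)).isIntegral
  have hz : (ζ : L) ∈ ℚ⟮(ζ : L)⟯ := IntermediateField.mem_adjoin_simple_self ℚ _
  have hzn : ∀ n : ℤ, ((ζ ^ n : Lˣ) : L) ∈ ℚ⟮(ζ : L)⟯ := by
    intro n; rw [Units.val_zpow_eq_zpow_val]; exact zpow_mem hz n
  have hzA : ∀ n : ℤ, ((ζ ^ n : Lˣ) : L) ∈ A := by
    intro n
    rw [Units.val_zpow_eq_zpow_val]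
    rcases n with n | n
    · rw [Int.ofNat_eq_natCast, zpow_natCast]; exact pow_mem hζ n
    · rw [zpow_negSucc, ← inv_pow]; exact pow_mem hζ' _
  refine ⟨K ⊔ ℚ⟮(ζ : L)⟯, inferInstance, fun n => ?_, c,
    (le_sup_left : K ≤ K ⊔ ℚ⟮(ζ : L)⟯) h2, h3, h4, fun n => ?_⟩
  · rw [twist_coeff]
    exact mul_mem ((le_sup_right : _ ≤ K ⊔ ℚ⟮(ζ : L)⟯) (hzn n)) ((le_sup_left : K ≤ K ⊔ ℚ⟮(ζ : L)⟯) (h1 n))
  · rw [twist_coeff, mul_left_comm]
    exact mul_mem (hzA n) (h5 n)

variable {F : Type*} [Field F]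

variable (A) in
/-- the elements whose images are quotients of good series -/
def goodSub (ε : F →+* LaurentSeries L) : Subfield F where
  carrier := {f | ∃ r s : F, s ≠ 0 ∧ f = r / s ∧ Good A (ε r) ∧ Good A (ε s)}
  mul_mem' := by
    rintro _ _ ⟨r, s, hs, rfl, h1, h2⟩ ⟨r', s', hs', rfl, h1', h2'⟩
    exact ⟨r * r', s * s', mul_ne_zero hs hs', by rw [div_mul_div_comm], by rw [map_mul]; exact h1.mul h1',
      by rw [map_mul]; exact h2.mul h2'⟩
  one_mem' := ⟨1, 1, one_ne_zero, by rw [div_one], by rw [map_one]; exact Good.one,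
    by rw [map_one]; exact Good.one⟩
  add_mem' := by
    rintro _ _ ⟨r, s, hs, rfl, h1, h2⟩ ⟨r', s', hs', rfl, h1', h2'⟩
    refine ⟨r * s' + s * r', s * s', mul_ne_zero hs hs', by rw [div_add_div _ _ hs hs'], ?_, ?_⟩
    · rw [map_add, map_mul, map_mul]; exact (h1.mul h2').add (h2.mul h1')
    · rw [map_mul]; exact h2.mul h2'
  zero_mem' := ⟨0, 1, one_ne_zero, by rw [div_one], by rw [map_zero]; exact Good.zero,
    by rw [map_one]; exact Good.one⟩
  neg_mem' := by
    rintro _ ⟨r, s, hs, rfl, h1, h2⟩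
    exact ⟨-r, s, hs, by rw [neg_div], by rw [map_neg]; exact h1.neg, h2⟩
  inv_mem' := by
    rintro _ ⟨r, s, hs, rfl, h1, h2⟩
    by_cases hr : r = 0
    · subst hr
      refine ⟨0, 1, one_ne_zero, by simp, by rw [map_zero]; exact Good.zero, by rw [map_one]; exact Good.one⟩
    · exact ⟨s, r, hr, by rw [inv_div], h2, h1⟩

theorem mem_goodSub {ε : F →+* LaurentSeries L} {f : F} :
    f ∈ goodSub A ε ↔ ∃ r s : F, s ≠ 0 ∧ f = r / s ∧ Good A (ε r) ∧ Good A (ε s) := Iff.rfl

theorem mem_goodSub_of {ε : F →+* LaurentSeries L} {f : F} (h : Good A (ε f)) : f ∈ goodSub A ε :=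
  ⟨f, 1, one_ne_zero, by rw [div_one], h, by rw [map_one]; exact Good.one⟩

variable [Algebra L F]

/-- if every element is a quotient of good ones, the range is a Gauss field -/
theorem gaussField_of_goodSub {ℓ : ℕ} (hℓ : ℓ.Prime) (hA : A.LiesOverPrime ℓ) (ε : F →ₐ[L] LaurentSeries L)
    (h : goodSub A (ε : F →+* LaurentSeries L) = ⊤) : GaussField π ε.fieldRange where
  exists_frac := by
    rintro _ ⟨f, rfl⟩ hf0
    have hf : f ∈ goodSub A (ε : F →+* LaurentSeries L) := by rw [h]; trivial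
    obtain ⟨r, s, hs0, rfl, hr, hs⟩ := hf
    have hε : ∀ x : F, (ε : F →+* LaurentSeries L) x = ε x := fun x => rfl
    rw [hε] at hr hs
    have hf0' : r ≠ 0 := by
      rintro rfl
      apply hf0
      change ε (0 / s) = 0
      rw [zero_div, map_zero]
    have hr0 : ε r ≠ 0 := by rw [Ne, map_eq_zero]; exact hf0'
    have hs0' : ε s ≠ 0 := by rw [Ne, map_eq_zero]; exact hs0
    obtain ⟨n, a, hd, ha, hra⟩ := hr.exists_scale π hℓ hA hr0
    obtain ⟨m, b, he, hb, hsb⟩ := hs.exists_scale π hℓ hA hs0'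
    generalize (ε r).coeff n = d at *
    generalize (ε s).coeff m = e at *
    have hd' : algebraMap L (LaurentSeries L) d ≠ 0 := by simpa using hd
    have he' : algebraMap L (LaurentSeries L) e ≠ 0 := by simpa using he
    have haE : iotaA A a = ε (algebraMap L F d⁻¹ * r) := by
      rw [map_mul, AlgHom.commutes, hra, ← mul_assoc, ← map_mul, inv_mul_cancel₀ hd, map_one, one_mul]
    have hbE : iotaA A b = ε (algebraMap L F e⁻¹ * s) := by
      rw [map_mul, AlgHom.commutes, hsb, ← mul_assoc, ← map_mul, inv_mul_cancel₀ he, map_one, one_mul]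
    refine ⟨d / e, a, b, div_ne_zero hd he, ha, hb, ?_, ?_, ?_⟩
    · rw [haE]; exact ⟨_, rfl⟩
    · rw [hbE]; exact ⟨_, rfl⟩
    · have hb0 : iotaA A b ≠ 0 := by
        intro h
        rw [hsb, h, mul_zero] at hs0'
        exact hs0' rfl
      change ε (r / s) * _ = _
      rw [map_div₀, hra, hsb, map_div₀]
      field_simp

/-- the constant reduction attached to an embedding -/
def embRed (ε : F →ₐ[L] LaurentSeries L) (hE : GaussField π ε.fieldRange)
    (hπ : ∀ a : A, π a = 0 ↔ ¬ IsUnit a) (hs : Function.Surjective π) :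
    ConstRed A π F (gaussRes π ε.fieldRange hs) :=
  comapRed (gaussConstRedFull hE hπ hs) (AlgEquiv.ofInjectiveField ε)

theorem isRed_embRed {ε : F →ₐ[L] LaurentSeries L} {hE : GaussField π ε.fieldRange}
    {hπ : ∀ a : A, π a = 0 ↔ ¬ IsUnit a} {hs : Function.Surjective π} {f : F}
    {z : gaussRes π ε.fieldRange hs} : (embRed ε hE hπ hs).IsRed f z ↔ GRed π (ε f) z :=
  isRed_full

theorem mem_embRed {ε : F →ₐ[L] LaurentSeries L} {hE : GaussField π ε.fieldRange}
    {hπ : ∀ a : A, π a = 0 ↔ ¬ IsUnit a} {hs : Function.Surjective π} {f : F} :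
    f ∈ (embRed ε hE hπ hs).O ↔ ∃ z, GRed π (ε f) z := by
  constructor
  · intro h
    obtain ⟨z, hz⟩ := (embRed ε hE hπ hs).exists_isRed_of_mem h
    exact ⟨_, isRed_embRed.1 hz⟩
  · rintro ⟨z, hz⟩
    exact (isRed_embRed (z := ⟨z, ε f, ⟨f, rfl⟩, hz⟩).2 hz).mem

end General

end Fermat.Agent.QVal
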