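import Fermat.Agent.QVal.Gal

/-!
# Inertia and the middle reductions
-/

set_option autoImplicit false
set_option linter.unusedSectionVars false
set_option linter.style.haveILetI false
set_option linter.unusedVariables false

noncomputable section
open AlgebraicCurve ModularCurve IntermediateField Fermat.Agent.JZ Polynomial Fermat.Agent.Red

namespace Fermat.Agent.QVal

open ModFn

local notation "Qb" => AlgebraicClosure ℚ
local notation "Γℚ" => (AlgebraicClosure ℚ ≃ₐ[ℚ] AlgebraicClosure ℚ)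

section Roots

variable {A : ValuationSubring Qb} {q : ℕ} [NeZero q] [hqf : Fact q.Prime]

theorem RU.val_pow (ζ : RU q) : ((ζ : Qbˣ) : Qb) ^ q = 1 := by
  have := congrArg (fun u : Qbˣ => (u : Qb)) (RU.pow ζ)
  simpa using this

theorem RU.val_ne {ζ : RU q} (h : ζ ≠ 1) : ((ζ : Qbˣ) : Qb) ≠ 1 := by
  intro h1
  exact RU.ne ζ h (Units.ext h1)

theorem one_sub_ne {ζ : RU q} (h : ζ ≠ 1) : 1 - ((ζ : Qbˣ) : Qb) ≠ 0 := sub_ne_zero.2 (RU.val_ne h).symm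

theorem RU.mem (A : ValuationSubring Qb) (ζ : RU q) : ((ζ : Qbˣ) : Qb) ∈ A := by
  rcases A.mem_or_inv_mem ((ζ : Qbˣ) : Qb) with h | h
  · exact h
  · have h1 : ((ζ : Qbˣ) : Qb) = ((ζ : Qbˣ) : Qb)⁻¹ ^ (q - 1) := by
      have h2 : ((ζ : Qbˣ) : Qb) ^ (q - 1) * ((ζ : Qbˣ) : Qb) = 1 := by
        rw [← pow_succ, Nat.sub_add_cancel hqf.out.one_le, RU.val_pow]
      rw [inv_pow]
      exact (inv_eq_of_mul_eq_one_right h2).symm
    rw [h1]
    exact pow_mem h _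

theorem exists_pow_eq_RU {ζ ζ' : RU q} (h : ζ ≠ 1) : ∃ m : ℕ, ζ ^ m = ζ' := by
  have h1 : orderOf ζ = q := by
    have h2 : orderOf ζ ∣ q := orderOf_dvd_of_pow_eq_one (Subtype.ext (RU.pow ζ))
    rcases (Nat.dvd_prime hqf.out).1 h2 with h3 | h3
    · exact absurd (orderOf_eq_one_iff.1 h3) h
    · exact h3
  have h2 : Subgroup.zpowers ζ = ⊤ := by
    apply Subgroup.eq_top_of_card_eq
    rw [Nat.card_zpowers, h1, Nat.card_eq_fintype_card, card_RU]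
  have h3 : ζ' ∈ Subgroup.zpowers ζ := by rw [h2]; trivial
  have h4 : ζ' ∈ Submonoid.powers ζ := by
    rwa [mem_powers_iff_mem_zpowers]
  exact h4

/-- all `1 - ζ` are associated -/
theorem one_sub_div_mem (A : ValuationSubring Qb) {ζ ζ' : RU q} (h : ζ ≠ 1) :
    (1 - ((ζ' : Qbˣ) : Qb)) / (1 - ((ζ : Qbˣ) : Qb)) ∈ A := by
  obtain ⟨m, rfl⟩ := exists_pow_eq_RU (ζ' := ζ') h
  have h1 : (1 - (((ζ ^ m : RU q) : Qbˣ) : Qb)) = (∑ i ∈ Finset.range m, ((ζ : Qbˣ) : Qb) ^ i) *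
      (1 - ((ζ : Qbˣ) : Qb)) := by
    have h2 := geom_sum_mul_neg ((ζ : Qbˣ) : Qb) m
    rw [h2]
    push_cast
    rfl
  rw [h1, mul_div_assoc, div_self (one_sub_ne h), mul_one]
  exact sum_mem fun i _ => pow_mem (RU.mem A ζ) i

theorem val_one_sub (A : ValuationSubring Qb) {ζ ζ' : RU q} (h : ζ ≠ 1) (h' : ζ' ≠ 1) :
    A.valuation (1 - ((ζ : Qbˣ) : Qb)) = A.valuation (1 - ((ζ' : Qbˣ) : Qb)) := by
  have key : ∀ {ζ ζ' : RU q}, ζ ≠ 1 →
      A.valuation (1 - ((ζ' : Qbˣ) : Qb)) ≤ A.valuation (1 - ((ζ : Qbˣ) : Qb)) := by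
    intro ζ ζ' h
    have h1 := (A.valuation_le_one_iff _).2 (one_sub_div_mem A (ζ' := ζ') h)
    rw [map_div₀] at h1
    have hpos : 0 < A.valuation (1 - ((ζ : Qbˣ) : Qb)) := by
      rw [zero_lt_iff, Ne, map_eq_zero]; exact one_sub_ne h
    exact (div_le_one₀ hpos).1 h1
  exact le_antisymm (key h') (key h)

theorem prod_one_sub (q : ℕ) [NeZero q] [hqf : Fact q.Prime] :
    ∏ ζ : {ζ : RU q // ζ ≠ 1}, (1 - ((ζ.1 : Qbˣ) : Qb)) = q := by
  classical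
  obtain ⟨ξ, hξ⟩ := HasEnoughRootsOfUnity.exists_primitiveRoot Qb q
  obtain ⟨n, rfl⟩ : ∃ n, q = n + 1 := ⟨q - 1, (Nat.succ_pred_eq_of_pos hqf.out.pos).symm⟩
  have h1 := hξ.prod_one_sub_pow_eq_order
  -- the generator
  let u : RU (n + 1) := hξ.toRootsOfUnity
  have hu : ((u : Qbˣ) : Qb) = ξ := rfl
  have hpow : ∀ j : ℕ, (((u ^ j : RU (n + 1)) : Qbˣ) : Qb) = ξ ^ j := by
    intro j; push_cast; rw [hu]
  have hu1 : ∀ j : ℕ, 0 < j → j < n + 1 → u ^ j ≠ 1 := by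
    intro j hj hjn h
    have h2 := congrArg (fun z : RU (n + 1) => ((z : Qbˣ) : Qb)) h
    simp only [hpow] at h2
    exact hξ.pow_ne_one_of_pos_of_lt hj.ne' hjn h2
  have h2 : (((n + 1 : ℕ)) : Qb) = (n : Qb) + 1 := by push_cast; rfl
  rw [h2, ← h1]
  symm
  refine Finset.prod_bij (fun j hj => ⟨u ^ (j + 1), hu1 _ (Nat.succ_pos j) (by
    have := Finset.mem_range.1 hj; omega)⟩) (fun j hj => Finset.mem_univ _) ?_ ?_ ?_
  · intro a ha b hb hab
    have h3 := congrArg (fun z : {ζ : RU (n + 1) // ζ ≠ 1} => ((z.1 : Qbˣ) : Qb)) hab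
    simp only [hpow] at h3
    have := hξ.pow_inj (by have := Finset.mem_range.1 ha; omega) (by have := Finset.mem_range.1 hb; omega) h3
    omega
  · intro ζ _
    obtain ⟨i, hi, hiu⟩ := hξ.eq_pow_of_pow_eq_one (RU.val_pow ζ.1)
    have hi0 : i ≠ 0 := by
      rintro rfl
      rw [pow_zero] at hiu
      exact RU.val_ne ζ.2 hiu.symm
    refine ⟨i - 1, Finset.mem_range.2 (by omega), ?_⟩
    apply Subtype.ext
    apply Subtype.ext
    apply Units.ext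
    change (((u ^ (i - 1 + 1) : RU (n + 1)) : Qbˣ) : Qb) = _
    rw [hpow, Nat.sub_add_cancel (Nat.pos_of_ne_zero hi0), hiu]
  · intro a ha
    rw [hpow]

/-- **Inertia acts transitively on the primitive `q`-th roots of unity.** -/
theorem exists_inertia_RU (hA : A.LiesOverPrime q) {ζ ζ' : RU q} (h : ζ ≠ 1) (h' : ζ' ≠ 1) :
    ∃ σ ∈ A.inertiaSubgroupIn ℚ, galRU σ ζ = ζ' := by
  classical
  let O : Finset {ζ : RU q // ζ ≠ 1} := Finset.univ.filter
    (fun ξ => ∃ σ ∈ A.inertiaSubgroupIn ℚ, galRU σ ζ = ξ.1)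
  have hO : ∀ ξ, ξ ∈ O ↔ ∃ σ ∈ A.inertiaSubgroupIn ℚ, galRU σ ζ = ξ.1 := by
    intro ξ; simp [O]
  set y : Qb := ∏ ξ ∈ O, (1 - ((ξ.1 : Qbˣ) : Qb)) with hy
  have hy0 : y ≠ 0 := Finset.prod_ne_zero_iff.2 fun ξ _ => one_sub_ne ξ.2
  have hfix : ∀ τ ∈ A.inertiaSubgroupIn ℚ, τ y = y := by
    intro τ hτ
    rw [hy, map_prod]
    have hmul : ∀ (σ τ : Γℚ) (ξ : RU q), galRU σ (galRU τ ξ) = galRU (σ * τ) ξ := fun σ τ ξ => rfl
    refine Finset.prod_nbij' (fun ξ => ⟨galRU τ ξ.1, galRU_ne τ ξ.2⟩)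
      (fun ξ => ⟨galRU τ⁻¹ ξ.1, galRU_ne τ⁻¹ ξ.2⟩) ?_ ?_ ?_ ?_ ?_
    · intro ξ hξ
      obtain ⟨σ, hσ, hσξ⟩ := (hO ξ).1 hξ
      refine (hO _).2 ⟨τ * σ, mul_mem hτ hσ, ?_⟩
      rw [← hmul, hσξ]
    · intro ξ hξ
      obtain ⟨σ, hσ, hσξ⟩ := (hO ξ).1 hξ
      refine (hO _).2 ⟨τ⁻¹ * σ, mul_mem (inv_mem hτ) hσ, ?_⟩
      rw [← hmul, hσξ]
    · intro ξ hξ
      apply Subtype.ext
      change galRU τ⁻¹ (galRU τ ξ.1) = ξ.1
      rw [hmul, inv_mul_cancel]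
      rfl
    · intro ξ hξ
      apply Subtype.ext
      change galRU τ (galRU τ⁻¹ ξ.1) = ξ.1
      rw [hmul, mul_inv_cancel]
      rfl
    · intro ξ hξ
      rw [map_sub, map_one]
      rfl
  obtain ⟨n, hn1, hn2⟩ := CFT.Loc.exists_zpow_of_inertia hqf.out hA hy0 hfix
  set v := A.valuation with hv
  have hz0 : 1 - ((ζ : Qbˣ) : Qb) ≠ 0 := one_sub_ne h
  set x := v (1 - ((ζ : Qbˣ) : Qb)) with hx
  have hx0 : x ≠ 0 := by rw [hx, Ne, map_eq_zero]; exact hz0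
  have hvy : v y = x ^ O.card := by
    rw [hy, map_prod, Finset.prod_congr rfl (fun ξ _ => val_one_sub A ξ.2 h), Finset.prod_const]
  have hvq : v (q : Qb) = x ^ (q - 1) := by
    rw [← prod_one_sub q, map_prod, Finset.prod_congr rfl (fun ξ _ => val_one_sub A ξ.2 h), Finset.prod_const,
      Finset.card_univ, card_RU_ne]
  have hx1 : x < 1 := by
    have h1 : v (q : Qb) < 1 := by
      have := hA
      exact (ValuationSubring.mem_nonunits_iff _).1 hA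
    rw [hvq] at h1
    by_contra h2
    exact absurd (one_le_pow₀ (not_lt.1 h2)) (not_le.2 h1)
  have h1 : v (y * (q : Qb) ^ (-n)) = 1 := by
    apply le_antisymm
    · exact (A.valuation_le_one_iff _).2 hn1
    · have h2 := (A.valuation_le_one_iff _).2 hn2
      rw [map_inv₀] at h2
      have hpos : 0 < v (y * (q : Qb) ^ (-n)) := by
        rw [zero_lt_iff, Ne, map_eq_zero]
        exact mul_ne_zero hy0 (zpow_ne_zero _ (by exact_mod_cast hqf.out.ne_zero))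
      exact (inv_le_one₀ hpos).1 h2
  rw [map_mul, map_zpow₀, hvy, hvq] at h1
  have h2 : x ^ ((O.card : ℤ) - (q - 1 : ℕ) * n) = 1 := by
    rw [sub_eq_add_neg, zpow_add₀ hx0, zpow_natCast, ← mul_neg, zpow_mul, zpow_natCast]
    exact h1
  have h3 : (O.card : ℤ) - (q - 1 : ℕ) * n = 0 := by
    by_contra h4
    have hpos : 0 < x := zero_lt_iff.2 hx0
    exact h4 ((zpow_eq_one_iff_right₀ hpos.le hx1.ne).1 h2)
  have hq1 : 0 < q - 1 := by have := hqf.out.one_lt; omega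
  have hOpos : 0 < O.card := by
    rw [Finset.card_pos]
    exact ⟨⟨ζ, h⟩, (hO _).2 ⟨1, one_mem _, rfl⟩⟩
  have hOle : O.card ≤ q - 1 := by
    rw [← card_RU_ne (q := q)]
    exact Finset.card_le_univ O
  have hdvd : (q - 1) ∣ O.card := by
    have : ((q - 1 : ℕ) : ℤ) ∣ (O.card : ℤ) := ⟨n, by linarith⟩
    exact_mod_cast this
  have hOcard : O.card = Fintype.card {ζ : RU q // ζ ≠ 1} := by
    rw [card_RU_ne]
    exact le_antisymm hOle (Nat.le_of_dvd hOpos hdvd)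
  have hOuniv : O = Finset.univ := Finset.eq_univ_of_card O hOcard
  exact (hO ⟨ζ', h'⟩).1 (by rw [hOuniv]; exact Finset.mem_univ _)

end Roots

variable {k : Type*} [Field k] {A : ValuationSubring Qb} {π : A →+* k} {M q : ℕ} [NeZero M] [NeZero q]
  [hqf : Fact q.Prime]

variable (A) in
/-- invariance under inertia -/
def IFix {N : ℕ} (f : FB N) : Prop := ∀ σ ∈ A.inertiaSubgroupIn ℚ, gal N σ f = f

theorem IFix.coeff {N : ℕ} {f : FB N} (h : IFix A f) {σ : Γℚ} (hσ : σ ∈ A.inertiaSubgroupIn ℚ) :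
    coeffMap (σ : Qb →+* Qb) (f : LaurentSeries Qb) = f := congrArg Subtype.val (h σ hσ)

/-- **(V4b)** for inertia invariant functions the middle reductions coincide -/
theorem gRed_mid_indep (hA : A.LiesOverPrime q) (hπ : ∀ a : A, π a = 0 ↔ ¬ IsUnit a) (hM : ¬ q ∣ M)
    {f : FB (M * q * q)} (hf : IFix A f) {ζ : RU q} {h : ζ ≠ 1} {z : LaurentSeries k}
    (hz : GRed π (epsU hM h f) z) {ζ' : RU q} (h' : ζ' ≠ 1) : GRed π (epsU hM h' f) z := by
  obtain ⟨σ, hσ, rfl⟩ := exists_inertia_RU hA h h'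
  have h1 := epsU_gal hM σ h f
  rw [hf σ hσ] at h1
  rw [h1]
  exact gRed_inertia hπ hσ hz

/-- **(V4b)** the middle reduction of an inertia invariant function belongs to `kap` -/
theorem mid_mem_kap (hA : A.LiesOverPrime q) (hπ : ∀ a : A, π a = 0 ↔ ¬ IsUnit a)
    (hs : Function.Surjective π) (hM : ¬ q ∣ M) {f : FB (M * q * q)} {z : LaurentSeries k}
    (hz : ∀ (ζ : RU q) (h : ζ ≠ 1), GRed π (epsU hM h f) z) : z ∈ modularFunctionFieldFullC k M := by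
  have hch := charP_of_liesOverPrime hA hπ
  obtain ⟨N, hN⟩ := exists_gRed_zero_mul hA hπ (gaussFB hA (M * q * q)) f.2 (eM2 hM).2 (gRed_eM2 hM)
  set g : FB (M * q * q) := f * eM2 hM ^ N with hg
  have h1 : GRed π (g : LaurentSeries Qb) 0 := hN N le_rfl
  have h2 : ∀ ζ : {ζ : RU q // ζ ≠ 1}, GRed π (epsU hM ζ.2 g) z := by
    intro ζ
    rw [hg, map_mul, map_pow]
    have := (hz ζ.1 ζ.2).mul (gRed_pow (gRed_eps_eM2 hA hπ (hM := hM) ζ.2) N)
    rw [one_pow, mul_one] at this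
    exact this
  have h3 := h1.add (gRed_sum (Finset.univ : Finset {ζ : RU q // ζ ≠ 1}) (fun ζ _ => h2 ζ))
  rw [← trace_al2' hM g, Finset.sum_const, zero_add, Finset.card_univ, card_RU_ne, nsmul_eq_mul] at h3
  have h4 := mem_of_gRed_level1 hA hπ hs hM h3
  have h5 : (((q - 1 : ℕ)) : LaurentSeries k) = -1 := by
    have h6 : (((q - 1 : ℕ)) : k) = -1 := by
      rw [Nat.cast_sub hqf.out.one_le, CharP.cast_eq_zero, Nat.cast_one, zero_sub]
    have h7 := congrArg (algebraMap k (LaurentSeries k)) h6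
    rw [map_natCast, map_neg, map_one] at h7
    exact h7
  rw [h5, neg_one_mul] at h4
  have h6 := neg_mem h4
  rwa [neg_neg] at h6

theorem exists_mid_kap (hA : A.LiesOverPrime q) (hπ : ∀ a : A, π a = 0 ↔ ¬ IsUnit a)
    (hs : Function.Surjective π) (hM : ¬ q ∣ M) {f : FB (M * q * q)} (hf : IFix A f) {ζ : RU q} {h : ζ ≠ 1}
    (hO : f ∈ (rMid hA hπ hs hM h).O) : ∃ b : modularFunctionFieldFullC k M,
      ∀ (ζ : RU q) (h : ζ ≠ 1), GRed π (epsU hM h f) b := by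
  obtain ⟨z, hz⟩ := mem_rMid.1 hO
  have h1 : ∀ (ζ : RU q) (h : ζ ≠ 1), GRed π (epsU hM h f) z :=
    fun ζ h => gRed_mid_indep hA hπ hM hf hz h
  exact ⟨⟨z, mid_mem_kap hA hπ hs hM h1⟩, h1⟩

/-- `rMid.IsRed` for elements of `kap` -/
theorem isRed_rMid_of {hA : A.LiesOverPrime q} {hπ : ∀ a : A, π a = 0 ↔ ¬ IsUnit a}
    {hs : Function.Surjective π} {hM : ¬ q ∣ M} {ζ : RU q} {h : ζ ≠ 1} {f : FB (M * q * q)}
    {b : modularFunctionFieldFullC k M} (hb : GRed π (epsU hM h f) b) :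
    (rMid hA hπ hs hM h).IsRed f ⟨b, kap_le_kapMid hA hπ hs hM h b.2⟩ := isRed_rMid.2 hb

theorem IFix.norm_al2 {f : FB (M * q * q)} (hf : IFix A f) : IFix A (normAlong (al2 M q) f) := by
  intro σ hσ
  rw [← norm_al2_gal, hf σ hσ]

theorem IFix.norm_be2 {f : FB (M * q * q)} (hf : IFix A f) : IFix A (normAlong (be2 M q) f) := by
  intro σ hσ
  rw [← norm_be2_gal, hf σ hσ]

theorem IFix.w2 {hM : ¬ q ∣ M} {f : FB (M * q * q)} (hf : IFix A f) : IFix A (w2 hqf.out hM f) := by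
  intro σ hσ
  rw [← w2_gal, hf σ hσ]

theorem IFix.w1 {hM : ¬ q ∣ M} {f : FB (M * q)} (hf : IFix A f) : IFix A (w1 hqf.out hM f) := by
  intro σ hσ
  rw [← w1_gal, hf σ hσ]

theorem IFix.al1 {f : FB M} (hf : IFix A f) : IFix A (al1 M q f) := by
  intro σ hσ
  rw [gal_al1, hf σ hσ]

theorem IFix.be1 {f : FB M} (hf : IFix A f) : IFix A (be1 M q f) := by
  intro σ hσ
  rw [gal_be1, hf σ hσ]

theorem IFix.al2 {f : FB (M * q)} (hf : IFix A f) : IFix A (al2 M q f) := by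
  intro σ hσ
  rw [gal_al2, hf σ hσ]

theorem IFix.be2 {f : FB (M * q)} (hf : IFix A f) : IFix A (be2 M q f) := by
  intro σ hσ
  rw [gal_be2, hf σ hσ]

theorem IFix.mul {N : ℕ} {f g : FB N} (hf : IFix A f) (hg : IFix A g) : IFix A (f * g) := by
  intro σ hσ
  rw [map_mul, hf σ hσ, hg σ hσ]

theorem IFix.add {N : ℕ} {f g : FB N} (hf : IFix A f) (hg : IFix A g) : IFix A (f + g) := by
  intro σ hσ
  rw [map_add, hf σ hσ, hg σ hσ]

theorem IFix.sub {N : ℕ} {f g : FB N} (hf : IFix A f) (hg : IFix A g) : IFix A (f - g) := by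
  intro σ hσ
  rw [map_sub, hf σ hσ, hg σ hσ]

theorem IFix.inv {N : ℕ} {f : FB N} (hf : IFix A f) : IFix A f⁻¹ := by
  intro σ hσ
  rw [map_inv₀, hf σ hσ]

theorem IFix.pow {N : ℕ} {f : FB N} (hf : IFix A f) (n : ℕ) : IFix A (f ^ n) := by
  intro σ hσ
  rw [map_pow, hf σ hσ]

end Fermat.Agent.QVal
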