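import Fermat.Agent.QComp.Over
import Fermat.Agent.Red.Charpoly
import Fermat.Agent.QVal.Comap

/-!
# Valuation rings over the Gauss valuation and constant reductions
-/

set_option autoImplicit false
set_option linter.unusedSectionVars false
set_option linter.style.haveILetI false
set_option linter.unusedVariables false

noncomputable section

open AlgebraicCurve IntermediateField ModularCurve Fermat.Agent.Red

namespace Fermat.Agent.QVal

variable {K k : Type*} [Field K] [Field k] {A : ValuationSubring K} {π : A →+* k}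
  {F Fk F' : Type*} [Field F] [Algebra K F] [Field Fk] [Algebra k Fk] [Field F'] [Algebra K F']

theorem prim_of_map (hπ : ∀ a : A, π a = 0 ↔ ¬ IsUnit a) {u : Polynomial A} (hu : u.map π ≠ 0) :
    QComp.Prim u := by
  by_contra h
  apply hu
  ext i
  rw [Polynomial.coeff_map, Polynomial.coeff_zero, hπ]
  exact fun h1 => h ⟨i, h1⟩

theorem map_of_prim (hπ : ∀ a : A, π a = 0 ↔ ¬ IsUnit a) {u : Polynomial A} (hu : QComp.Prim u) :
    u.map π ≠ 0 := by
  obtain ⟨i, hi⟩ := hu
  intro h
  have h1 := congrArg (fun p => p.coeff i) h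
  simp only [Polynomial.coeff_map, Polynomial.coeff_zero] at h1
  exact (hπ _).1 h1 hi

/-- the image of the valuation ring of a constant reduction is contained in every valuation ring
over the Gauss valuation -/
theorem map_mem_of_overGauss {R : ConstRed A π F Fk} {x : F} {xb : Fk}
    (hx : IsCoord R x xb) (hπ : ∀ a : A, π a = 0 ↔ ¬ IsUnit a) (α : F →ₐ[K] F')
    {V : ValuationSubring F'} (hV : QComp.OverGauss K A (α x) V) {f : F} (hf : f ∈ R.O) :
    α f ∈ V := by
  -- the Gauss ring
  have key : ∀ c : K⟮x⟯, (c : F) ∈ R.O → α (c : F) ∈ V := by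
    intro c hc
    by_cases hc0 : (c : F) = 0
    · rw [hc0, map_zero]; exact zero_mem _
    obtain ⟨r, s, hrs⟩ := (IntermediateField.mem_adjoin_simple_iff K (c : F)).1 c.2
    have hr : r ≠ 0 := by
      rintro rfl; rw [map_zero, zero_div] at hrs; exact hc0 hrs
    have hs : s ≠ 0 := by
      rintro rfl; rw [map_zero, div_zero] at hrs; exact hc0 hrs
    obtain ⟨a, p, ha, rfl, hp⟩ := exists_primitive A π r hr
    obtain ⟨b, p', hb, rfl, hp'⟩ := exists_primitive A π s hs
    rw [map_mul, map_mul, Polynomial.aeval_C, Polynomial.aeval_C, ← theta_apply, ← theta_apply,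
      mul_div_mul_comm, ← map_div₀] at hrs
    have h1 := (hx.isRed.theta p).div (hx.isRed.theta p') (thetak_ne_zero hx.transcendental hp')
    have hne : thetak π xb p / thetak π xb p' ≠ 0 :=
      div_ne_zero (thetak_ne_zero hx.transcendental hp) (thetak_ne_zero hx.transcendental hp')
    have h2 := (h1.inv hne).mem
    have h3 : algebraMap K F (a / b) ∈ R.O := by
      have h4 : algebraMap K F (a / b) = (c : F) * (theta A x p / theta A x p')⁻¹ := by
        rw [hrs, mul_assoc, mul_inv_cancel₀ (h1.ne_zero hne), mul_one]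
      rw [h4]
      exact mul_mem hc h2
    have h4 := (R.algebraMap_mem_iff _).1 h3
    rw [hrs, map_mul, AlgHom.commutes, map_div₀ α, div_eq_mul_inv (α _)]
    have h5 : ∀ p : Polynomial A, α (theta A x p) = QComp.ev K A (α x) p := by
      intro p
      rw [theta_apply, QComp.ev_eq_aeval, ← Polynomial.aeval_algHom_apply]
      rfl
    rw [h5, h5]
    refine mul_mem ?_ (mul_mem (hV.ev_mem p) (hV.inv_mem _ (prim_of_map hπ hp')))
    exact hV.coe_mem ⟨_, h4⟩
  obtain ⟨p, hp, hpf⟩ := hx.isIntegral_gaussRing hf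
  let g : gaussRing R x →+* V := ((α : F →+* F').comp ((algebraMap K⟮x⟯ F).comp
    (gaussRing R x).subtype)).codRestrict V.toSubring (fun c => key c c.2)
  have h1 : IsIntegral V (α f) := by
    refine ⟨p.map g, hp.map g, ?_⟩
    rw [Polynomial.eval₂_map]
    have h2 := congrArg (α : F →+* F') hpf
    rw [map_zero, Polynomial.hom_eval₂] at h2
    exact h2
  obtain ⟨y, hy⟩ := (IsIntegrallyClosed.isIntegral_iff (R := V) (K := F')).1 h1
  rw [← hy]
  exact y.2

/-- in a valuation ring, one of the members of a decomposition of `1` is a unit -/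
theorem exists_unit_of_sum {ι : Type*} (s : Finset ι) (e : ι → F') (V : ValuationSubring F')
    (he : ∀ i ∈ s, e i ∈ V) (hsum : ∑ i ∈ s, e i = 1) : ∃ i ∈ s, (e i)⁻¹ ∈ V ∧ e i ≠ 0 := by
  by_contra hcon
  push Not at hcon
  have h1 : ∀ i ∈ s, e i ∈ V.nonunits := by
    intro i hi
    rw [Frob.mem_nonunits_iff_inv]
    by_cases h0 : e i = 0
    · exact Or.inl h0
    · exact Or.inr fun h => h0 (hcon i hi h)
  have h2 : ∑ i ∈ s, e i ∈ V.nonunits := sum_mem h1
  rw [hsum, ValuationSubring.mem_nonunits_iff, map_one] at h2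
  exact lt_irrefl _ h2

end Fermat.Agent.QVal
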