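import Fermat.Agent.QVal.Norms
import Fermat.Agent.QVal.GTools
import Fermat.Agent.QVal.OverG

/-!
# The two constant reductions of `X₀(M q)` at `q`
-/

set_option autoImplicit false
set_option linter.unusedSectionVars false
set_option linter.style.haveILetI false
set_option linter.unusedVariables false

noncomputable section
open AlgebraicCurve ModularCurve IntermediateField Fermat.Agent.JZ Polynomial Fermat.Agent.Red

namespace Fermat.Agent.QVal

open ModFn

local notation "Qb" => AlgebraicClosure ℚ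

section Prelim

variable {k : Type*} [Field k] {A : ValuationSubring Qb} {π : A →+* k} {q : ℕ} [hqf : Fact q.Prime]

/-- a root of unity of order `q` reduces to one -/
theorem exists_unit_root (hA : A.LiesOverPrime q) (hπ : ∀ a : A, π a = 0 ↔ ¬ IsUnit a) {ζ : Qbˣ}
    (hζ : ζ ^ q = 1) : ∃ ζA : Aˣ, Units.map A.subtype.toMonoidHom ζA = ζ ∧
      Units.map π.toMonoidHom ζA = 1 := by
  have hch := charP_of_liesOverPrime hA hπ
  have hζ' : ((ζ : Qbˣ) : Qb) ^ q = 1 := by rw [← Units.val_pow_eq_pow_val, hζ, Units.val_one]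
  have hζA : (ζ : Qb) ∈ A := by
    rcases A.mem_or_inv_mem (ζ : Qb) with h | h
    · exact h
    · have h1 : (ζ : Qb) = (ζ : Qb)⁻¹ ^ (q - 1) := by
        have h2 : (ζ : Qb) ^ (q - 1) * ζ = 1 := by
          rw [← pow_succ, Nat.sub_add_cancel hqf.out.one_le, hζ']
        rw [inv_pow]
        exact (inv_eq_of_mul_eq_one_right h2).symm
      rw [h1]
      exact pow_mem h _
  have hζpow : (⟨ζ, hζA⟩ : A) ^ q = 1 := Subtype.ext hζ'
  refine ⟨Units.ofPowEqOne (⟨ζ, hζA⟩ : A) q hζpow hqf.out.ne_zero, Units.ext rfl, ?_⟩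
  apply Units.ext
  change π ⟨ζ, hζA⟩ = 1
  have h1 : (π ⟨ζ, hζA⟩) ^ q = 1 := by rw [← map_pow, hζpow, map_one]
  have h2 : (π ⟨ζ, hζA⟩ - 1) ^ q = 0 := by
    rw [sub_pow_char, h1, one_pow, sub_self]
  exact sub_eq_zero.1 (pow_eq_zero_iff hqf.out.ne_zero |>.1 h2)

theorem gRed_twist_root (hA : A.LiesOverPrime q) (hπ : ∀ a : A, π a = 0 ↔ ¬ IsUnit a) {ζ : Qbˣ}
    (hζ : ζ ^ q = 1) {f : LaurentSeries Qb} {z : LaurentSeries k} (h : GRed π f z) :
    GRed π (twist ζ f) z := by
  obtain ⟨ζA, h1, h2⟩ := exists_unit_root hA hπ hζ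
  have h3 := gRed_twist h ζA
  rw [h1, h2, twist_one] at h3
  exact h3

theorem jq_pow [NeZero q] [CharP k q] : (jqModC k) ^ q = qExpand k q (jqModC k) := by
  rw [ESh.pow_eq_qExpand, ModFn.coeffMap_jqModC]

theorem jq_sub_ne (k : Type*) [Field k] {n : ℕ} (hn : 1 < n) : jqModC k - jqModC k ^ n ≠ 0 := by
  intro h
  apply transcendental_jqModC k
  refine ⟨X - X ^ n, ?_, by simpa using h⟩
  intro h0
  have h1 := congrArg (fun p : k[X] => p.coeff 1) h0
  simp only [coeff_sub, coeff_X_one, coeff_X_pow, coeff_zero] at h1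
  rw [if_neg (by omega), sub_zero] at h1
  exact one_ne_zero h1

/-- multiplication by a high power of a small element makes everything small -/
theorem exists_gRed_zero_mul (hA : A.LiesOverPrime q) (hπ : ∀ a : A, π a = 0 ↔ ¬ IsUnit a)
    {E : IntermediateField Qb (LaurentSeries Qb)} (hE : GaussField π E) {f e : LaurentSeries Qb}
    (hf : f ∈ E) (he : e ∈ E) (h0 : GRed π e 0) : ∃ N : ℕ, ∀ n ≥ N, GRed π (f * e ^ n) 0 := by
  by_cases hf0 : f = 0
  · exact ⟨0, fun n _ => by rw [hf0, zero_mul]; exact gRed_zero π⟩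
  by_cases he0 : e = 0
  · exact ⟨1, fun n hn => by rw [he0, zero_pow (by omega), mul_zero]; exact gRed_zero π⟩
  obtain ⟨c, z, hc, hz, hcf⟩ := hE.exists_scale hf hf0
  obtain ⟨d, w, hd, hw, hde⟩ := hE.exists_scale he he0
  have hdA : d⁻¹ ∈ A.nonunits := by
    rw [Frob.mem_nonunits_iff_inv, inv_inv]
    right
    intro hdA
    have h1 := (gRed_smul h0 ⟨d, hdA⟩).unique hde
    rw [mul_zero] at h1
    exact hw h1.symm
  obtain ⟨N, hN⟩ := exists_pow_mul_mem hA hdA c⁻¹
  refine ⟨N, fun n hn => ?_⟩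
  have h1 := hN n hn
  have hmem : d⁻¹ ^ n * c⁻¹ ∈ A := A.nonunits_le h1
  have hzero : π ⟨_, hmem⟩ = 0 := by
    rw [hπ]
    exact (IsLocalRing.mem_maximalIdeal _).1 (A.coe_mem_nonunits_iff.1 h1)
  have h2 := gRed_smul (hcf.mul (gRed_pow hde n)) ⟨_, hmem⟩
  rw [hzero, map_zero, zero_mul] at h2
  have hc' : algebraMap Qb (LaurentSeries Qb) c ≠ 0 := by simpa using hc
  have hd' : algebraMap Qb (LaurentSeries Qb) d ≠ 0 := by simpa using hd
  have h3 : algebraMap Qb (LaurentSeries Qb) (d⁻¹ ^ n * c⁻¹) *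
      (algebraMap Qb (LaurentSeries Qb) c * f * (algebraMap Qb (LaurentSeries Qb) d * e) ^ n) =
      f * e ^ n := by
    rw [map_mul, map_pow, map_inv₀, map_inv₀, mul_pow]
    have h4 : (algebraMap Qb (LaurentSeries Qb) d)⁻¹ ^ n * (algebraMap Qb (LaurentSeries Qb) d) ^ n = 1 := by
      rw [← mul_pow, inv_mul_cancel₀ hd', one_pow]
    have h5 : (algebraMap Qb (LaurentSeries Qb) c)⁻¹ * algebraMap Qb (LaurentSeries Qb) c = 1 :=
      inv_mul_cancel₀ hc'
    linear_combination (f * e ^ n * (algebraMap Qb (LaurentSeries Qb) c)⁻¹ *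
      algebraMap Qb (LaurentSeries Qb) c) * h4 + (f * e ^ n) * h5
  rw [← h3]
  exact h2

end Prelim

section Frob

variable {k : Type*} [Field k] (q : ℕ) [hqf : Fact q.Prime] [CharP k q] (N : ℕ)

theorem coeffMap_algebraMap' {R S : Type*} [Field R] [Field S] (f : R →+* S) (r : R) :
    coeffMap f (algebraMap R (LaurentSeries R) r) = algebraMap S (LaurentSeries S) (f r) := by
  rw [algebraMap_eq_C, algebraMap_eq_C, coeffMap_single_zero]

theorem frob_mem {z : LaurentSeries k} (hz : z ∈ modularFunctionFieldFullC k N) :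
    coeffMap (frobenius k q) z ∈ modularFunctionFieldFullC k N := by
  rw [modularFunctionFieldFullC] at hz
  induction hz using IntermediateField.adjoin_induction with
  | mem x hx =>
    obtain ⟨d, hd, hdN, rfl⟩ := hx
    rw [ModFn.coeffMap_qExpand, ModFn.coeffMap_jqModC]
    exact IntermediateField.subset_adjoin _ _ ⟨d, hd, hdN, rfl⟩
  | algebraMap x =>
    rw [coeffMap_algebraMap']
    exact IntermediateField.algebraMap_mem _ _
  | add x y _ _ hx hy => rw [map_add]; exact add_mem hx hy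
  | inv x _ hx => rw [map_inv₀]; exact inv_mem hx
  | mul x y _ _ hx hy => rw [map_mul]; exact mul_mem hx hy

/-- the coefficientwise Frobenius -/
def phiK : modularFunctionFieldFullC k N →+* modularFunctionFieldFullC k N :=
  ((coeffMap (frobenius k q)).comp
    ((modularFunctionFieldFullC k N).val : modularFunctionFieldFullC k N →+* LaurentSeries k)).codRestrict
    (modularFunctionFieldFullC k N).toSubfield.toSubring (fun z => frob_mem q N z.2)

theorem coe_phiK (z : modularFunctionFieldFullC k N) :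
    (phiK q N z : LaurentSeries k) = coeffMap (frobenius k q) (z : LaurentSeries k) := rfl

theorem pow_eq_phiK [NeZero q] (z : modularFunctionFieldFullC k N) :
    (z : LaurentSeries k) ^ q = qExpand k q (phiK q N z : LaurentSeries k) := by
  rw [coe_phiK, ESh.pow_eq_qExpand]

theorem phiK_surjective [PerfectRing k q] : Function.Surjective (phiK (k := k) q N) := by
  have key : ∀ z ∈ modularFunctionFieldFullC k N, ∃ w ∈ modularFunctionFieldFullC k N,
      coeffMap (frobenius k q) w = z := by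
    intro z hz
    rw [modularFunctionFieldFullC] at hz
    induction hz using IntermediateField.adjoin_induction with
    | mem x hx =>
      obtain ⟨d, hd, hdN, rfl⟩ := hx
      exact ⟨qExpand k d (jqModC k), IntermediateField.subset_adjoin _ _ ⟨d, hd, hdN, rfl⟩, by
        rw [ModFn.coeffMap_qExpand, ModFn.coeffMap_jqModC]⟩
    | algebraMap x =>
      obtain ⟨y, hy⟩ := (PerfectRing.bijective_frobenius (R := k) (p := q)).2 x
      exact ⟨algebraMap k _ y, IntermediateField.algebraMap_mem _ _, by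
        rw [coeffMap_algebraMap']; exact congrArg _ hy⟩
    | add x y _ _ hx hy =>
      obtain ⟨a, ha, rfl⟩ := hx
      obtain ⟨b, hb, rfl⟩ := hy
      exact ⟨a + b, add_mem ha hb, map_add _ _ _⟩
    | inv x _ hx =>
      obtain ⟨a, ha, rfl⟩ := hx
      exact ⟨a⁻¹, inv_mem ha, map_inv₀ _ _⟩
    | mul x y _ _ hx hy =>
      obtain ⟨a, ha, rfl⟩ := hx
      obtain ⟨b, hb, rfl⟩ := hy
      exact ⟨a * b, mul_mem ha hb, map_mul _ _ _⟩
  intro z
  obtain ⟨w, hw, h⟩ := key z z.2
  exact ⟨⟨w, hw⟩, Subtype.ext h⟩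

theorem phiK_xj [NeZero N] : phiK q N (RedQ.xj k N) = RedQ.xj k N :=
  Subtype.ext (ModFn.coeffMap_jqModC _)

end Frob

section LevelOne

variable {k : Type*} [Field k] {A : ValuationSubring Qb} {π : A →+* k} {M q : ℕ} [NeZero M] [NeZero q]
  [hqf : Fact q.Prime]

theorem gaussFB (hA : A.LiesOverPrime q) (N : ℕ) : GaussField π (FB N) :=
  gaussField_laurentBaseChange π hqf.out hA N

variable (M q) in
/-- the function `j(q τ) - j(τ)^q` -/
def uu : FB (M * q) := be1 M q (jB M) - (al1 M q (jB M)) ^ q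

theorem gRed_al1 {f : FB M} {z : LaurentSeries k} (h : GRed π (f : LaurentSeries Qb) z) :
    GRed π (al1 M q f : LaurentSeries Qb) z := by
  rw [coe_al1]; exact h

theorem gRed_be1 {f : FB M} {z : LaurentSeries k} (h : GRed π (f : LaurentSeries Qb) z) :
    GRed π (be1 M q f : LaurentSeries Qb) (qExpand k q z) := by
  rw [coe_be1]; exact gRed_qExpand h q

theorem gRed_al2 {f : FB (M * q)} {z : LaurentSeries k} (h : GRed π (f : LaurentSeries Qb) z) :
    GRed π (al2 M q f : LaurentSeries Qb) z := by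
  rw [coe_al2]; exact h

theorem gRed_be2 {f : FB (M * q)} {z : LaurentSeries k} (h : GRed π (f : LaurentSeries Qb) z) :
    GRed π (be2 M q f : LaurentSeries Qb) (qExpand k q z) := by
  rw [coe_be2]; exact gRed_qExpand h q

theorem gRed_uu [CharP k q] : GRed π (uu M q : LaurentSeries Qb) 0 := by
  have h1 := gRed_sub (gRed_be1 (q := q) (gRed_jB (π := π) M)) (gRed_pow (gRed_al1 (q := q) (gRed_jB (π := π) M)) q)
  have h2 : qExpand k q (RedQ.xj k M : LaurentSeries k) - (RedQ.xj k M : LaurentSeries k) ^ q = 0 := by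
    change qExpand k q (jqModC k) - (jqModC k) ^ q = 0
    rw [jq_pow, sub_self]
  rw [h2] at h1
  exact h1

variable (hM : ¬ q ∣ M)

theorem w1_uu : w1 hqf.out hM (uu M q) = al1 M q (jB M) - (be1 M q (jB M)) ^ q := by
  rw [uu, map_sub, map_pow, w1_al, w1_be]

theorem gRed_w1_uu [CharP k q] : GRed π (w1 hqf.out hM (uu M q) : LaurentSeries Qb)
    (jqModC k - jqModC k ^ (q * q)) := by
  have h1 := gRed_sub (gRed_al1 (q := q) (gRed_jB (π := π) M)) (gRed_pow (gRed_be1 (q := q) (gRed_jB (π := π) M)) q)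
  rw [w1_uu hM]
  have h2 : jqModC k - jqModC k ^ (q * q) =
      (RedQ.xj k M : LaurentSeries k) - (qExpand k q (RedQ.xj k M : LaurentSeries k)) ^ q := by
    change _ = jqModC k - (qExpand k q (jqModC k)) ^ q
    rw [← jq_pow, ← pow_mul]
  rw [h2]
  exact h1

/-- a function which is `≡ 1` at `∞` and `≡ 0` at `0` -/
def eI : FB (M * q) := w1 hqf.out hM (uu M q) / al1 M q (jB M - jB M ^ (q * q))

theorem gRed_jj : GRed π ((jB M - jB M ^ (q * q) : FB M) : LaurentSeries Qb)
    (jqModC k - jqModC k ^ (q * q)) :=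
  gRed_sub (gRed_jB M) (gRed_pow (gRed_jB M) _)

omit [NeZero q] in
theorem one_lt_qq : 1 < q * q := by
  have := hqf.out.one_lt
  nlinarith

theorem gRed_eI [CharP k q] : GRed π (eI hM : LaurentSeries Qb) 1 := by
  have h1 := gRed_div (gRed_w1_uu (π := π) hM) (gRed_al1 (q := q) (gRed_jj (π := π) (M := M)))
    (jq_sub_ne k (one_lt_qq (q := q)))
  rw [div_self (jq_sub_ne k (one_lt_qq (q := q)))] at h1
  exact h1

theorem gRed_w1_eI [CharP k q] : GRed π (w1 hqf.out hM (eI hM) : LaurentSeries Qb) 0 := by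
  have hne : qExpand k q (jqModC k - jqModC k ^ (q * q)) ≠ 0 := fun h =>
    jq_sub_ne k (one_lt_qq (q := q)) (qExpand_injective (R := k) q (h.trans (map_zero _).symm))
  have h1 := gRed_div (gRed_uu (π := π) (M := M)) (gRed_be1 (q := q) (gRed_jj (π := π) (M := M))) hne
  rw [zero_div] at h1
  have h2 : w1 hqf.out hM (eI hM) = uu M q / be1 M q (jB M - jB M ^ (q * q)) := by
    rw [eI, map_div₀, w1_w1, w1_al]
  rw [h2]
  exact h1

/-- traces along `al1` -/
theorem qExpand_trace_al1 (f : FB (M * q)) :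
    qExpand Qb q ((traceR (al1 M q : FB M →+* FB (M * q)) f : FB M) : LaurentSeries Qb) =
      qExpand Qb q (f : LaurentSeries Qb) +
        ∑ ζ : RU q, twist (ζ : Qbˣ) (w1 hqf.out hM f : LaurentSeries Qb) := by
  have h := (fullEmb1 hqf.out hM).trace f
  rw [Fintype.sum_option] at h
  exact h

/-- **the residue field at `∞`** -/
theorem mem_of_gRed_level1 (hA : A.LiesOverPrime q) (hπ : ∀ a : A, π a = 0 ↔ ¬ IsUnit a)
    (hs : Function.Surjective π) (hM : ¬ q ∣ M) {f : FB (M * q)} {z : LaurentSeries k}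
    (h : GRed π (f : LaurentSeries Qb) z) : z ∈ modularFunctionFieldFullC k M := by
  have hch := charP_of_liesOverPrime hA hπ
  obtain ⟨N, hN⟩ := exists_gRed_zero_mul hA hπ (gaussFB hA (M * q)) (w1 hqf.out hM f).2
    (w1 hqf.out hM (eI hM)).2 (gRed_w1_eI hM)
  set g : FB (M * q) := f * eI hM ^ N with hg
  have h1 : GRed π (g : LaurentSeries Qb) z := by
    have := h.mul (gRed_pow (gRed_eI (π := π) hM) N)
    rw [one_pow, mul_one] at this
    exact this
  have h2 : GRed π (w1 hqf.out hM g : LaurentSeries Qb) 0 := by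
    have := hN N le_rfl
    have h3 : w1 hqf.out hM g = w1 hqf.out hM f * w1 hqf.out hM (eI hM) ^ N := by
      rw [hg, map_mul, map_pow]
    rw [h3]
    exact this
  have h3 := (gRed_qExpand h1 q).add (gRed_sum (Finset.univ : Finset (RU q)) (fun ζ _ =>
    gRed_twist_root hA hπ (RU.pow ζ) h2))
  rw [← qExpand_trace_al1 hM g, Finset.sum_const_zero, add_zero] at h3
  obtain ⟨z', hz', hzz⟩ := gRed_of_qExpand (gaussFB hA M) hπ q
    (traceR (al1 M q : FB M →+* FB (M * q)) g).2 h3
  have hz : z' = z := qExpand_injective (R := k) q hzz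
  rw [← hz, ← gaussRes_bar M hA hπ hs hM]
  exact ⟨_, (traceR (al1 M q : FB M →+* FB (M * q)) g).2, hz'⟩

theorem exists_lift_level1 (hA : A.LiesOverPrime q) (hπ : ∀ a : A, π a = 0 ↔ ¬ IsUnit a)
    (hs : Function.Surjective π) (hM : ¬ q ∣ M) {z : LaurentSeries k}
    (hz : z ∈ modularFunctionFieldFullC k M) : ∃ f ∈ FB (M * q), GRed π f z := by
  rw [← gaussRes_bar M hA hπ hs hM] at hz
  obtain ⟨f, hf, hz⟩ := hz
  exact ⟨(al1 M q ⟨f, hf⟩ : LaurentSeries Qb), (al1 M q ⟨f, hf⟩).2, gRed_al1 hz⟩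

variable (M q) in
/-- **(V1)** the reduction of `X₀(M q)` at `∞` -/
def rInf1 (hA : A.LiesOverPrime q) (hπ : ∀ a : A, π a = 0 ↔ ¬ IsUnit a)
    (hs : Function.Surjective π) (hM : ¬ q ∣ M) :
    ConstRed A π (FB (M * q)) (modularFunctionFieldFullC k M) :=
  gaussConstRed (gaussFB hA (M * q)) hπ _
    (fun f z hf h => mem_of_gRed_level1 hA hπ hs hM (f := ⟨f, hf⟩) h)
    (fun z hz => exists_lift_level1 hA hπ hs hM hz)

variable {hA : A.LiesOverPrime q} {hπ : ∀ a : A, π a = 0 ↔ ¬ IsUnit a}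
    {hs : Function.Surjective π} {hM : ¬ q ∣ M}

theorem isRed_rInf1 {f : FB (M * q)} {z : modularFunctionFieldFullC k M} :
    (rInf1 M q hA hπ hs hM).IsRed f z ↔ GRed π (f : LaurentSeries Qb) z :=
  gaussConstRed_isRed

variable (M q) in
/-- **(V3)** the reduction of `X₀(M q)` at `0` -/
def rZero1 (hA : A.LiesOverPrime q) (hπ : ∀ a : A, π a = 0 ↔ ¬ IsUnit a)
    (hs : Function.Surjective π) (hM : ¬ q ∣ M) :
    ConstRed A π (FB (M * q)) (modularFunctionFieldFullC k M) :=
  comapRed (rInf1 M q hA hπ hs hM) (w1 hqf.out hM)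

theorem isRed_rZero1 {f : FB (M * q)} {z : modularFunctionFieldFullC k M} :
    (rZero1 M q hA hπ hs hM).IsRed f z ↔ (rInf1 M q hA hπ hs hM).IsRed (w1 hqf.out hM f) z :=
  comapRed_isRed

theorem isRed_rZero1_w1 {f : FB (M * q)} {z : modularFunctionFieldFullC k M} :
    (rZero1 M q hA hπ hs hM).IsRed (w1 hqf.out hM f) z ↔ (rInf1 M q hA hπ hs hM).IsRed f z := by
  rw [isRed_rZero1, w1_w1]

theorem mem_rZero1 {f : FB (M * q)} :
    f ∈ (rZero1 M q hA hπ hs hM).O ↔ w1 hqf.out hM f ∈ (rInf1 M q hA hπ hs hM).O := Iff.rfl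

theorem isRed_eI_inf : (rInf1 M q hA hπ hs hM).IsRed (eI hM) 1 := by
  have := charP_of_liesOverPrime hA hπ
  rw [isRed_rInf1]
  exact gRed_eI hM

theorem isRed_eI_zero : (rZero1 M q hA hπ hs hM).IsRed (eI hM) 0 := by
  have := charP_of_liesOverPrime hA hπ
  rw [isRed_rZero1, isRed_rInf1]
  exact gRed_w1_eI hM

/-- the reductions of the two pull-backs -/
theorem isRed_inf_al1 {f : FB M} {z : modularFunctionFieldFullC k M}
    (h : (redX M hA hπ hs hM).IsRed f z) : (rInf1 M q hA hπ hs hM).IsRed (al1 M q f) z := by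
  rw [isRed_rInf1]; exact gRed_al1 (isRed_redX.1 h)

end LevelOne

end Fermat.Agent.QVal
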