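import Fermat.Agent.QVal.GoodFrac

/-!
# The constant reductions of `X₀(M q²)` at `q`
-/

set_option autoImplicit false
set_option linter.unusedSectionVars false
set_option linter.style.haveILetI false
set_option linter.unusedVariables false

noncomputable section
open AlgebraicCurve ModularCurve IntermediateField Fermat.Agent.JZ Polynomial Fermat.Agent.Red

namespace Fermat.Agent.QVal

open ModFn

local notation "Qb" => AlgebraicClosure ℚ

variable {k : Type*} [Field k] {A : ValuationSubring Qb} {π : A →+* k} {M q : ℕ} [NeZero M] [NeZero q]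
  [hqf : Fact q.Prime]

/-- the embedding attached to a nontrivial `q`-th root of unity -/
def epsU (hM : ¬ q ∣ M) {ζ : RU q} (h : ζ ≠ 1) : FB (M * q * q) →ₐ[Qb] LaurentSeries Qb :=
  eps hqf.out hM (RU.pow ζ) (RU.ne ζ h)

section

variable {hM : ¬ q ∣ M} {ζ : RU q} {h : ζ ≠ 1}

theorem epsU_al (x : FB (M * q)) : epsU hM h (al2 M q x) = x := eps_al _ _ _ _ x

theorem epsU_be (x : FB (M * q)) :
    epsU hM h (be2 M q x) = twist (ζ : Qbˣ) (w1 hqf.out hM x : LaurentSeries Qb) := eps_be _ _ _ _ x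

theorem epsU_be_be (x : FB M) :
    epsU hM h (be2 M q (be1 M q x)) = twist (ζ : Qbˣ) (x : LaurentSeries Qb) := eps_be_be _ _ _ _ x

theorem epsU_al_al (x : FB M) : epsU hM h (al2 M q (al1 M q x)) = x := by
  rw [epsU_al, coe_al1]

theorem inv_ne_one' (h : ζ ≠ 1) : ζ⁻¹ ≠ 1 := fun h1 => h (inv_eq_one.1 h1)

theorem epsU_w2 (x : FB (M * q * q)) :
    epsU hM h (w2 hqf.out hM x) = twist (ζ : Qbˣ) (epsU hM (inv_ne_one' h) x) :=
  eps_w2 hqf.out hM (RU.pow ζ) (RU.ne ζ h) (RU.pow ζ⁻¹) (RU.ne ζ⁻¹ (inv_ne_one' h)) x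

theorem emb2_ne' (x : FB (M * q * q)) : emb2 hqf.out hM ζ x = epsU hM h x := emb2_ne _ _ h x

end

/-- norms along `al2` -/
theorem norm_al2' (hM : ¬ q ∣ M) (f : FB (M * q * q)) :
    (normAlong (al2 M q) f : LaurentSeries Qb) = (f : LaurentSeries Qb) *
      ∏ ζ : {ζ : RU q // ζ ≠ 1}, epsU hM ζ.2 f := by
  classical
  rw [norm_al2 hqf.out hM f, ← Finset.mul_prod_erase _ _ (Finset.mem_univ (1 : RU q)), emb2_one]
  congr 1
  refine Finset.prod_bij' (fun ζ h => ⟨ζ, (Finset.mem_erase.1 h).1⟩) (fun ζ _ => ζ.1) ?_ ?_ ?_ ?_ ?_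
  · intro a ha; exact Finset.mem_univ _
  · intro a _; exact Finset.mem_erase.2 ⟨a.2, Finset.mem_univ _⟩
  · intro a ha; rfl
  · intro a ha; rfl
  · intro a ha; exact emb2_ne' f

/-- traces along `al2` -/
theorem trace_al2' (hM : ¬ q ∣ M) (f : FB (M * q * q)) :
    ((traceR (al2 M q : FB (M * q) →+* FB (M * q * q)) f : FB (M * q)) : LaurentSeries Qb) =
      (f : LaurentSeries Qb) + ∑ ζ : {ζ : RU q // ζ ≠ 1}, epsU hM ζ.2 f := by
  classical
  have h1 := (fullEmb2 hqf.out hM).trace f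
  refine h1.trans ?_
  rw [← Finset.add_sum_erase _ _ (Finset.mem_univ (1 : RU q)), emb2_one]
  congr 1
  refine Finset.sum_bij' (fun ζ h => ⟨ζ, (Finset.mem_erase.1 h).1⟩) (fun ζ _ => ζ.1) ?_ ?_ ?_ ?_ ?_
  · intro a ha; exact Finset.mem_univ _
  · intro a _; exact Finset.mem_erase.2 ⟨a.2, Finset.mem_univ _⟩
  · intro a ha; rfl
  · intro a ha; rfl
  · intro a ha; exact emb2_ne' f

theorem card_RU_ne : Fintype.card {ζ : RU q // ζ ≠ 1} = q - 1 := by
  classical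
  rw [Fintype.card_subtype_compl, card_RU, Fintype.card_subtype_eq]

theorem coeffEmb_jq_eq' : coeffEmb Qb jq = jqModC Qb := by
  rw [coeffEmb, ← jqModC_rat, ModFn.coeffMap_jqModC]

theorem good_jq (A : ValuationSubring Qb) : Good A (coeffEmb Qb jq) := by
  rw [coeffEmb_jq_eq', ← ModFn.coeffMap_jqModC (Int.castRingHom Qb)]
  exact Good.of_int _

theorem good_qExpand_jq (A : ValuationSubring Qb) (N : ℕ) [NeZero N] :
    Good A (qExpand Qb N (coeffEmb Qb jq)) := by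
  rw [coeffEmb_jq_eq', ← ModFn.coeffMap_jqModC (Int.castRingHom Qb), ← ModFn.coeffMap_qExpand]
  exact Good.of_int _

/-- `FB N` consists of quotients of good series -/
theorem goodSub_FB (A : ValuationSubring Qb) (N : ℕ) [NeZero N] :
    goodSub A ((FB N).val : FB N →+* LaurentSeries Qb) = ⊤ := by
  have : Algebra.IsAlgebraic ℚ Qb := AlgebraicClosure.isAlgebraic ℚ
  refine eq_top_of_gen modularFieldInputsBar _ ?_ ?_ ?_
  · intro a
    exact mem_goodSub_of (Good.const a)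
  · intro x hx
    apply mem_goodSub_of
    have : ((FB N).val : FB N →+* LaurentSeries Qb) x = (x : LaurentSeries Qb) := rfl
    rw [this, hx]
    exact good_jq A
  · intro x hx
    apply mem_goodSub_of
    have : ((FB N).val : FB N →+* LaurentSeries Qb) x = (x : LaurentSeries Qb) := rfl
    rw [this, hx]
    exact good_qExpand_jq A N

theorem root_mem (hA : A.LiesOverPrime q) (hπ : ∀ a : A, π a = 0 ↔ ¬ IsUnit a) {ζ : Qbˣ}
    (hζ : ζ ^ q = 1) : (ζ : Qb) ∈ A ∧ (ζ : Qb)⁻¹ ∈ A := by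
  obtain ⟨ζA, h1, -⟩ := exists_unit_root hA hπ hζ
  obtain ⟨ζA', h1', -⟩ := exists_unit_root hA hπ (ζ := ζ⁻¹) (by rw [inv_pow, hζ, inv_one])
  constructor
  · rw [← h1]; exact (ζA : A).2
  · rw [← Units.val_inv_eq_inv_val, ← h1']; exact (ζA' : A).2

theorem goodSub_epsU (hA : A.LiesOverPrime q) (hπ : ∀ a : A, π a = 0 ↔ ¬ IsUnit a) (hM : ¬ q ∣ M)
    {ζ : RU q} (h : ζ ≠ 1) :
    goodSub A (epsU hM h : FB (M * q * q) →+* LaurentSeries Qb) = ⊤ := by
  have : Algebra.IsAlgebraic ℚ Qb := AlgebraicClosure.isAlgebraic ℚ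
  apply gen2 M q
  · intro x
    have hx : x ∈ goodSub A ((FB (M * q)).val : FB (M * q) →+* LaurentSeries Qb) := by
      rw [goodSub_FB]; trivial
    obtain ⟨r, s, hs, rfl, hr, hs'⟩ := hx
    refine ⟨al2 M q r, al2 M q s, ?_, map_div₀ _ _ _, ?_, ?_⟩
    · rw [Ne, map_eq_zero]; exact hs
    · have h1 : (epsU hM h : FB (M * q * q) →+* LaurentSeries Qb) (al2 M q r) = r := epsU_al (hM := hM) (h := h) r
      rw [h1]; exact hr
    · have h1 : (epsU hM h : FB (M * q * q) →+* LaurentSeries Qb) (al2 M q s) = s := epsU_al (hM := hM) (h := h) s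
      rw [h1]; exact hs'
  · apply mem_goodSub_of
    have h1 : (epsU hM h : FB (M * q * q) →+* LaurentSeries Qb) (be2 M q (be1 M q (jM M))) =
      twist (ζ : Qbˣ) (jM M : LaurentSeries Qb) := epsU_be_be (hM := hM) (h := h) _
    rw [h1, coe_jM]
    have h2 := root_mem (π := π) hA hπ (RU.pow ζ)
    exact (good_qExpand_jq A M).twist h2.1 h2.2

theorem gaussField_epsU (hA : A.LiesOverPrime q) (hπ : ∀ a : A, π a = 0 ↔ ¬ IsUnit a) (hM : ¬ q ∣ M)
    {ζ : RU q} (h : ζ ≠ 1) : GaussField π (epsU hM h).fieldRange := by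
  have : Algebra.IsAlgebraic ℚ Qb := AlgebraicClosure.isAlgebraic ℚ
  exact gaussField_of_goodSub hqf.out hA _ (goodSub_epsU hA hπ hM h)

/-! ### idempotent-like elements -/

/-- `≡ 1` at `∞`, `≡ 0` at the middle and at `0` -/
def eI2 (hM : ¬ q ∣ M) : FB (M * q * q) := be2 M q (eI hM)

/-- `≡ 1` at `0`, `≡ 0` at the middle and at `∞` -/
def eZ2 (hM : ¬ q ∣ M) : FB (M * q * q) := al2 M q (w1 hqf.out hM (eI hM))

theorem w2_eZ2 (hM : ¬ q ∣ M) : w2 hqf.out hM (eZ2 hM) = eI2 hM := by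
  rw [eZ2, w2_al, w1_w1, eI2]

theorem w2_eI2 (hM : ¬ q ∣ M) : w2 hqf.out hM (eI2 hM) = eZ2 hM := by
  rw [← w2_eZ2, w2_w2]

theorem gRed_eI2 [CharP k q] (hM : ¬ q ∣ M) : GRed π (eI2 hM : LaurentSeries Qb) 1 := by
  have := gRed_be2 (M := M) (q := q) (gRed_eI (π := π) hM)
  rw [map_one] at this
  exact this

theorem gRed_eZ2 [CharP k q] (hM : ¬ q ∣ M) : GRed π (eZ2 hM : LaurentSeries Qb) 0 :=
  gRed_al2 (gRed_w1_eI (π := π) hM)

theorem gRed_w2_eI2 [CharP k q] (hM : ¬ q ∣ M) : GRed π (w2 hqf.out hM (eI2 hM) : LaurentSeries Qb) 0 := by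
  rw [w2_eI2]; exact gRed_eZ2 hM

theorem gRed_w2_eZ2 [CharP k q] (hM : ¬ q ∣ M) : GRed π (w2 hqf.out hM (eZ2 hM) : LaurentSeries Qb) 1 := by
  rw [w2_eZ2]; exact gRed_eI2 hM

theorem gRed_eps_eZ2 [CharP k q] {hM : ¬ q ∣ M} {ζ : RU q} (h : ζ ≠ 1) : GRed π (epsU hM h (eZ2 hM)) 0 := by
  rw [eZ2, epsU_al]; exact gRed_w1_eI hM

theorem gRed_eps_eI2 (hA : A.LiesOverPrime q) (hπ : ∀ a : A, π a = 0 ↔ ¬ IsUnit a) {hM : ¬ q ∣ M}
    {ζ : RU q} (h : ζ ≠ 1) : GRed π (epsU hM h (eI2 hM)) 0 := by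
  have := charP_of_liesOverPrime hA hπ
  rw [eI2, epsU_be]
  exact gRed_twist_root hA hπ (RU.pow ζ) (gRed_w1_eI hM)

/-- `≡ 1` at the middle, `≡ 0` at `0` and at `∞` -/
def eM2 (hM : ¬ q ∣ M) : FB (M * q * q) := 1 - eI2 hM - eZ2 hM

theorem gRed_eM2 [CharP k q] (hM : ¬ q ∣ M) : GRed π (eM2 hM : LaurentSeries Qb) 0 := by
  have h1 := gRed_sub (gRed_sub (gRed_one π) (gRed_eI2 (M := M) (q := q) (π := π) hM))
    (gRed_eZ2 (M := M) (q := q) (π := π) hM)
  rw [sub_self, sub_zero] at h1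
  exact h1

theorem w2_eM2 (hM : ¬ q ∣ M) : w2 hqf.out hM (eM2 hM) = eM2 hM := by
  rw [eM2, map_sub, map_sub, map_one, w2_eI2, w2_eZ2]; ring

theorem gRed_eps_eM2 (hA : A.LiesOverPrime q) (hπ : ∀ a : A, π a = 0 ↔ ¬ IsUnit a) {hM : ¬ q ∣ M}
    {ζ : RU q} (h : ζ ≠ 1) : GRed π (epsU hM h (eM2 hM)) 1 := by
  have := charP_of_liesOverPrime hA hπ
  have h1 := gRed_sub (gRed_sub (gRed_one π) (gRed_eps_eI2 (M := M) (q := q) (hM := hM) hA hπ h))
    (gRed_eps_eZ2 (M := M) (q := q) (π := π) (hM := hM) h)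
  rw [sub_zero, sub_zero] at h1
  rw [eM2, map_sub, map_sub, map_one]
  exact h1

/-- **residue field at `∞`, level two** -/
theorem mem_of_gRed_level2 (hA : A.LiesOverPrime q) (hπ : ∀ a : A, π a = 0 ↔ ¬ IsUnit a)
    (hs : Function.Surjective π) (hM : ¬ q ∣ M) {f : FB (M * q * q)} {z : LaurentSeries k}
    (h : GRed π (f : LaurentSeries Qb) z) : z ∈ modularFunctionFieldFullC k M := by
  classical
  have hch := charP_of_liesOverPrime hA hπ
  have hN : ∀ ζ : {ζ : RU q // ζ ≠ 1}, ∃ N : ℕ, ∀ n ≥ N, GRed π (epsU hM ζ.2 f * (epsU hM ζ.2 (eI2 hM)) ^ n) 0 :=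
    fun ζ => exists_gRed_zero_mul hA hπ (gaussField_epsU hA hπ hM ζ.2) ⟨f, rfl⟩ ⟨_, rfl⟩
      (gRed_eps_eI2 hA hπ ζ.2)
  choose N hN using hN
  set n := ∑ ζ, N ζ with hn
  set g : FB (M * q * q) := f * eI2 hM ^ n with hg
  have h1 : GRed π (g : LaurentSeries Qb) z := by
    have := h.mul (gRed_pow (gRed_eI2 (π := π) hM) n)
    rw [one_pow, mul_one] at this
    exact this
  have h2 : ∀ ζ : {ζ : RU q // ζ ≠ 1}, GRed π (epsU hM ζ.2 g) 0 := by
    intro ζ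
    rw [hg, map_mul, map_pow]
    exact hN ζ n (Finset.single_le_sum (f := N) (fun _ _ => Nat.zero_le _) (Finset.mem_univ ζ))
  have h3 := h1.add (gRed_sum (Finset.univ : Finset {ζ : RU q // ζ ≠ 1}) (fun ζ _ => h2 ζ))
  rw [← trace_al2' hM g, Finset.sum_const_zero, add_zero] at h3
  exact mem_of_gRed_level1 hA hπ hs hM h3

variable (M q) in
/-- **(V1)** the reduction of `X₀(M q²)` at `∞` -/
def rInf2 (hA : A.LiesOverPrime q) (hπ : ∀ a : A, π a = 0 ↔ ¬ IsUnit a)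
    (hs : Function.Surjective π) (hM : ¬ q ∣ M) :
    ConstRed A π (FB (M * q * q)) (modularFunctionFieldFullC k M) :=
  gaussConstRed (gaussFB hA (M * q * q)) hπ _
    (fun f z hf h => mem_of_gRed_level2 hA hπ hs hM (f := ⟨f, hf⟩) h)
    (fun z hz => by
      obtain ⟨f, hf, hz⟩ := exists_lift_level1 hA hπ hs hM hz
      exact ⟨(al2 M q ⟨f, hf⟩ : LaurentSeries Qb), (al2 M q ⟨f, hf⟩).2, gRed_al2 hz⟩)

variable (M q) in
/-- **(V3)** the reduction of `X₀(M q²)` at `0` -/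
def rZero2 (hA : A.LiesOverPrime q) (hπ : ∀ a : A, π a = 0 ↔ ¬ IsUnit a)
    (hs : Function.Surjective π) (hM : ¬ q ∣ M) :
    ConstRed A π (FB (M * q * q)) (modularFunctionFieldFullC k M) :=
  comapRed (rInf2 M q hA hπ hs hM) (w2 hqf.out hM)

/-- the residue field of the middle components -/
def kapMid (π : A →+* k) (hs : Function.Surjective π) (hM : ¬ q ∣ M) {ζ : RU q} (h : ζ ≠ 1) :
    IntermediateField k (LaurentSeries k) :=
  gaussRes π (epsU hM h).fieldRange hs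

/-- **(V4)** the reduction of `X₀(M q²)` on a middle component -/
def rMid (hA : A.LiesOverPrime q) (hπ : ∀ a : A, π a = 0 ↔ ¬ IsUnit a)
    (hs : Function.Surjective π) (hM : ¬ q ∣ M) {ζ : RU q} (h : ζ ≠ 1) :
    ConstRed A π (FB (M * q * q)) (kapMid π hs hM h) :=
  embRed (epsU hM h) (gaussField_epsU hA hπ hM h) hπ hs

section API

variable {hA : A.LiesOverPrime q} {hπ : ∀ a : A, π a = 0 ↔ ¬ IsUnit a}
    {hs : Function.Surjective π} {hM : ¬ q ∣ M}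

theorem isRed_rInf2 {f : FB (M * q * q)} {z : modularFunctionFieldFullC k M} :
    (rInf2 M q hA hπ hs hM).IsRed f z ↔ GRed π (f : LaurentSeries Qb) z :=
  gaussConstRed_isRed

theorem isRed_rZero2 {f : FB (M * q * q)} {z : modularFunctionFieldFullC k M} :
    (rZero2 M q hA hπ hs hM).IsRed f z ↔ (rInf2 M q hA hπ hs hM).IsRed (w2 hqf.out hM f) z :=
  comapRed_isRed

theorem isRed_rZero2_w2 {f : FB (M * q * q)} {z : modularFunctionFieldFullC k M} :
    (rZero2 M q hA hπ hs hM).IsRed (w2 hqf.out hM f) z ↔ (rInf2 M q hA hπ hs hM).IsRed f z := by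
  rw [isRed_rZero2, w2_w2]

theorem mem_rZero2 {f : FB (M * q * q)} :
    f ∈ (rZero2 M q hA hπ hs hM).O ↔ w2 hqf.out hM f ∈ (rInf2 M q hA hπ hs hM).O := Iff.rfl

theorem mem_rInf2 {f : FB (M * q * q)} :
    f ∈ (rInf2 M q hA hπ hs hM).O ↔ ∃ z, GRed π (f : LaurentSeries Qb) z := Iff.rfl

theorem mem_rInf1 {f : FB (M * q)} :
    f ∈ (rInf1 M q hA hπ hs hM).O ↔ ∃ z, GRed π (f : LaurentSeries Qb) z := Iff.rfl

theorem isRed_rMid {ζ : RU q} {h : ζ ≠ 1} {f : FB (M * q * q)} {z : kapMid π hs hM h} :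
    (rMid hA hπ hs hM h).IsRed f z ↔ GRed π (epsU hM h f) z := isRed_embRed

theorem mem_rMid {ζ : RU q} {h : ζ ≠ 1} {f : FB (M * q * q)} :
    f ∈ (rMid hA hπ hs hM h).O ↔ ∃ z, GRed π (epsU hM h f) z := mem_embRed

/-- `kap ⊆ kapMid` -/
theorem kap_le_kapMid (hA : A.LiesOverPrime q) (hπ : ∀ a : A, π a = 0 ↔ ¬ IsUnit a)
    (hs : Function.Surjective π) (hM : ¬ q ∣ M) {ζ : RU q} (h : ζ ≠ 1) :
    modularFunctionFieldFullC k M ≤ kapMid π hs hM h := by
  intro z hz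
  obtain ⟨f, hf, hz⟩ := exists_lift_level1 hA hπ hs hM hz
  refine ⟨epsU hM h (al2 M q ⟨f, hf⟩), ⟨_, rfl⟩, ?_⟩
  rw [epsU_al]
  exact hz

end API

end Fermat.Agent.QVal
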