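import Fermat.Agent.QVal.LevelTwo

/-!
# The constant reductions of `X₀(M q²)` at `q`: norms and completeness
-/

set_option autoImplicit false
set_option linter.unusedSectionVars false
set_option linter.style.haveILetI false
set_option linter.unusedVariables false

noncomputable section
open AlgebraicCurve ModularCurve IntermediateField Fermat.Agent.JZ Polynomial Fermat.Agent.Red

namespace Fermat.Agent.QVal

open ModFn

local notation "Qb" => AlgebraicClosure ℚ

variable {k : Type*} [Field k] {A : ValuationSubring Qb} {π : A →+* k} {M q : ℕ} [NeZero M] [NeZero q]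
  [hqf : Fact q.Prime]

theorem ev_algHom {K F F' R : Type*} [Field K] [Field F] [Algebra K F] [Field F'] [Algebra K F']
    [CommRing R] [Algebra R K] (α : F →ₐ[K] F') (x : F) (u : R[X]) :
    α (QComp.ev K R x u) = QComp.ev K R (α x) u := by
  rw [QComp.ev_eq_aeval, QComp.ev_eq_aeval, aeval_algHom_apply]

theorem overGauss_comap {K F F' : Type*} [Field K] {A : ValuationSubring K} [Field F] [Algebra K F]
    [Field F'] [Algebra K F'] (α : F →ₐ[K] F') {x : F} {V : ValuationSubring F'}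
    (hV : QComp.OverGauss K A (α x) V) : QComp.OverGauss K A x (V.comap (α : F →+* F')) where
  mem_iff a := by
    rw [ValuationSubring.mem_comap]
    have : (α : F →+* F') (algebraMap K F a) = algebraMap K F' a := α.commutes a
    rw [this]
    exact hV.mem_iff a
  mem := hV.mem
  inv_mem u hu := by
    rw [ValuationSubring.mem_comap]
    have h1 := hV.inv_mem u hu
    have h2 : (α : F →+* F') (QComp.ev K A x u)⁻¹ = (QComp.ev K A (α x) u)⁻¹ := by
      rw [map_inv₀]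
      congr 1
      exact ev_algHom α x u
    rw [h2]
    exact h1

theorem natCast_mem_nonunits {k : Type*} [Field k] {A : ValuationSubring Qb} {π : A →+* k} {q : ℕ}
    (hq : q.Prime) (hA : A.LiesOverPrime q) {F Fk : Type*} [Field F] [Algebra Qb F] [Field Fk] [Algebra k Fk]
    (R : ConstRed A π F Fk) : ((q : ℕ) : F) ∈ R.O.nonunits := by
  rw [Frob.mem_nonunits_iff_inv]
  right
  intro h1
  have h2 : algebraMap Qb F ((q : Qb)⁻¹) ∈ R.O := by
    rw [map_inv₀, map_natCast]; exact h1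
  rw [R.algebraMap_mem_iff] at h2
  have h3 := (Frob.mem_nonunits_iff_inv A).1 hA
  rcases h3 with h3 | h3
  · exact hq.ne_zero (by exact_mod_cast h3)
  · exact h3 h2

/-- the embeddings over `be2` -/
def emb3 (M q : ℕ) [NeZero M] [NeZero q] : RU q → (FB (M * q * q) →+* LaurentSeries Qb) := fun ζ =>
  (twist (ζ : Qbˣ)).comp ((FB (M * q * q)).val : FB (M * q * q) →+* LaurentSeries Qb)

/-- the base embedding for `be2` -/
def base3 (M q : ℕ) [NeZero M] [NeZero q] : FB (M * q) →+* LaurentSeries Qb :=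
  (qExpand Qb q).comp ((FB (M * q)).val : FB (M * q) →+* LaurentSeries Qb)

theorem finrank_be2 (hM : ¬ q ∣ M) :
    @Module.finrank (FB (M * q)) (FB (M * q * q)) _ _ (be2 M q : FB (M * q) →+* FB (M * q * q)).toAlgebra.toModule = q := by
  have h1 := @Algebra.finrank_eq_of_equiv_equiv (FB (M * q)) (FB (M * q * q)) _ _
    (al2 M q : FB (M * q) →+* FB (M * q * q)).toAlgebra (FB (M * q)) (FB (M * q * q)) _ _
    (be2 M q : FB (M * q) →+* FB (M * q * q)).toAlgebra (w1 hqf.out hM).toRingEquiv (w2 hqf.out hM).toRingEquiv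
    (RingHom.ext fun x => (w2_al hqf.out hM x).symm)
  rw [← h1]
  exact finrank_al2 hqf.out

/-- **embeddings for `be2`** -/
theorem fullEmb3 (hM : ¬ q ∣ M) : FullEmb (be2 M q : FB (M * q) →+* FB (M * q * q)) (base3 M q) (emb3 M q) where
  comm a x := by
    change twist (a : Qbˣ) (be2 M q x : LaurentSeries Qb) = qExpand Qb q (x : LaurentSeries Qb)
    rw [coe_be2, ESh.twist_qExpand _ (RU.pow a)]
  inj := by
    intro a b hab
    have h1 := DFunLike.congr_fun hab (al2 M q (al1 M q (jM M)))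
    have h2 := congrArg (fun s => HahnSeries.coeff s (-(M : ℤ))) h1
    have hs : ∀ ζ : RU q, (emb3 M q ζ (al2 M q (al1 M q (jM M)))).coeff (-(M : ℤ)) =
        (((ζ : Qbˣ) ^ (-(M : ℤ)) : Qbˣ) : Qb) := by
      intro ζ
      change (twist (ζ : Qbˣ) (al2 M q (al1 M q (jM M)) : LaurentSeries Qb)).coeff (-(M : ℤ)) = _
      rw [coe_al2, coe_al1, coeff_twist_jM]
    simp only [hs] at h2
    exact Subtype.ext (zpow_inj hqf.out hM (RU.pow a) (RU.pow b) (Units.ext h2))
  pos := Fintype.card_pos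
  card := by rw [card_RU]; exact finrank_be2 hM

theorem qExpand_norm_be2 (hM : ¬ q ∣ M) (f : FB (M * q * q)) :
    qExpand Qb q (normAlong (be2 M q) f : LaurentSeries Qb) =
      ∏ ζ : RU q, twist (ζ : Qbˣ) (f : LaurentSeries Qb) :=
  (fullEmb3 hM).norm f

/-- **(V6)** norm along `al2` at `∞` -/
theorem gRed_norm_al2 (hM : ¬ q ∣ M) {f : FB (M * q * q)} {a : LaurentSeries k}
    {b : {ζ : RU q // ζ ≠ 1} → LaurentSeries k} (ha : GRed π (f : LaurentSeries Qb) a)
    (hb : ∀ ζ, GRed π (epsU hM ζ.2 f) (b ζ)) :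
    GRed π (normAlong (al2 M q) f : LaurentSeries Qb) (a * ∏ ζ, b ζ) := by
  rw [norm_al2' hM f]
  exact ha.mul (gRed_prod _ fun ζ _ => hb ζ)

theorem gRed_norm_al2' (hM : ¬ q ∣ M) {f : FB (M * q * q)} {a b : LaurentSeries k}
    (ha : GRed π (f : LaurentSeries Qb) a)
    (hb : ∀ (ζ : RU q) (h : ζ ≠ 1), GRed π (epsU hM h f) b) :
    GRed π (normAlong (al2 M q) f : LaurentSeries Qb) (a * b ^ (q - 1)) := by
  have := gRed_norm_al2 hM ha (b := fun _ => b) (fun ζ => hb ζ.1 ζ.2)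
  rwa [Finset.prod_const, Finset.card_univ, card_RU_ne] at this

section

variable {hA : A.LiesOverPrime q} {hπ : ∀ a : A, π a = 0 ↔ ¬ IsUnit a}
    {hs : Function.Surjective π} {hM : ¬ q ∣ M}

/-- **(V6)** norm along `be2` at `∞` -/
theorem isRed_norm_be2_inf [CharP k q] {f : FB (M * q * q)} {a : modularFunctionFieldFullC k M}
    (ha : (rInf2 M q hA hπ hs hM).IsRed f a) :
    (rInf1 M q hA hπ hs hM).IsRed (normAlong (be2 M q) f) (phiK q M a) := by
  rw [isRed_rInf1]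
  rw [isRed_rInf2] at ha
  have h1 := gRed_prod (Finset.univ : Finset (RU q)) (fun ζ _ => gRed_twist_root hA hπ (RU.pow ζ) ha)
  rw [← qExpand_norm_be2 hM f, Finset.prod_const, Finset.card_univ, card_RU, pow_eq_phiK] at h1
  obtain ⟨z', hz', hzz⟩ := gRed_of_qExpand (gaussFB hA (M * q)) hπ q (normAlong (be2 M q) f).2 h1
  have hz : z' = _ := qExpand_injective (R := k) q hzz
  rw [hz] at hz'
  exact hz'

/-- **(V6)** norm along `al2` at `∞` -/
theorem isRed_norm_al2_inf {f : FB (M * q * q)} {a b : modularFunctionFieldFullC k M}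
    (ha : (rInf2 M q hA hπ hs hM).IsRed f a)
    (hb : ∀ (ζ : RU q) (h : ζ ≠ 1), GRed π (epsU hM h f) b) :
    (rInf1 M q hA hπ hs hM).IsRed (normAlong (al2 M q) f) (a * b ^ (q - 1)) := by
  rw [isRed_rInf1]
  exact gRed_norm_al2' hM (isRed_rInf2.1 ha) hb

theorem w1_norm_al2 (f : FB (M * q * q)) :
    w1 hqf.out hM (normAlong (al2 M q) f) = normAlong (be2 M q) (w2 hqf.out hM f) :=
  (normAlong_be2 hqf.out hM f).symm

theorem w1_norm_be2 (f : FB (M * q * q)) :
    w1 hqf.out hM (normAlong (be2 M q) f) = normAlong (al2 M q) (w2 hqf.out hM f) := by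
  have h1 := normAlong_be2 hqf.out hM (w2 hqf.out hM f)
  rw [w2_w2] at h1
  rw [h1, w1_w1]

/-- **(V6)** norm along `al2` at `0` -/
theorem isRed_norm_al2_zero [CharP k q] {f : FB (M * q * q)} {c : modularFunctionFieldFullC k M}
    (hc : (rZero2 M q hA hπ hs hM).IsRed f c) :
    (rZero1 M q hA hπ hs hM).IsRed (normAlong (al2 M q) f) (phiK q M c) := by
  rw [isRed_rZero1, w1_norm_al2]
  exact isRed_norm_be2_inf (isRed_rZero2.1 hc)

/-- the middle reductions and `w2` -/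
theorem gRed_eps_w2 (hA : A.LiesOverPrime q) (hπ : ∀ a : A, π a = 0 ↔ ¬ IsUnit a) {ζ : RU q} (h : ζ ≠ 1)
    {f : FB (M * q * q)} {z : LaurentSeries k} (hz : GRed π (epsU hM (inv_ne_one' h) f) z) :
    GRed π (epsU hM h (w2 hqf.out hM f)) z := by
  rw [epsU_w2]
  exact gRed_twist_root hA hπ (RU.pow ζ) hz

/-- **(V6)** norm along `be2` at `0` -/
theorem isRed_norm_be2_zero {f : FB (M * q * q)} {c b : modularFunctionFieldFullC k M}
    (hc : (rZero2 M q hA hπ hs hM).IsRed f c)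
    (hb : ∀ (ζ : RU q) (h : ζ ≠ 1), GRed π (epsU hM h f) b) :
    (rZero1 M q hA hπ hs hM).IsRed (normAlong (be2 M q) f) (c * b ^ (q - 1)) := by
  rw [isRed_rZero1, w1_norm_be2]
  exact isRed_norm_al2_inf (isRed_rZero2.1 hc) (fun ζ h => gRed_eps_w2 hA hπ h (hb _ _))

/-! ### reductions of the pull-backs -/

theorem isRed_inf2_al2 {f : FB (M * q)} {z : modularFunctionFieldFullC k M}
    (h : (rInf1 M q hA hπ hs hM).IsRed f z) : (rInf2 M q hA hπ hs hM).IsRed (al2 M q f) z := by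
  rw [isRed_rInf2]; exact gRed_al2 (isRed_rInf1.1 h)

theorem isRed_inf2_be2 [CharP k q] {f : FB (M * q)} {w : modularFunctionFieldFullC k M}
    (h : (rInf1 M q hA hπ hs hM).IsRed f (phiK q M w)) :
    (rInf2 M q hA hπ hs hM).IsRed (be2 M q f) (w ^ q) := by
  rw [isRed_rInf2]
  have h1 := gRed_be2 (isRed_rInf1.1 h)
  rw [← pow_eq_phiK] at h1
  exact h1

theorem isRed_zero2_be2 {f : FB (M * q)} {z : modularFunctionFieldFullC k M}
    (h : (rZero1 M q hA hπ hs hM).IsRed f z) : (rZero2 M q hA hπ hs hM).IsRed (be2 M q f) z := by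
  rw [isRed_rZero2, w2_be]; exact isRed_inf2_al2 (isRed_rZero1.1 h)

theorem isRed_zero2_al2 [CharP k q] {f : FB (M * q)} {w : modularFunctionFieldFullC k M}
    (h : (rZero1 M q hA hπ hs hM).IsRed f (phiK q M w)) :
    (rZero2 M q hA hπ hs hM).IsRed (al2 M q f) (w ^ q) := by
  rw [isRed_rZero2, w2_al]; exact isRed_inf2_be2 (isRed_rZero1.1 h)

theorem gRed_mid_al2 {ζ : RU q} {h : ζ ≠ 1} {f : FB (M * q)} {z : LaurentSeries k}
    (hz : GRed π (f : LaurentSeries Qb) z) : GRed π (epsU hM h (al2 M q f)) z := by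
  rw [epsU_al]; exact hz

theorem gRed_mid_be2 (hA : A.LiesOverPrime q) (hπ : ∀ a : A, π a = 0 ↔ ¬ IsUnit a) {ζ : RU q} {h : ζ ≠ 1}
    {f : FB (M * q)} {z : LaurentSeries k}
    (hz : GRed π (w1 hqf.out hM f : LaurentSeries Qb) z) : GRed π (epsU hM h (be2 M q f)) z := by
  rw [epsU_be]; exact gRed_twist_root hA hπ (RU.pow ζ) hz

/-! ### the list of valuations -/

theorem isRed_inf2_jB : (rInf2 M q hA hπ hs hM).IsRed (al2 M q (al1 M q (jB M))) (RedQ.xj k M) :=
  isRed_inf2_al2 (isRed_inf_al1 isRed_jB)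

theorem isRed_zero2_jB [CharP k q] :
    (rZero2 M q hA hπ hs hM).IsRed (al2 M q (al1 M q (jB M))) (RedQ.xj k M ^ (q * q)) := by
  rw [pow_mul]
  refine isRed_zero2_al2 ?_
  rw [map_pow, phiK_xj]
  exact isRed_zero_al1_jB

theorem overGauss_rInf2 : QComp.OverGauss Qb A (al2 M q (al1 M q (jB M))) (rInf2 M q hA hπ hs hM).O :=
  overGauss_of_red isRed_inf2_jB (RedQ.transcendental_xj k M) hπ

theorem overGauss_rZero2 : QComp.OverGauss Qb A (al2 M q (al1 M q (jB M))) (rZero2 M q hA hπ hs hM).O := by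
  have := charP_of_liesOverPrime hA hπ
  exact overGauss_of_red isRed_zero2_jB ((RedQ.transcendental_xj k M).pow (Nat.mul_pos hqf.out.pos hqf.out.pos)) hπ

theorem jq_mem_kapMid (hA : A.LiesOverPrime q) (hπ : ∀ a : A, π a = 0 ↔ ¬ IsUnit a)
    (hs : Function.Surjective π) (hM : ¬ q ∣ M) {ζ : RU q} (h : ζ ≠ 1) : jqModC k ∈ kapMid π hs hM h :=
  kap_le_kapMid hA hπ hs hM h (RedQ.xj k M).2

theorem overGauss_rMid {ζ : RU q} {h : ζ ≠ 1} :
    QComp.OverGauss Qb A (al2 M q (al1 M q (jB M))) (rMid hA hπ hs hM h).O := by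
  refine overGauss_of_red (xb := ⟨jqModC k, jq_mem_kapMid hA hπ hs hM h⟩) ?_ ?_ hπ
  · rw [isRed_rMid, epsU_al, coe_al1]
    exact gRed_jB M
  · intro h1
    exact transcendental_jqModC k (h1.algebraMap (A := LaurentSeries k))

/-- elements of `rInf2.O ∩ ⋂ rMid.O` are integral over `rInf1.O` -/
theorem exists_monic_inf2 {f : FB (M * q * q)} (h1 : f ∈ (rInf2 M q hA hπ hs hM).O)
    (h2 : ∀ (ζ : RU q) (h : ζ ≠ 1), f ∈ (rMid hA hπ hs hM h).O) : ∃ χ : (FB (M * q))[X], χ.Monic ∧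
      χ.eval₂ (al2 M q : FB (M * q) →+* FB (M * q * q)) f = 0 ∧ ∀ n, χ.coeff n ∈ (rInf1 M q hA hπ hs hM).O := by
  obtain ⟨χ, hχ, hχ0, hχm⟩ := (fullEmb2 hqf.out hM).exists_charpoly f
  refine ⟨χ, hχ, hχ0, fun n => ?_⟩
  rw [mem_rInf1]
  have h4 := congrArg (fun p => p.coeff n) hχm
  simp only [coeff_map] at h4
  have h5 : ((FB (M * q)).val : FB (M * q) →+* LaurentSeries Qb) (χ.coeff n) =
    ((χ.coeff n : FB (M * q)) : LaurentSeries Qb) := rfl
  rw [← h5, h4]
  refine coeff_prod_mem (gaussS π) _ _ (fun ζ _ => ?_) n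
  by_cases h : ζ = 1
  · rw [h, emb2_one]; exact h1
  · rw [emb2_ne' (h := h)]; exact mem_rMid.1 (h2 ζ h)

/-- elements of `rZero2.O` are integral over `rZero1.O` -/
theorem exists_monic_zero2 {f : FB (M * q * q)} (h1 : f ∈ (rZero2 M q hA hπ hs hM).O) :
    ∃ χ : (FB (M * q))[X], χ.Monic ∧
      χ.eval₂ (al2 M q : FB (M * q) →+* FB (M * q * q)) f = 0 ∧ ∀ n, χ.coeff n ∈ (rZero1 M q hA hπ hs hM).O := by
  rw [mem_rZero2, mem_rInf2] at h1
  obtain ⟨z, hz⟩ := h1
  obtain ⟨χ, hχ, hχ0, hχm⟩ := (fullEmb3 hM).exists_charpoly (w2 hqf.out hM f)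
  refine ⟨χ.map (w1 hqf.out hM : FB (M * q) →+* FB (M * q)), hχ.map _, ?_, fun n => ?_⟩
  · rw [eval₂_map]
    have h2 : (al2 M q : FB (M * q) →+* FB (M * q * q)).comp (w1 hqf.out hM : FB (M * q) →+* FB (M * q)) =
        (w2 hqf.out hM : FB (M * q * q) →+* FB (M * q * q)).comp (be2 M q : FB (M * q) →+* FB (M * q * q)) := by
      exact RingHom.ext fun x => (w2_be hqf.out hM x).symm
    rw [h2]
    have h3 : f = (w2 hqf.out hM : FB (M * q * q) →+* FB (M * q * q)) (w2 hqf.out hM f) :=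
      (w2_w2 hqf.out hM f).symm
    conv_lhs => rw [h3]
    rw [← hom_eval₂, hχ0, map_zero]
  · rw [coeff_map, mem_rZero1]
    have h0 : w1 hqf.out hM ((w1 hqf.out hM : FB (M * q) →+* FB (M * q)) (χ.coeff n)) = χ.coeff n :=
      w1_w1 hqf.out hM _
    rw [h0, mem_rInf1]
    have h4 := congrArg (fun p => p.coeff n) hχm
    simp only [coeff_map] at h4
    have h5 : base3 M q (χ.coeff n) = qExpand Qb q ((χ.coeff n : FB (M * q)) : LaurentSeries Qb) := rfl
    rw [h5] at h4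
    have h6 : qExpand Qb q ((χ.coeff n : FB (M * q)) : LaurentSeries Qb) ∈ gaussS π := by
      rw [h4]
      refine coeff_prod_mem (gaussS π) _ _ (fun ζ _ => ?_) n
      exact ⟨_, gRed_twist_root hA hπ (RU.pow ζ) hz⟩
    obtain ⟨w, hw⟩ := h6
    obtain ⟨w', hw', -⟩ := gRed_of_qExpand (gaussFB hA (M * q)) hπ q (χ.coeff n).2 hw
    exact ⟨w', hw'⟩

theorem comap_overGauss {V : ValuationSubring (FB (M * q * q))}
    (hV : QComp.OverGauss Qb A (al2 M q (al1 M q (jB M))) V) :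
    QComp.OverGauss Qb A (al1 M q (jB M)) (V.comap (al2 M q : FB (M * q) →+* FB (M * q * q))) :=
  overGauss_comap (al2 M q) hV

variable (hA hπ hs hM) in
/-- the valuations over `rInf1` -/
def famO : Option {ζ : RU q // ζ ≠ 1} → ValuationSubring (FB (M * q * q))
  | none => (rInf2 M q hA hπ hs hM).O
  | some ζ => (rMid hA hπ hs hM ζ.2).O

theorem famO_nonunits (o : Option {ζ : RU q // ζ ≠ 1}) :
    ((q : ℕ) : FB (M * q * q)) ∈ (famO hA hπ hs hM o).nonunits := by
  cases o with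
  | none => exact natCast_mem_nonunits hqf.out hA (rInf2 M q hA hπ hs hM)
  | some ζ => exact natCast_mem_nonunits hqf.out hA (rMid hA hπ hs hM ζ.2)

theorem mem_V_of_inf {V : ValuationSubring (FB (M * q * q))}
    (hmem : ∀ c, c ∈ (rInf1 M q hA hπ hs hM).O → al2 M q c ∈ V) {f : FB (M * q * q)}
    (hf : ∀ o, f ∈ famO hA hπ hs hM o) : f ∈ V := by
  obtain ⟨χ, hχ, hχ0, hχO⟩ := exists_monic_inf2 (hf none) (fun ζ h => hf (some ⟨ζ, h⟩))
  exact mem_of_monic V _ hχ hχ0 (fun n => hmem _ (hχO n))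

theorem exists_famO_le {V : ValuationSubring (FB (M * q * q))}
    (hmem : ∀ c, c ∈ (rInf1 M q hA hπ hs hM).O → al2 M q c ∈ V) :
    ∃ o, famO hA hπ hs hM o ≤ V :=
  exists_le_of_inter (famO hA hπ hs hM) hqf.out famO_nonunits V (fun x hx => mem_V_of_inf hmem hx)

theorem zero2_le {V : ValuationSubring (FB (M * q * q))}
    (hmem : ∀ c, c ∈ (rZero1 M q hA hπ hs hM).O → al2 M q c ∈ V) : (rZero2 M q hA hπ hs hM).O ≤ V := by
  intro f hf
  obtain ⟨χ, hχ, hχ0, hχO⟩ := exists_monic_zero2 hf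
  exact mem_of_monic V _ hχ hχ0 (fun n => hmem _ (hχO n))

/-- **(V5), level two** -/
theorem eq_level2 {V : ValuationSubring (FB (M * q * q))}
    (hV : QComp.OverGauss Qb A (al2 M q (al1 M q (jB M))) V) :
    V = (rInf2 M q hA hπ hs hM).O ∨ V = (rZero2 M q hA hπ hs hM).O ∨
      ∃ (ζ : RU q) (h : ζ ≠ 1), V = (rMid hA hπ hs hM h).O := by
  have hVA : ∀ a : Qb, algebraMap Qb (FB (M * q * q)) a ∈ V → a ∈ A := by
    intro a ha
    obtain ⟨b, hb⟩ := (hV.mem_iff a).1 ha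
    rw [← hb]; exact b.2
  rcases eq_or_eq_level1 (hA := hA) (hπ := hπ) (hs := hs) (hM := hM) (comap_overGauss hV) with h | h
  · -- over `∞`
    have hmem : ∀ c, c ∈ (rInf1 M q hA hπ hs hM).O → al2 M q c ∈ V := by
      intro c hc
      rw [← h, ValuationSubring.mem_comap] at hc
      exact hc
    obtain ⟨o, ho⟩ := exists_famO_le hmem
    cases o with
    | none => left; exact eq_of_le (rInf2 M q hA hπ hs hM) ho hVA
    | some ζ => right; right; exact ⟨ζ.1, ζ.2, eq_of_le (rMid hA hπ hs hM ζ.2) ho hVA⟩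
  · -- over `0`
    have hmem : ∀ c, c ∈ (rZero1 M q hA hπ hs hM).O → al2 M q c ∈ V := by
      intro c hc
      rw [← h, ValuationSubring.mem_comap] at hc
      exact hc
    right; left
    exact eq_of_le (rZero2 M q hA hπ hs hM) (zero2_le hmem) hVA

/-! ### distinctness -/

theorem eI2_ne_zero (hA : A.LiesOverPrime q) (hπ : ∀ a : A, π a = 0 ↔ ¬ IsUnit a) (hM : ¬ q ∣ M) :
    eI2 hM ≠ (0 : FB (M * q * q)) := by
  have := charP_of_liesOverPrime hA hπ
  intro h
  have h1 := gRed_eI2 (M := M) (q := q) (π := π) hM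
  rw [h] at h1
  exact one_ne_zero (h1.unique (gRed_zero π))

theorem isRed_eI2_inf : (rInf2 M q hA hπ hs hM).IsRed (eI2 hM) 1 := by
  have := charP_of_liesOverPrime hA hπ
  rw [isRed_rInf2]; exact gRed_eI2 hM

theorem isRed_eI2_zero : (rZero2 M q hA hπ hs hM).IsRed (eI2 hM) 0 := by
  have := charP_of_liesOverPrime hA hπ
  rw [isRed_rZero2, isRed_rInf2]; exact gRed_w2_eI2 hM

theorem isRed_eI2_mid {ζ : RU q} {h : ζ ≠ 1} : (rMid hA hπ hs hM h).IsRed (eI2 hM) 0 := by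
  rw [isRed_rMid]; exact gRed_eps_eI2 hA hπ h

theorem isRed_eZ2_inf : (rInf2 M q hA hπ hs hM).IsRed (eZ2 hM) 0 := by
  have := charP_of_liesOverPrime hA hπ
  rw [isRed_rInf2]; exact gRed_eZ2 hM

theorem isRed_eZ2_zero : (rZero2 M q hA hπ hs hM).IsRed (eZ2 hM) 1 := by
  have := charP_of_liesOverPrime hA hπ
  rw [isRed_rZero2, isRed_rInf2]; exact gRed_w2_eZ2 hM

theorem isRed_eZ2_mid {ζ : RU q} {h : ζ ≠ 1} : (rMid hA hπ hs hM h).IsRed (eZ2 hM) 0 := by
  have := charP_of_liesOverPrime hA hπ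
  rw [isRed_rMid]; exact gRed_eps_eZ2 h

theorem rInf2_ne_rZero2 : (rInf2 M q hA hπ hs hM).O ≠ (rZero2 M q hA hπ hs hM).O := by
  intro h
  have h1 := (isRed_eI2_inf (hA := hA) (hπ := hπ) (hs := hs) (hM := hM)).inv one_ne_zero
  have h2 := (isRed_eI2_zero (hA := hA) (hπ := hπ) (hs := hs) (hM := hM)).inv_notMem (eI2_ne_zero hA hπ hM)
  rw [← h] at h2
  exact h2 h1.mem

theorem rInf2_ne_rMid {ζ : RU q} {h : ζ ≠ 1} : (rInf2 M q hA hπ hs hM).O ≠ (rMid hA hπ hs hM h).O := by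
  intro h'
  have h1 := (isRed_eI2_inf (hA := hA) (hπ := hπ) (hs := hs) (hM := hM)).inv one_ne_zero
  have h2 := (isRed_eI2_mid (hA := hA) (hπ := hπ) (hs := hs) (hM := hM) (h := h)).inv_notMem (eI2_ne_zero hA hπ hM)
  rw [← h'] at h2
  exact h2 h1.mem

theorem rZero2_ne_rMid {ζ : RU q} {h : ζ ≠ 1} : (rZero2 M q hA hπ hs hM).O ≠ (rMid hA hπ hs hM h).O := by
  intro h'
  have hne : eZ2 hM ≠ (0 : FB (M * q * q)) := by
    intro h0
    apply eI2_ne_zero hA hπ hM
    rw [← w2_eZ2, h0, map_zero]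
  have h1 := (isRed_eZ2_zero (hA := hA) (hπ := hπ) (hs := hs) (hM := hM)).inv one_ne_zero
  have h2 := (isRed_eZ2_mid (hA := hA) (hπ := hπ) (hs := hs) (hM := hM) (h := h)).inv_notMem hne
  rw [← h'] at h2
  exact h2 h1.mem

end

end Fermat.Agent.QVal
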