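import Mathlib
set_option autoImplicit false
set_option linter.unusedSectionVars false
set_option linter.style.haveILetI false
set_option linter.unusedVariables false

/-!
# Extension of homomorphisms to the top of a square of fields
-/

noncomputable section
open Polynomial IntermediateField

namespace Fermat.Agent.QVal

variable {F0 F1 F2 Ω : Type*} [Field F0] [Field F1] [Field F2] [Field Ω]

/-- **Extension lemma**: `F2` is generated over `α2 F1` by `β2 (β1 y)`, of degree `n`, while `β1 y` is a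
root of a polynomial of degree `n + 1` over `F0`.  Homomorphisms `F2 → Ω` are pairs `(g, g')` of
homomorphisms `F1 → Ω` with `g' ∘ α1 = g ∘ β1` and `g' (β1 y) ≠ g (α1 y)`. -/
theorem exists_lift_square (α1 β1 : F0 →+* F1) (α2 β2 : F1 →+* F2)
    (hsq : ∀ x, α2 (β1 x) = β2 (α1 x)) (w1 : F1 →+* F1) (hwα : ∀ x, w1 (α1 x) = β1 x)
    (hwβ : ∀ x, w1 (β1 x) = α1 x) (y : F0) {n : ℕ} (hn : 0 < n) (P : F0[X]) (hPm : P.Monic)
    (hPd : P.natDegree = n + 1) (hP : P.eval₂ α1 (β1 y) = 0)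
    (gen1 : ∀ S : Subfield F1, (∀ x, α1 x ∈ S) → β1 y ∈ S → S = ⊤)
    (gen2 : ∀ S : Subfield F2, (∀ x, α2 x ∈ S) → β2 (β1 y) ∈ S → S = ⊤)
    (hdeg : @Module.finrank F1 F2 _ _ α2.toAlgebra.toModule = n)
    (hne : β2 (β1 y) ≠ α2 (α1 y))
    (g g' : F1 →+* Ω) (hg : ∀ x, g' (α1 x) = g (β1 x)) (hgne : g' (β1 y) ≠ g (α1 y)) :
    ∃ h : F2 →+* Ω, (∀ x, h (α2 x) = g x) ∧ (∀ x, h (β2 x) = g' x) := by
  letI : Algebra F1 F2 := α2.toAlgebra
  have halg : ∀ x, algebraMap F1 F2 x = α2 x := fun _ => rfl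
  haveI hfin : FiniteDimensional F1 F2 := FiniteDimensional.of_finrank_pos (by rw [hdeg]; exact hn)
  set θ := β2 (β1 y) with hθ
  have hroot : (P.map β1).IsRoot (α1 y) := by
    rw [IsRoot.def, eval_map]
    have h1 : P.eval₂ (w1.comp α1) (w1 (β1 y)) = 0 := by
      rw [← Polynomial.hom_eval₂, hP, map_zero]
    have h2 : w1.comp α1 = β1 := RingHom.ext hwα
    rwa [h2, hwβ] at h1
  obtain ⟨Q, hQ⟩ := dvd_iff_isRoot.mpr hroot
  have hQm : Q.Monic := by
    have h1 : (P.map β1).Monic := hPm.map _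
    rw [hQ] at h1
    exact (monic_X_sub_C (α1 y)).of_mul_monic_left h1
  have hQd : Q.natDegree = n := by
    have h1 := congrArg natDegree hQ
    rw [hPm.natDegree_map, hPd, (monic_X_sub_C _).natDegree_mul hQm, natDegree_X_sub_C] at h1
    omega
  have hQθ : Q.eval₂ α2 θ = 0 := by
    have h1 : (P.map β1).eval₂ α2 θ = 0 := by
      rw [eval₂_map]
      have h2 : α2.comp β1 = β2.comp α1 := RingHom.ext hsq
      rw [h2, hθ, ← Polynomial.hom_eval₂, hP, map_zero]
    rw [hQ, eval₂_mul, eval₂_sub, eval₂_X, eval₂_C] at h1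
    exact (mul_eq_zero.mp h1).resolve_left (sub_ne_zero.mpr hne)
  have hQθ' : aeval θ Q = 0 := hQθ
  have hint : IsIntegral F1 θ := ⟨Q, hQm, hQθ'⟩
  have htop : F1⟮θ⟯ = ⊤ := by
    have h1 : (F1⟮θ⟯).toSubfield = ⊤ := gen2 _ (fun x => (F1⟮θ⟯).algebraMap_mem x)
      (mem_adjoin_simple_self F1 θ)
    rw [eq_top_iff]
    intro x _
    have : x ∈ (F1⟮θ⟯).toSubfield := by rw [h1]; trivial
    exact this
  have hmin : minpoly F1 θ = Q := by
    refine (Polynomial.eq_of_monic_of_dvd_of_natDegree_le (minpoly.monic hint) hQm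
      (minpoly.dvd F1 θ hQθ') ?_).symm
    rw [hQd, ← IntermediateField.adjoin.finrank hint, htop, IntermediateField.finrank_top', hdeg]
  letI : Algebra F1 Ω := g.toAlgebra
  have halg' : ∀ x, algebraMap F1 Ω x = g x := fun _ => rfl
  have hQg : aeval (g' (β1 y)) Q = 0 := by
    have h1 : (P.map β1).eval₂ g (g' (β1 y)) = 0 := by
      rw [eval₂_map]
      have h2 : g.comp β1 = g'.comp α1 := RingHom.ext fun x => (hg x).symm
      rw [h2, ← Polynomial.hom_eval₂, hP, map_zero]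
    rw [hQ, eval₂_mul, eval₂_sub, eval₂_X, eval₂_C] at h1
    exact (mul_eq_zero.mp h1).resolve_left (sub_ne_zero.mpr hgne)
  have hmem : g' (β1 y) ∈ (minpoly F1 θ).aroots Ω := by
    rw [mem_aroots, hmin]
    exact ⟨hQm.ne_zero, hQg⟩
  let φ : F1⟮θ⟯ →ₐ[F1] Ω := (algHomAdjoinIntegralEquiv F1 hint).symm ⟨_, hmem⟩
  have hφ : φ (AdjoinSimple.gen F1 θ) = g' (β1 y) :=
    algHomAdjoinIntegralEquiv_symm_apply_gen F1 hint ⟨_, hmem⟩
  let e : F2 ≃ₐ[F1] F1⟮θ⟯ := (topEquiv (F := F1) (E := F2)).symm.trans (equivOfEq htop.symm)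
  have heθ : e θ = AdjoinSimple.gen F1 θ := Subtype.ext rfl
  let h : F2 →ₐ[F1] Ω := φ.comp e.toAlgHom
  have hα : ∀ x, h (α2 x) = g x := fun x => h.commutes x
  have hθ' : h θ = g' (β1 y) := by
    change φ (e θ) = _
    rw [heθ, hφ]
  refine ⟨h.toRingHom, hα, ?_⟩
  have h3 : RingHom.eqLocusField (h.toRingHom.comp β2) g' = ⊤ := by
    apply gen1
    · intro x
      change h (β2 (α1 x)) = g' (α1 x)
      rw [← hsq, hα, hg]
    · exact hθ'
  intro x
  have h4 : x ∈ RingHom.eqLocusField (h.toRingHom.comp β2) g' := by rw [h3]; trivial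
  exact h4

/-- the minimal polynomial of a generator -/
theorem exists_poly_of_gen (α : F0 →+* F1) (θ : F1) {n : ℕ} (hn : 0 < n)
    (gen : ∀ S : Subfield F1, (∀ x, α x ∈ S) → θ ∈ S → S = ⊤)
    (hdeg : @Module.finrank F0 F1 _ _ α.toAlgebra.toModule = n) :
    ∃ P : F0[X], P.Monic ∧ P.natDegree = n ∧ P.eval₂ α θ = 0 := by
  letI : Algebra F0 F1 := α.toAlgebra
  haveI hfin : FiniteDimensional F0 F1 := FiniteDimensional.of_finrank_pos (by rw [hdeg]; exact hn)
  have hint : IsIntegral F0 θ := Algebra.IsIntegral.isIntegral θ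
  have htop : F0⟮θ⟯ = ⊤ := by
    have h1 : (F0⟮θ⟯).toSubfield = ⊤ := gen _ (fun x => (F0⟮θ⟯).algebraMap_mem x)
      (mem_adjoin_simple_self F0 θ)
    rw [eq_top_iff]
    intro x _
    have : x ∈ (F0⟮θ⟯).toSubfield := by rw [h1]; trivial
    exact this
  refine ⟨minpoly F0 θ, minpoly.monic hint, ?_, minpoly.aeval F0 θ⟩
  rw [← IntermediateField.adjoin.finrank hint, htop, IntermediateField.finrank_top', hdeg]

/-- uniqueness in the extension lemma -/
theorem lift_square_unique (α2 β2 : F1 →+* F2)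
    (gen : ∀ S : Subfield F2, (∀ x, α2 x ∈ S) → (∀ x, β2 x ∈ S) → S = ⊤)
    (h h' : F2 →+* Ω) (h1 : ∀ x, h (α2 x) = h' (α2 x)) (h2 : ∀ x, h (β2 x) = h' (β2 x)) : h = h' := by
  have h3 : RingHom.eqLocusField h h' = ⊤ := gen _ h1 h2
  ext x
  have h4 : x ∈ RingHom.eqLocusField h h' := by rw [h3]; trivial
  exact h4

end Fermat.Agent.QVal
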