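import Fermat.Agent.QVal.Setup
import Fermat.Agent.QVal.Conj
set_option autoImplicit false
set_option linter.unusedSectionVars false
set_option linter.style.haveILetI false
set_option linter.unusedVariables false

/-!
# Norm and trace formulas at levels `M q` and `M q²`
-/

noncomputable section
open AlgebraicCurve ModularCurve IntermediateField Fermat.Agent.JZ Polynomial

namespace Fermat.Agent.QVal

open ModFn

local notation "Qb" => AlgebraicClosure ℚ

variable {M q : ℕ} [NeZero M] [NeZero q] (hq : q.Prime) (hM : ¬ q ∣ M)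

/-- the group of `q`-th roots of unity -/
abbrev RU (q : ℕ) : Subgroup Qbˣ := rootsOfUnity q Qb

instance (q : ℕ) [NeZero q] : Fintype (RU q) := Fintype.ofFinite _

theorem RU.pow (ζ : RU q) : (ζ : Qbˣ) ^ q = 1 := (mem_rootsOfUnity q (ζ : Qbˣ)).mp ζ.2

theorem RU.ne (ζ : RU q) (h : ζ ≠ 1) : (ζ : Qbˣ) ≠ 1 := fun h1 => h (Subtype.ext h1)

theorem card_RU (q : ℕ) [NeZero q] : Fintype.card (RU q) = q := by
  have : NeZero (q : Qb) := ⟨by exact_mod_cast NeZero.ne q⟩
  obtain ⟨ζ, hζ⟩ := HasEnoughRootsOfUnity.exists_primitiveRoot Qb q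
  rw [← Nat.card_eq_fintype_card]
  exact hζ.card_rootsOfUnity

/-- the embeddings of `F(M q)` over `F(M)` -/
def emb1 : Option (RU q) → (FB (M * q) →+* LaurentSeries Qb) := fun o =>
  o.elim ((qExpand Qb q).comp ((FB (M * q)).val : FB (M * q) →+* LaurentSeries Qb))
    (fun ζ => (twist (ζ : Qbˣ)).comp (((FB (M * q)).val : FB (M * q) →+* LaurentSeries Qb).comp
      (w1 hq hM : FB (M * q) →+* FB (M * q))))

theorem emb1_none (x : FB (M * q)) : emb1 hq hM none x = qExpand Qb q (x : LaurentSeries Qb) := rfl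
theorem emb1_some (ζ : RU q) (x : FB (M * q)) :
    emb1 hq hM (some ζ) x = twist (ζ : Qbˣ) (w1 hq hM x : LaurentSeries Qb) := rfl

/-- the base embedding for `al1` -/
def base1 : FB M →+* LaurentSeries Qb :=
  (qExpand Qb q).comp ((FB M).val : FB M →+* LaurentSeries Qb)

theorem base1_apply (x : FB M) : base1 (q := q) x = qExpand Qb q (x : LaurentSeries Qb) := rfl

theorem coeff_twist_jM (ζ : Qbˣ) : (twist ζ (jM M : LaurentSeries Qb)).coeff (-(M : ℤ)) = ((ζ ^ (-(M : ℤ)) : Qbˣ) : Qb) := by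
  rw [twist_coeff, coeff_jM, mul_one]

theorem zpow_inj (hq : q.Prime) (hM : ¬ q ∣ M) {ζ ξ : Qbˣ} (hζ : ζ ^ q = 1) (hξ : ξ ^ q = 1)
    (h : ζ ^ (-(M : ℤ)) = ξ ^ (-(M : ℤ))) : ζ = ξ := by
  have h1 : (ζ * ξ⁻¹) ^ M = 1 := by
    rw [zpow_neg, zpow_neg, inv_inj, zpow_natCast, zpow_natCast] at h
    rw [mul_pow, h, inv_pow, mul_inv_cancel]
  have h2 : (ζ * ξ⁻¹) ^ q = 1 := by rw [mul_pow, inv_pow, hζ, hξ, inv_one, mul_one]
  have h4 : orderOf (ζ * ξ⁻¹) ∣ Nat.gcd q M :=
    Nat.dvd_gcd (orderOf_dvd_of_pow_eq_one h2) (orderOf_dvd_of_pow_eq_one h1)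
  rw [(Nat.Prime.coprime_iff_not_dvd hq).mpr hM, Nat.dvd_one, orderOf_eq_one_iff] at h4
  exact mul_inv_eq_one.mp h4

theorem coeff_qq_jM (hq : q.Prime) :
    (qExpand Qb q (qExpand Qb q (jM M : LaurentSeries Qb))).coeff (-(M : ℤ)) = 0 := by
  rw [coe_jM, qExpand_qExpand, qExpand_qExpand, qExpand_coeff_of_not_dvd]
  intro hd
  have h4 := Int.natAbs_dvd_natAbs.mpr hd
  rw [Int.natAbs_neg, Int.natAbs_natCast, Int.natAbs_natCast] at h4
  have h5 : 0 < M := Nat.pos_of_ne_zero (NeZero.ne M)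
  have h6 := Nat.le_of_dvd h5 h4
  have h7 : 1 < q := hq.one_lt
  have h8 : 1 < q * q := by nlinarith
  have h9 : 1 * M < q * q * M := Nat.mul_lt_mul_of_pos_right h8 h5
  omega

/-- **embeddings for `al1`** -/
theorem fullEmb1 : FullEmb (al1 M q : FB M →+* FB (M * q)) (base1 (q := q)) (emb1 hq hM) where
  comm a x := by
    cases a with
    | none =>
      refine (emb1_none hq hM _).trans (Eq.trans ?_ (base1_apply x).symm)
      exact congrArg (qExpand Qb q) (coe_al1 M q x)
    | some ζ =>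
      rw [emb1_some, base1_apply]
      change twist (ζ : Qbˣ) (w1 hq hM (al1 M q x) : LaurentSeries Qb) = _
      rw [w1_al, coe_be1, ESh.twist_qExpand _ (RU.pow ζ)]
  inj := by
    intro a b hab
    have h1 := DFunLike.congr_fun hab (be1 M q (jM M))
    have h2 := congrArg (fun s => HahnSeries.coeff s (-(M : ℤ))) h1
    have hn : (emb1 hq hM none (be1 M q (jM M))).coeff (-(M : ℤ)) = 0 := by
      rw [emb1_none, coe_be1, coeff_qq_jM hq]
    have hs : ∀ ζ : RU q, (emb1 hq hM (some ζ) (be1 M q (jM M))).coeff (-(M : ℤ)) =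
        (((ζ : Qbˣ) ^ (-(M : ℤ)) : Qbˣ) : Qb) := by
      intro ζ
      rw [emb1_some, w1_be, coe_al1, coeff_twist_jM]
    cases a with
    | none =>
      cases b with
      | none => rfl
      | some b =>
        simp only [hn, hs] at h2
        exact absurd h2.symm (Units.ne_zero _)
    | some a =>
      cases b with
      | none =>
        simp only [hn, hs] at h2
        exact absurd h2 (Units.ne_zero _)
      | some b =>
        simp only [hs] at h2
        have h3 := zpow_inj hq hM (RU.pow a) (RU.pow b) (Units.ext h2)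
        rw [Subtype.ext h3]
  pos := Fintype.card_pos
  card := by
    rw [Fintype.card_option, card_RU]
    exact finrank_al1 hq hM

open Classical in
/-- the embeddings of `F(M q²)` over `F(M q)` -/
def emb2 : RU q → (FB (M * q * q) →+* LaurentSeries Qb) := fun ζ =>
  if h : ζ = 1 then ((FB (M * q * q)).val : FB (M * q * q) →+* LaurentSeries Qb)
  else (eps hq hM (RU.pow ζ) (RU.ne ζ h) : FB (M * q * q) →+* LaurentSeries Qb)

theorem emb2_one (x : FB (M * q * q)) : emb2 hq hM 1 x = (x : LaurentSeries Qb) := by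
  rw [emb2, dif_pos rfl]; rfl

theorem emb2_ne {ζ : RU q} (h : ζ ≠ 1) (x : FB (M * q * q)) :
    emb2 hq hM ζ x = eps hq hM (RU.pow ζ) (RU.ne ζ h) x := by
  rw [emb2, dif_neg h]; rfl

/-- **embeddings for `al2`** -/
theorem fullEmb2 : FullEmb (al2 M q : FB (M * q) →+* FB (M * q * q))
    ((FB (M * q)).val : FB (M * q) →+* LaurentSeries Qb) (emb2 hq hM) where
  comm a x := by
    by_cases h : a = 1
    · rw [h, emb2_one]
      exact coe_al2 M q x
    · rw [emb2_ne hq hM h]
      exact eps_al hq hM _ _ x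
  inj := by
    intro a b hab
    have h1 := DFunLike.congr_fun hab (be2 M q (be1 M q (jM M)))
    have h2 := congrArg (fun s => HahnSeries.coeff s (-(M : ℤ))) h1
    have hn : (emb2 hq hM 1 (be2 M q (be1 M q (jM M)))).coeff (-(M : ℤ)) = 0 := by
      rw [emb2_one, coe_be2, coe_be1, coeff_qq_jM hq]
    have hs : ∀ ζ : RU q, ζ ≠ 1 → (emb2 hq hM ζ (be2 M q (be1 M q (jM M)))).coeff (-(M : ℤ)) =
        (((ζ : Qbˣ) ^ (-(M : ℤ)) : Qbˣ) : Qb) := by
      intro ζ hζ
      rw [emb2_ne hq hM hζ, eps_be_be, coeff_twist_jM]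
    by_cases ha : a = 1
    · by_cases hb : b = 1
      · rw [ha, hb]
      · simp only [ha, hn, hs b hb] at h2
        exact absurd h2.symm (Units.ne_zero _)
    · by_cases hb : b = 1
      · simp only [hb, hn, hs a ha] at h2
        exact absurd h2 (Units.ne_zero _)
      · simp only [hs a ha, hs b hb] at h2
        exact Subtype.ext (zpow_inj hq hM (RU.pow a) (RU.pow b) (Units.ext h2))
  pos := Fintype.card_pos
  card := by
    rw [card_RU]
    exact finrank_al2 hq

theorem normAlong_eq {K F F' : Type*} [Field K] [Field F] [Field F'] [Algebra K F] [Algebra K F']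
    (φ : F →ₐ[K] F') (x : F') : normAlong φ x = normR (φ : F →+* F') x := rfl

/-- **norm formula for `al1`** -/
theorem qExpand_norm_al1 (f : FB (M * q)) :
    qExpand Qb q (normAlong (al1 M q) f : LaurentSeries Qb) =
      qExpand Qb q (f : LaurentSeries Qb) *
        ∏ ζ : RU q, twist (ζ : Qbˣ) (w1 hq hM f : LaurentSeries Qb) := by
  have h := (fullEmb1 hq hM).norm f
  rw [Fintype.prod_option] at h
  exact h

/-- **norm formula for `al2`** -/
theorem norm_al2 (f : FB (M * q * q)) :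
    (normAlong (al2 M q) f : LaurentSeries Qb) = ∏ ζ : RU q, emb2 hq hM ζ f :=
  (fullEmb2 hq hM).norm f

/-- norms along `be` in terms of norms along `al` -/
theorem normAlong_comp_equiv {K F F' : Type*} [Field K] [Field F] [Field F'] [Algebra K F]
    [Algebra K F'] (φ ψ : F →ₐ[K] F') (e : F' ≃ₐ[K] F') (h : ∀ x, ψ x = e (φ x)) (x : F') :
    normAlong ψ (e x) = normAlong φ x := by
  let a1 : Algebra F F' := algebraAlong φ
  have h1 := @Algebra.norm_eq_of_equiv_equiv F F' F F' _ _ _ _ (algebraAlong φ) (algebraAlong ψ)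
    (RingEquiv.refl F) e.toRingEquiv (by ext y; exact h y) x
  exact h1.symm

/-- the general form: change also the base by an equivalence -/
theorem normAlong_equiv_equiv {K F F' : Type*} [Field K] [Field F] [Field F'] [Algebra K F]
    [Algebra K F'] (φ ψ : F →ₐ[K] F') (e₀ : F ≃ₐ[K] F) (e : F' ≃ₐ[K] F')
    (h : ∀ x, ψ (e₀ x) = e (φ x)) (x : F') :
    normAlong ψ (e x) = e₀ (normAlong φ x) := by
  have h1 := @Algebra.norm_eq_of_equiv_equiv F F' F F' _ _ _ _ (algebraAlong φ) (algebraAlong ψ)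
    e₀.toRingEquiv e.toRingEquiv (by ext y; exact h y) x
  have h2 : normAlong φ x = e₀.symm (normAlong ψ (e x)) := h1
  rw [h2, AlgEquiv.apply_symm_apply]

/-- **norm along `be1`** -/
theorem normAlong_be1 (f : FB (M * q)) :
    normAlong (be1 M q) (w1 hq hM f) = normAlong (al1 M q) f :=
  normAlong_comp_equiv _ _ (w1 hq hM) (fun x => (w1_al hq hM x).symm) f

/-- **norm along `be2`** -/
theorem normAlong_be2 (f : FB (M * q * q)) :
    normAlong (be2 M q) (w2 hq hM f) = w1 hq hM (normAlong (al2 M q) f) :=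
  normAlong_equiv_equiv _ _ (w1 hq hM) (w2 hq hM) (fun x => (w2_al hq hM x).symm) f

end Fermat.Agent.QVal
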