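import Fermat.Agent.QVal.Lift
import Fermat.Agent.ESh.AtkinLehner
import Fermat.Agent.ESh.NormRed
import Fermat.Agent.JZ.FieldInputs
set_option autoImplicit false
set_option linter.unusedSectionVars false
set_option linter.style.haveILetI false
set_option linter.unusedVariables false

/-!
# Atkin-Lehner operators and embeddings at levels `M q` and `M q²`
-/

noncomputable section
open AlgebraicCurve ModularCurve IntermediateField Fermat.Agent.JZ Polynomial

namespace Fermat.Agent.QVal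

local notation "Qb" => AlgebraicClosure ℚ

/-- the function field of `X₀(N)` over `Qb` -/
abbrev FB (N : ℕ) : IntermediateField Qb (LaurentSeries Qb) := modularFunctionFieldBar N

variable (M q : ℕ) [NeZero M] [NeZero q]

/-- first degeneracy map `M → M q` -/
abbrev al1 : FB M →ₐ[Qb] FB (M * q) := heckeAlphaBar Qb M q
/-- second degeneracy map `M → M q` -/
abbrev be1 : FB M →ₐ[Qb] FB (M * q) := heckeBetaBar Qb M q
/-- first degeneracy map `M q → M q²` -/
abbrev al2 : FB (M * q) →ₐ[Qb] FB (M * q * q) := heckeAlphaBar Qb (M * q) q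
/-- second degeneracy map `M q → M q²` -/
abbrev be2 : FB (M * q) →ₐ[Qb] FB (M * q * q) := heckeBetaBar Qb (M * q) q

theorem coe_al1 (x : FB M) : (al1 M q x : LaurentSeries Qb) = x := coe_heckeAlphaBar M q x
theorem coe_be1 (x : FB M) : (be1 M q x : LaurentSeries Qb) = qExpand Qb q (x : LaurentSeries Qb) := rfl
theorem coe_al2 (x : FB (M * q)) : (al2 M q x : LaurentSeries Qb) = x := coe_heckeAlphaBar (M * q) q x
theorem coe_be2 (x : FB (M * q)) : (be2 M q x : LaurentSeries Qb) = qExpand Qb q (x : LaurentSeries Qb) := rfl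

theorem sq_comm (x : FB M) : al2 M q (be1 M q x) = be2 M q (al1 M q x) := by
  apply Subtype.ext
  rw [coe_al2, coe_be1, coe_be2, coe_al1]

/-- the element `j_M` -/
def jM : FB M := ⟨qExpand Qb M (coeffEmb Qb jq), coeffEmb_qExpand_mem dvd_rfl⟩

theorem coe_jM : (jM M : LaurentSeries Qb) = qExpand Qb M (coeffEmb Qb jq) := rfl

theorem jq_mem (N : ℕ) [NeZero N] : coeffEmb Qb jq ∈ FB N := by
  have := coeffEmb_qExpand_mem (L := Qb) (M := N) (d := 1) (one_dvd N)
  rwa [qExpand_one_apply] at this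

theorem gen1 (S : Subfield (FB (M * q))) (h : ∀ x, al1 M q x ∈ S) (h' : be1 M q (jM M) ∈ S) : S = ⊤ := by
  refine eq_top_of_gen modularFieldInputsBar S ?_ ?_ ?_
  · intro a
    have := h (algebraMap Qb (FB M) a)
    rwa [AlgHom.commutes] at this
  · intro x hx
    have h1 : x = al1 M q ⟨coeffEmb Qb jq, jq_mem M⟩ := Subtype.ext (by rw [hx, coe_al1])
    rw [h1]
    exact h _
  · intro x hx
    have h1 : x = be1 M q (jM M) := Subtype.ext (by
      rw [hx, coe_be1, coe_jM, qExpand_qExpand]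
      exact qExpand_congr (mul_comm M q) _)
    rw [h1]
    exact h'

theorem gen2 (S : Subfield (FB (M * q * q))) (h : ∀ x, al2 M q x ∈ S)
    (h' : be2 M q (be1 M q (jM M)) ∈ S) : S = ⊤ := by
  refine eq_top_of_gen modularFieldInputsBar S ?_ ?_ ?_
  · intro a
    have := h (algebraMap Qb (FB (M * q)) a)
    rwa [AlgHom.commutes] at this
  · intro x hx
    have h1 : x = al2 M q ⟨coeffEmb Qb jq, jq_mem (M * q)⟩ := Subtype.ext (by rw [hx, coe_al2])
    rw [h1]
    exact h _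
  · intro x hx
    have h1 : x = be2 M q (be1 M q (jM M)) := Subtype.ext (by
      rw [hx, coe_be2, coe_be1, coe_jM, qExpand_qExpand, qExpand_qExpand]
      exact qExpand_congr (by ring) _)
    rw [h1]
    exact h'

theorem gen2' (S : Subfield (FB (M * q * q))) (h : ∀ x, al2 M q x ∈ S) (h' : ∀ x, be2 M q x ∈ S) : S = ⊤ :=
  gen2 M q S h (h' _)

section degrees

variable {M q} (hq : q.Prime) (hM : ¬ q ∣ M)
include hq

include hM in
theorem finrank_al1 : finrankAlong Qb (al1 M q) = q + 1 := by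
  rw [al1, heckeAlphaBar_eq_inclusion M q (FN_mono (L := Qb) (dvd_mul_right M q)),
    finrankAlong_inclusion]
  have := relfinrank_FN_prime modularFieldInputsBar (M := M) (p := q) hq
  rw [if_neg hM] at this
  exact this

theorem finrank_al2 : finrankAlong Qb (al2 M q) = q := by
  rw [al2, heckeAlphaBar_eq_inclusion (M * q) q (FN_mono (L := Qb) (dvd_mul_right (M * q) q)),
    finrankAlong_inclusion]
  have := relfinrank_FN_prime modularFieldInputsBar (M := M * q) (p := q) hq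
  rw [if_pos (dvd_mul_left q M)] at this
  exact this

include hM in
theorem exists_P : ∃ P : (FB M)[X], P.Monic ∧ P.natDegree = q + 1 ∧
    P.eval₂ (al1 M q : FB M →+* FB (M * q)) (be1 M q (jM M)) = 0 :=
  exists_poly_of_gen (al1 M q : FB M →+* FB (M * q)) (be1 M q (jM M)) (Nat.succ_pos q) (gen1 M q)
    (finrank_al1 hq hM)

end degrees

section w1

variable {M q} (hq : q.Prime) (hM : ¬ q ∣ M)

theorem exists_w1 (hq : q.Prime) (hM : ¬ q ∣ M) : ∃ w : FB (M * q) →ₐ[Qb] FB (M * q),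
      (∀ x, w (al1 M q x) = be1 M q x) ∧ (∀ x, w (be1 M q x) = al1 M q x) := by
  have : Algebra.IsAlgebraic ℚ Qb := AlgebraicClosure.isAlgebraic ℚ
  let _ : Algebra Qb ℂ := (IsAlgClosed.lift (R := ℚ) (S := Qb) (M := ℂ)).toRingHom.toAlgebra
  exact ESh.exists_atkinLehner Qb M q hq hM

/-- the Atkin-Lehner endomorphism at level `M q` -/
def w1h : FB (M * q) →ₐ[Qb] FB (M * q) := (exists_w1 hq hM).choose

theorem w1h_al (x : FB M) : w1h hq hM (al1 M q x) = be1 M q x := (exists_w1 hq hM).choose_spec.1 x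
theorem w1h_be (x : FB M) : w1h hq hM (be1 M q x) = al1 M q x := (exists_w1 hq hM).choose_spec.2 x

theorem w1h_w1h (x : FB (M * q)) : w1h hq hM (w1h hq hM x) = x := by
  have h1 : RingHom.eqLocusField (((w1h hq hM).comp (w1h hq hM) : FB (M * q) →ₐ[Qb] FB (M * q)) :
      FB (M * q) →+* FB (M * q)) (RingHom.id (FB (M * q))) = ⊤ := by
    apply gen1 M q
    · intro x
      change w1h hq hM (w1h hq hM (al1 M q x)) = al1 M q x
      rw [w1h_al, w1h_be]
    · change w1h hq hM (w1h hq hM (be1 M q _)) = be1 M q _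
      rw [w1h_be, w1h_al]
  have h2 : x ∈ RingHom.eqLocusField (((w1h hq hM).comp (w1h hq hM) : FB (M * q) →ₐ[Qb] FB (M * q)) :
      FB (M * q) →+* FB (M * q)) (RingHom.id (FB (M * q))) := by rw [h1]; trivial
  exact h2

/-- the Atkin-Lehner involution at level `M q` -/
def w1 : FB (M * q) ≃ₐ[Qb] FB (M * q) :=
  AlgEquiv.ofAlgHom (w1h hq hM) (w1h hq hM) (AlgHom.ext (w1h_w1h hq hM)) (AlgHom.ext (w1h_w1h hq hM))

theorem w1_al (x : FB M) : w1 hq hM (al1 M q x) = be1 M q x := w1h_al hq hM x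
theorem w1_be (x : FB M) : w1 hq hM (be1 M q x) = al1 M q x := w1h_be hq hM x
theorem w1_w1 (x : FB (M * q)) : w1 hq hM (w1 hq hM x) = x := w1h_w1h hq hM x

end w1

section ext

variable {M q} (hq : q.Prime) (hM : ¬ q ∣ M)

theorem coeff_jq' : (coeffEmb Qb jq).coeff (-1) = 1 := ESh.coeff_jq_neg_one

theorem be_be_ne : be2 M q (be1 M q (jM M)) ≠ al2 M q (al1 M q (jM M)) ∨ q = 1 := by
  by_cases h1 : q = 1
  · exact Or.inr h1
  left
  intro h
  have h2 := congrArg (fun x : FB (M * q * q) => (x : LaurentSeries Qb).coeff (-(M : ℤ))) h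
  simp only [coe_be1, coe_al1, coe_jM] at h2
  have h3 : (qExpand Qb M (coeffEmb Qb jq)).coeff (-(M : ℤ)) = 1 := by
    have := qExpand_coeff_mul M (coeffEmb Qb jq) (-1)
    rw [mul_neg_one] at this
    rw [this, coeff_jq']
  rw [h3, qExpand_qExpand, qExpand_qExpand, qExpand_coeff_of_not_dvd] at h2
  · exact zero_ne_one h2
  · intro hd
    have h4 := Int.natAbs_dvd_natAbs.mpr hd
    rw [Int.natAbs_neg, Int.natAbs_natCast, Int.natAbs_natCast] at h4
    have h5 : 0 < M := Nat.pos_of_ne_zero (NeZero.ne M)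
    have h6 := Nat.le_of_dvd h5 h4
    have h7 : 1 < q := by
      have : q ≠ 0 := NeZero.ne q
      omega
    have h8 : 1 < q * q := by nlinarith
    have h9 : 1 * M < q * q * M := Nat.mul_lt_mul_of_pos_right h8 h5
    omega

/-- **Extension lemma at level `M q²`** -/
theorem exists_ext (hq : q.Prime) (hM : ¬ q ∣ M) {Ω : Type*} [Field Ω] (g g' : FB (M * q) →+* Ω)
    (hg : ∀ x, g' (al1 M q x) = g (be1 M q x)) (hne : g' (be1 M q (jM M)) ≠ g (al1 M q (jM M))) :
    ∃ h : FB (M * q * q) →+* Ω, (∀ x, h (al2 M q x) = g x) ∧ (∀ x, h (be2 M q x) = g' x) := by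
  obtain ⟨P, hPm, hPd, hP⟩ := exists_P hq hM
  exact exists_lift_square (al1 M q : FB M →+* FB (M * q)) (be1 M q : FB M →+* FB (M * q))
    (al2 M q : FB (M * q) →+* FB (M * q * q)) (be2 M q : FB (M * q) →+* FB (M * q * q))
    (sq_comm M q) (w1h hq hM : FB (M * q) →+* FB (M * q)) (w1h_al hq hM) (w1h_be hq hM) (jM M)
    hq.pos P hPm hPd hP (gen1 M q) (gen2 M q) (finrank_al2 hq)
    ((be_be_ne (M := M) (q := q)).resolve_right hq.one_lt.ne') g g' hg hne

theorem ext_unique {Ω : Type*} [Field Ω] (h h' : FB (M * q * q) →+* Ω)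
    (h1 : ∀ x, h (al2 M q x) = h' (al2 M q x)) (h2 : ∀ x, h (be2 M q x) = h' (be2 M q x)) : h = h' :=
  lift_square_unique _ _ (gen2' M q) h h' h1 h2

theorem exists_w2 (hq : q.Prime) (hM : ¬ q ∣ M) : ∃ w : FB (M * q * q) →+* FB (M * q * q),
    (∀ x, w (al2 M q x) = be2 M q (w1 hq hM x)) ∧ (∀ x, w (be2 M q x) = al2 M q (w1 hq hM x)) := by
  refine exists_ext hq hM
    (((be2 M q : FB (M * q) →+* FB (M * q * q))).comp (w1 hq hM : FB (M * q) →+* FB (M * q)))
    (((al2 M q : FB (M * q) →+* FB (M * q * q))).comp (w1 hq hM : FB (M * q) →+* FB (M * q))) ?_ ?_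
  · intro x
    change al2 M q (w1 hq hM (al1 M q x)) = be2 M q (w1 hq hM (be1 M q x))
    rw [w1_al, w1_be, sq_comm]
  · change al2 M q (w1 hq hM (be1 M q _)) ≠ be2 M q (w1 hq hM (al1 M q _))
    rw [w1_al, w1_be]
    exact ((be_be_ne (M := M) (q := q)).resolve_right hq.one_lt.ne').symm

/-- the Atkin-Lehner endomorphism at level `M q²` -/
def w2r : FB (M * q * q) →+* FB (M * q * q) := (exists_w2 hq hM).choose

theorem w2r_al (x : FB (M * q)) : w2r hq hM (al2 M q x) = be2 M q (w1 hq hM x) :=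
  (exists_w2 hq hM).choose_spec.1 x
theorem w2r_be (x : FB (M * q)) : w2r hq hM (be2 M q x) = al2 M q (w1 hq hM x) :=
  (exists_w2 hq hM).choose_spec.2 x

theorem w2r_w2r (x : FB (M * q * q)) : w2r hq hM (w2r hq hM x) = x := by
  have h1 : (w2r hq hM).comp (w2r hq hM) = RingHom.id _ := by
    apply ext_unique
    · intro x
      change w2r hq hM (w2r hq hM (al2 M q x)) = al2 M q x
      rw [w2r_al, w2r_be, w1_w1]
    · intro x
      change w2r hq hM (w2r hq hM (be2 M q x)) = be2 M q x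
      rw [w2r_be, w2r_al, w1_w1]
  exact RingHom.congr_fun h1 x

/-- the Atkin-Lehner endomorphism at level `M q²` as an algebra homomorphism -/
def w2h : FB (M * q * q) →ₐ[Qb] FB (M * q * q) :=
  { w2r hq hM with
    commutes' := fun a => by
      have h1 : algebraMap Qb (FB (M * q * q)) a = al2 M q (algebraMap Qb (FB (M * q)) a) :=
        ((al2 M q).commutes a).symm
      change w2r hq hM _ = _
      rw [h1, w2r_al, AlgEquiv.commutes, AlgHom.commutes, AlgHom.commutes] }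

/-- the Atkin-Lehner involution `w_{q²}` at level `M q²` -/
def w2 : FB (M * q * q) ≃ₐ[Qb] FB (M * q * q) :=
  AlgEquiv.ofAlgHom (w2h hq hM) (w2h hq hM) (AlgHom.ext (w2r_w2r hq hM)) (AlgHom.ext (w2r_w2r hq hM))

theorem w2_al (x : FB (M * q)) : w2 hq hM (al2 M q x) = be2 M q (w1 hq hM x) := w2r_al hq hM x
theorem w2_be (x : FB (M * q)) : w2 hq hM (be2 M q x) = al2 M q (w1 hq hM x) := w2r_be hq hM x
theorem w2_w2 (x : FB (M * q * q)) : w2 hq hM (w2 hq hM x) = x := w2r_w2r hq hM x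

end ext

section eps

open ModFn

variable {M q} (hq : q.Prime) (hM : ¬ q ∣ M)

theorem coeff_jM : (jM M : LaurentSeries Qb).coeff (-(M : ℤ)) = 1 := by
  have := qExpand_coeff_mul M (coeffEmb Qb jq) (-1)
  rw [mul_neg_one] at this
  rw [coe_jM, this, coeff_jq']

theorem twist_jM_ne (hq : q.Prime) (hM : ¬ q ∣ M) {ζ : Qbˣ} (hζ : ζ ^ q = 1) (hζ1 : ζ ≠ 1) :
    twist ζ (jM M : LaurentSeries Qb) ≠ jM M := by
  intro h
  have h1 := congrArg (fun x : LaurentSeries Qb => x.coeff (-(M : ℤ))) h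
  simp only [twist_coeff, coeff_jM, mul_one] at h1
  have h2 : ζ ^ (-(M : ℤ)) = 1 := Units.ext h1
  have h3 : ζ ^ M = 1 := by
    rw [zpow_neg, zpow_natCast, inv_eq_one] at h2
    exact h2
  have h4 : orderOf ζ ∣ Nat.gcd q M := Nat.dvd_gcd (orderOf_dvd_of_pow_eq_one hζ) (orderOf_dvd_of_pow_eq_one h3)
  rw [(Nat.Prime.coprime_iff_not_dvd hq).mpr hM, Nat.dvd_one, orderOf_eq_one_iff] at h4
  exact hζ1 h4

theorem exists_eps (hq : q.Prime) (hM : ¬ q ∣ M) {ζ : Qbˣ} (hζ : ζ ^ q = 1) (hζ1 : ζ ≠ 1) :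
    ∃ h : FB (M * q * q) →+* LaurentSeries Qb, (∀ x, h (al2 M q x) = x) ∧
      (∀ x, h (be2 M q x) = twist ζ (w1 hq hM x : LaurentSeries Qb)) := by
  refine exists_ext hq hM ((FB (M * q)).val : FB (M * q) →+* LaurentSeries Qb)
    ((twist ζ).comp (((FB (M * q)).val : FB (M * q) →+* LaurentSeries Qb).comp
      (w1 hq hM : FB (M * q) →+* FB (M * q)))) ?_ ?_
  · intro x
    change twist ζ (w1 hq hM (al1 M q x) : LaurentSeries Qb) = (be1 M q x : LaurentSeries Qb)
    rw [w1_al, coe_be1, ESh.twist_qExpand _ hζ]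
  · change twist ζ (w1 hq hM (be1 M q _) : LaurentSeries Qb) ≠ (al1 M q _ : LaurentSeries Qb)
    rw [w1_be, coe_al1]
    exact twist_jM_ne hq hM hζ hζ1

/-- the embedding `eps_ζ` as a ring homomorphism -/
def epsr {ζ : Qbˣ} (hζ : ζ ^ q = 1) (hζ1 : ζ ≠ 1) : FB (M * q * q) →+* LaurentSeries Qb :=
  (exists_eps hq hM hζ hζ1).choose

/-- the embedding `eps_ζ : F(M q²) → Qb((X))`, linear over `F(M q)` -/
def eps {ζ : Qbˣ} (hζ : ζ ^ q = 1) (hζ1 : ζ ≠ 1) : FB (M * q * q) →ₐ[Qb] LaurentSeries Qb :=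
  { epsr hq hM hζ hζ1 with
    commutes' := fun a => by
      have h1 : algebraMap Qb (FB (M * q * q)) a = al2 M q (algebraMap Qb (FB (M * q)) a) :=
        ((al2 M q).commutes a).symm
      change epsr hq hM hζ hζ1 _ = _
      rw [h1]
      exact (exists_eps hq hM hζ hζ1).choose_spec.1 _ }

theorem eps_al {ζ : Qbˣ} (hζ : ζ ^ q = 1) (hζ1 : ζ ≠ 1) (x : FB (M * q)) :
    eps hq hM hζ hζ1 (al2 M q x) = x := (exists_eps hq hM hζ hζ1).choose_spec.1 x

theorem eps_be {ζ : Qbˣ} (hζ : ζ ^ q = 1) (hζ1 : ζ ≠ 1) (x : FB (M * q)) :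
    eps hq hM hζ hζ1 (be2 M q x) = twist ζ (w1 hq hM x : LaurentSeries Qb) :=
  (exists_eps hq hM hζ hζ1).choose_spec.2 x

theorem eps_be_be {ζ : Qbˣ} (hζ : ζ ^ q = 1) (hζ1 : ζ ≠ 1) (x : FB M) :
    eps hq hM hζ hζ1 (be2 M q (be1 M q x)) = twist ζ (x : LaurentSeries Qb) := by
  rw [eps_be, w1_be, coe_al1]

/-- `eps` composed with `w_{q²}` is `eps` for the inverse root of unity, twisted -/
theorem eps_w2 {ζ : Qbˣ} (hζ : ζ ^ q = 1) (hζ1 : ζ ≠ 1) (hζ' : ζ⁻¹ ^ q = 1) (hζ1' : ζ⁻¹ ≠ 1)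
    (x : FB (M * q * q)) :
    eps hq hM hζ hζ1 (w2 hq hM x) = twist ζ (eps hq hM hζ' hζ1' x) := by
  have h1 : ((eps hq hM hζ hζ1 : FB (M * q * q) →+* LaurentSeries Qb).comp
      (w2 hq hM : FB (M * q * q) →+* FB (M * q * q))) =
      (twist ζ).comp (eps hq hM hζ' hζ1' : FB (M * q * q) →+* LaurentSeries Qb) := by
    apply ext_unique
    · intro x
      change eps hq hM hζ hζ1 (w2 hq hM (al2 M q x)) = twist ζ (eps hq hM hζ' hζ1' (al2 M q x))
      rw [w2_al, eps_be, w1_w1, eps_al]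
    · intro x
      change eps hq hM hζ hζ1 (w2 hq hM (be2 M q x)) = twist ζ (eps hq hM hζ' hζ1' (be2 M q x))
      rw [w2_be, eps_al, eps_be, twist_twist, mul_inv_cancel, twist_one]
  exact RingHom.congr_fun h1 x

end eps

end Fermat.Agent.QVal
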